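/-
P3-LR (S41, level raising), block (A), file 3 (helper21): the Atkin–Lehner involution `w_q` on
`Hom(Γ₀(N q), M)`, the trace identity and `coresEta = cores ∘ w`, ABSTRACTLY for arbitrary
transversal coset systems (so that the file does not depend on the choice of representatives
made in `A/Degeneracy*.lean`).

`IsTransversalOf N q a S` : the system `S : CosetSys₂ (jGL N) (jGL (N q)) ι` consists of pairwise
distinct cosets `Γ₀(N q) · a γ_i` (`γ_i ∈ Γ₀(N)`) covering `a Γ₀(N)`.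

* `transfer_comp_incl` (Tr): for `IsTransversalOf N q 1 S` and `f : Γ₀(N q) →* Γ₀(N)` the inclusion,
  `(S.transfer ψ) ∘ f = ψ * U_q (ψ ∘ wConj)`;
* `transfer_eta_eq` (CE): for `IsTransversalOf N q 1 S` and `IsTransversalOf N q (heckeMatrix q 0) S'`
  (`heckeMatrix q 0 = diag(1, q) = q · η⁻¹`), `S'.transfer ψ = S.transfer (ψ ∘ wConj)`;
* `uHom_uHom_of_ker` (U2): if `S.transfer ψ = 1` and `S'.transfer ψ = 1` then `U_q (U_q ψ) = ψ`.
-/
import Mathlib
import Fermat.Agent.P3LR.A.AtkinLehnerSys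

set_option autoImplicit false

open scoped MatrixGroups

namespace Fermat.Agent.P3LR.A.AtkinLehner

open Matrix.SpecialLinearGroup CongruenceSubgroup ModularForm
open P2MW.S_ModularForm_heckeT_slash_eq_self_of_mem_Gamma0.ModularForm.HeckeSlashInvariance
open Fermat.Agent.N4F.Tors.HeckeHom Fermat.Agent.P3LR.A.IntMat
open Fermat.Agent.P3LR.A.AtkinLehnerMat Fermat.Agent.P3LR.A.AtkinLehnerSys
open Fermat.Agent.P3LR.A.Transfer2 Fermat.Agent.P3LR.A.Transfer2Ops
open Fermat.Agent.S16.Lower.USystem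
open scoped OnePoint

/-- `S` is a transversal of `Γ₀(N q) \ a Γ₀(N)`. -/
structure IsTransversalOf (N q : ℕ) (a : GL (Fin 2) ℝ) {ι : Type*}
    (S : CosetSys₂ (jGL N) (jGL (N * q)) ι) : Prop where
  inj : S.IsInj
  mem : ∀ i, ∃ γ : ↥(Gamma0 N), S.rep i = a * jGL N γ
  cover : ∀ γ : ↥(Gamma0 N), ∃ (i : ι) (d : ↥(Gamma0 (N * q))),
    a * jGL N γ = jGL (N * q) d * S.rep i

variable (N q : ℕ) [hq : Fact q.Prime] (hqN : ¬ q ∣ N)

omit hq in
/-- `q ∣ N q` -/
theorem dvd_level : q ∣ N * q := Dvd.intro_left N rfl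

/-- the one-coset system of `w_q` -/
noncomputable def wSys : CosetSys₂ (jGL (N * q)) (jGL (N * q)) Unit :=
  CosetSys₂.single (wGL N q hqN) (wConj N q hqN) (wGL_mul_jGL N q hqN)

/-- the system of `U_q ∘ w_q`, scaled by `q⁻¹`: representatives `γ_j ∈ Γ₀(N)` -/
noncomputable def uwSys : CosetSys₂ (jGL (N * q)) (jGL (N * q)) (ZMod q × Unit) :=
  scale ((CosetSys₂.ofCosetSys (jGL_injective (N * q)) (uSys (N * q) q (dvd_level N q))).comp
    (wSys N q hqN)) (zGL q)⁻¹ (zGL_inv_comm q)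

theorem uwSys_rep (x : ZMod q × Unit) :
    (uwSys N q hqN).rep x = jGL N (gam N q hqN x.1) := by
  show (zGL q)⁻¹ * (wGL N q hqN * heckeMatrix q x.1.val) = _
  rw [wGL_mul_heckeMatrix, inv_mul_cancel_left]

theorem transfer_uwSys {M : Type*} [CommGroup M] (ψ : ↥(Gamma0 (N * q)) →* M) :
    (uwSys N q hqN).transfer ψ =
      uHom (N * q) q (dvd_level N q) (ψ.comp (wConj N q hqN)) := by
  rw [uwSys, transfer_scale, CosetSys₂.transfer_comp, wSys, CosetSys₂.transfer_single,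
    CosetSys₂.transfer_ofCosetSys]
  rfl

/-- the system `{1} ∪ {γ_j}` -/
noncomputable def trSys : CosetSys₂ (jGL (N * q)) (jGL (N * q)) (Unit ⊕ (ZMod q × Unit)) :=
  sum (CosetSys₂.single 1 (MonoidHom.id _) (fun g => by simp)) (uwSys N q hqN)

theorem transfer_trSys {M : Type*} [CommGroup M] (ψ : ↥(Gamma0 (N * q)) →* M) :
    (trSys N q hqN).transfer ψ =
      ψ * uHom (N * q) q (dvd_level N q) (ψ.comp (wConj N q hqN)) := by
  rw [trSys, transfer_sum, CosetSys₂.transfer_single, transfer_uwSys, MonoidHom.comp_id]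

theorem trSys_isInj : (trSys N q hqN).IsInj := by
  rintro (⟨⟩ | x) (⟨⟩ | x') d h
  · rfl
  · exfalso
    have h1 : (1 : GL (Fin 2) ℝ) = jGL (N * q) d * jGL N (gam N q hqN x'.1) := by
      have := h
      rwa [show (trSys N q hqN).rep (Sum.inr x') = jGL N (gam N q hqN x'.1) from
        uwSys_rep N q hqN x'] at this
    have h2 : jGL N (gam N q hqN x'.1) = jGL (N * q) d⁻¹ := by
      rw [map_inv]
      exact eq_inv_of_mul_eq_one_right h1.symm
    exact gam_not_mem N q hqN _ _ h2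
  · exfalso
    have h1 : jGL N (gam N q hqN x.1) = jGL (N * q) d * 1 := by
      have := h
      rwa [show (trSys N q hqN).rep (Sum.inr x) = jGL N (gam N q hqN x.1) from
        uwSys_rep N q hqN x] at this
    rw [mul_one] at h1
    exact gam_not_mem N q hqN _ _ h1
  · have h1 : jGL N (gam N q hqN x.1) = jGL (N * q) d * jGL N (gam N q hqN x'.1) := by
      have := h
      rwa [show (trSys N q hqN).rep (Sum.inr x) = jGL N (gam N q hqN x.1) from
        uwSys_rep N q hqN x, show (trSys N q hqN).rep (Sum.inr x') = jGL N (gam N q hqN x'.1) from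
        uwSys_rep N q hqN x'] at this
    have := gam_inj N q hqN _ _ d h1
    exact congrArg Sum.inr (Prod.ext this rfl)

/-! ### (Tr): the trace identity -/

/-- **(Tr), abstract form.**  For any transversal `S` of `Γ₀(N q) \ Γ₀(N)` and the inclusion `f`:
`res (cores ψ) = ψ * U_q (w_q ψ)`. -/
theorem transfer_comp_incl {ι : Type*} [Fintype ι] {M : Type*} [CommGroup M]
    (S : CosetSys₂ (jGL N) (jGL (N * q)) ι) (hS : IsTransversalOf N q 1 S)
    (f : ↥(Gamma0 (N * q)) →* ↥(Gamma0 N)) (hf : ∀ δ, jGL N (f δ) = jGL (N * q) δ)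
    (ψ : ↥(Gamma0 (N * q)) →* M) :
    (S.transfer ψ).comp f =
      ψ * uHom (N * q) q (dvd_level N q) (ψ.comp (wConj N q hqN)) := by
  -- the system of `res ∘ cores`
  set S₁ : CosetSys₂ (jGL (N * q)) (jGL N) Unit :=
    CosetSys₂.single 1 f (fun g => by rw [one_mul, mul_one, hf]) with hS₁
  have hL : (S₁.comp S).transfer ψ = (S.transfer ψ).comp f := by
    rw [CosetSys₂.transfer_comp, hS₁, CosetSys₂.transfer_single]
  rw [← hL, ← transfer_trSys N q hqN ψ]
  have hLrep : ∀ x : Unit × ι, (S₁.comp S).rep x = S.rep x.2 := by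
    intro x
    show S.rep x.2 * 1 = S.rep x.2
    rw [mul_one]
  have hLinj : (S₁.comp S).IsInj := by
    intro x x' d h
    rw [hLrep, hLrep] at h
    exact Prod.ext rfl (hS.inj _ _ d h)
  refine CosetSys₂.transfer_eq_of_rep_mem (trSys N q hqN) (S₁.comp S) (trSys_isInj N q hqN) hLinj
    (jGL_injective (N * q)) ?_ ?_ ψ
  · -- every representative of `S` lies in a coset of `{1} ∪ {γ_j}`
    intro x
    rw [hLrep]
    obtain ⟨γ, hγ⟩ := hS.mem x.2
    rw [one_mul] at hγ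
    rcases exists_gam N q hqN γ with ⟨d, hd⟩ | ⟨j, d, hd⟩
    · refine ⟨Sum.inl (), d, ?_⟩
      show S.rep x.2 = jGL (N * q) d * 1
      rw [mul_one, hγ, hd]
    · refine ⟨Sum.inr (j, ()), d, ?_⟩
      rw [show (trSys N q hqN).rep (Sum.inr (j, ())) = jGL N (gam N q hqN j) from
        uwSys_rep N q hqN (j, ()), hγ, hd]
  · -- every `γ_j` (and `1`) lies in a coset of `S`
    rintro (⟨⟩ | x)
    · obtain ⟨i, d, hd⟩ := hS.cover 1
      rw [one_mul, map_one] at hd
      refine ⟨((), i), d, ?_⟩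
      rw [hLrep]
      exact hd
    · obtain ⟨i, d, hd⟩ := hS.cover (gam N q hqN x.1)
      rw [one_mul] at hd
      refine ⟨((), i), d, ?_⟩
      rw [hLrep, show (trSys N q hqN).rep (Sum.inr x) = jGL N (gam N q hqN x.1) from
        uwSys_rep N q hqN x]
      exact hd

/-! ### (CE): `coresEta = cores ∘ w` -/

/-- `W α = δ₀ · diag(1, q)` -/
theorem wGL_mul_alp :
    wGL N q hqN * jGL N (alp N q hqN) = jGL (N * q) (del0 N q hqN) * heckeMatrix q 0 := by
  have h1 := wGL_mul_wGL N q hqN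
  have h2 := wGL_eq N q hqN
  -- `diag(1, q) * diag(q, 1) = q`
  have h3 : heckeMatrix q 0 * heckeDiagMatrix q = zGL q := by
    have hq0 : q ≠ 0 := hq.out.ne_zero
    apply Units.ext
    rw [Units.val_mul, val_heckeMatrix hq0, val_heckeDiagMatrix hq0, zGL,
      Matrix.GeneralLinearGroup.coe_scalar]
    ext i k
    rw [Matrix.scalar_apply, Matrix.diagonal_apply, Units.val_mk0]
    fin_cases i <;> fin_cases k <;> simp [Matrix.mul_apply, Fin.sum_univ_two]
  -- `W α η = W W = z δ₀ = δ₀ (diag(1,q) η)`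
  have h4 : wGL N q hqN * jGL N (alp N q hqN) * heckeDiagMatrix q =
      jGL (N * q) (del0 N q hqN) * heckeMatrix q 0 * heckeDiagMatrix q := by
    rw [mul_assoc, ← h2, h1, mul_assoc, h3, zGL_comm]
  exact mul_right_cancel h4

/-- **(CE), abstract form.**  For a transversal `S` of `Γ₀(N q) \ Γ₀(N)` and a transversal `S'`
of `Γ₀(N q) \ diag(1, q) Γ₀(N)`: `coresEta ψ = cores (w_q ψ)`. -/
theorem transfer_eta_eq {ι ι' : Type*} [Fintype ι] [Fintype ι'] {M : Type*} [CommGroup M]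
    (S : CosetSys₂ (jGL N) (jGL (N * q)) ι) (hS : IsTransversalOf N q 1 S)
    (S' : CosetSys₂ (jGL N) (jGL (N * q)) ι') (hS' : IsTransversalOf N q (heckeMatrix q 0) S')
    (ψ : ↥(Gamma0 (N * q)) →* M) :
    S'.transfer ψ = S.transfer (ψ.comp (wConj N q hqN)) := by
  have hT : (S.comp (wSys N q hqN)).transfer ψ = S.transfer (ψ.comp (wConj N q hqN)) := by
    rw [CosetSys₂.transfer_comp, wSys, CosetSys₂.transfer_single]
  rw [← hT]
  have hTrep : ∀ x : ι × Unit, (S.comp (wSys N q hqN)).rep x = wGL N q hqN * S.rep x.1 :=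
    fun x => rfl
  have hTinj : (S.comp (wSys N q hqN)).IsInj := by
    intro x x' d h
    rw [hTrep, hTrep] at h
    obtain ⟨d', rfl⟩ := wConj_surjective N q hqN d
    rw [← mul_assoc, ← wGL_mul_jGL, mul_assoc] at h
    exact Prod.ext (hS.inj _ _ d' (mul_left_cancel h)) rfl
  have hα := wGL_mul_alp N q hqN
  refine (CosetSys₂.transfer_eq_of_rep_mem S' (S.comp (wSys N q hqN)) hS'.inj hTinj
    (jGL_injective (N * q)) ?_ ?_ ψ).symm
  · -- `W γ_i = δ₀ · diag(1,q) (α⁻¹ γ_i)`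
    intro x
    rw [hTrep]
    obtain ⟨γ, hγ⟩ := hS.mem x.1
    rw [one_mul] at hγ
    obtain ⟨i', d, hd⟩ := hS'.cover ((alp N q hqN)⁻¹ * γ)
    refine ⟨i', del0 N q hqN * d, ?_⟩
    rw [map_mul, mul_assoc, ← hd, ← mul_assoc, ← hα, hγ, map_mul, map_inv]
    group
  · -- `diag(1,q) γ' = δ₀⁻¹ W (α γ')`
    intro i'
    obtain ⟨γ', hγ'⟩ := hS'.mem i'
    obtain ⟨i, d, hd⟩ := hS.cover (alp N q hqN * γ')
    rw [one_mul, map_mul] at hd
    refine ⟨(i, ()), (del0 N q hqN)⁻¹ * wConj N q hqN d, ?_⟩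
    rw [hTrep, map_mul, map_inv, mul_assoc, ← mul_assoc (jGL (N * q) (wConj N q hqN d)),
      ← wGL_mul_jGL, mul_assoc, ← hd, ← mul_assoc (wGL N q hqN), hα, hγ']
    group

/-! ### (U2): `U_q² = 1` on `ker cores ∩ ker coresEta` -/

include hqN in
/-- **(U2), abstract form.** -/
theorem uHom_uHom_of_ker {ι ι' : Type*} [Fintype ι] [Fintype ι'] {M : Type*} [CommGroup M]
    (S : CosetSys₂ (jGL N) (jGL (N * q)) ι) (hS : IsTransversalOf N q 1 S)
    (S' : CosetSys₂ (jGL N) (jGL (N * q)) ι') (hS' : IsTransversalOf N q (heckeMatrix q 0) S')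
    (f : ↥(Gamma0 (N * q)) →* ↥(Gamma0 N)) (hf : ∀ δ, jGL N (f δ) = jGL (N * q) δ)
    (ψ : ↥(Gamma0 (N * q)) →* M) (h₁ : S.transfer ψ = 1) (h₂ : S'.transfer ψ = 1) :
    uHom (N * q) q (dvd_level N q) (uHom (N * q) q (dvd_level N q) ψ) = ψ := by
  -- `ψ * U w ψ = 1`
  have e1 := transfer_comp_incl N q hqN S hS f hf ψ
  rw [h₁, MonoidHom.one_comp] at e1
  -- `w ψ * U ψ = 1`
  have e2 := transfer_comp_incl N q hqN S hS f hf (ψ.comp (wConj N q hqN))
  rw [← transfer_eta_eq N q hqN S hS S' hS' ψ, h₂, MonoidHom.one_comp,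
    comp_wConj_wConj] at e2
  -- `U ψ = (w ψ)⁻¹`, `U (w ψ) = ψ⁻¹`
  have e3 : uHom (N * q) q (dvd_level N q) ψ = (ψ.comp (wConj N q hqN))⁻¹ :=
    eq_inv_of_mul_eq_one_right e2.symm
  have e4 : uHom (N * q) q (dvd_level N q) (ψ.comp (wConj N q hqN)) = ψ⁻¹ :=
    eq_inv_of_mul_eq_one_right e1.symm
  rw [e3, map_inv, e4, inv_inv]

end Fermat.Agent.P3LR.A.AtkinLehner
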