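/-
P3-LR (S41, level raising), block (A), file 3c (helper21): the additive operators `wAdd`, `UAdd`
on `Hom(Γ₀(N q), A)` and the additive forms of (Tr), (CE), (U2) for arbitrary transversal systems.

* `UAdd N q := USystem.uAdd (N * q) q _` (`U_q` at level `N q`; `UAdd_periodHomPair` in the shape
  of moonshots row 35);
* `wAdd N q hqN ψ = ψ ∘ wConj` (`wAdd_wAdd`, `wAdd_comp`, `wAdd_mem_parHomAdd`);
* `transferAdd S ψ` : additive form of `CosetSys₂.transfer`;
* `transferAdd_comp_incl` (Tr), `transferAdd_eta_eq` (CE), `UAdd_UAdd_of_transferAdd_eq_zero` (U2).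
-/
import Mathlib
import Fermat.Agent.P3LR.A.AtkinLehner

set_option autoImplicit false

open scoped MatrixGroups

namespace Fermat.Agent.P3LR.A.AtkinLehnerAdd

open Matrix.SpecialLinearGroup CongruenceSubgroup ModularForm
open P2MW.S_ModularForm_heckeT_slash_eq_self_of_mem_Gamma0.ModularForm.HeckeSlashInvariance
open Fermat.Agent.N4F.Tors.HeckeHom Fermat.Agent.P3LR.A.IntMat
open Fermat.Agent.P3LR.A.AtkinLehnerMat Fermat.Agent.P3LR.A.AtkinLehnerSys
open Fermat.Agent.P3LR.A.AtkinLehner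
open Fermat.Agent.P3LR.A.Transfer2 Fermat.Agent.P3LR.A.Transfer2Ops
open Fermat.Agent.S16.Lower.USystem
open scoped OnePoint

/-! ### Additive form of the transfer -/

section TransferAdd

variable {G Gam Del : Type*} [Group G] [Group Gam] [Group Del] {jΓ : Gam →* G} {jΔ : Del →* G}
  {ι : Type*} [Fintype ι]

/-- the transfer along a coset system, additively -/
noncomputable def transferAdd (S : CosetSys₂ jΓ jΔ ι) {A : Type*} [AddCommGroup A]
    (ψ : Additive Del →+ A) : Additive Gam →+ A :=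
  MonoidHom.toAdditiveLeft (S.transfer (AddMonoidHom.toMultiplicativeRight ψ))

theorem toMultiplicativeRight_transferAdd (S : CosetSys₂ jΓ jΔ ι) {A : Type*} [AddCommGroup A]
    (ψ : Additive Del →+ A) :
    AddMonoidHom.toMultiplicativeRight (transferAdd S ψ) =
      S.transfer (AddMonoidHom.toMultiplicativeRight ψ) := rfl

theorem transferAdd_apply (S : CosetSys₂ jΓ jΔ ι) {A : Type*} [AddCommGroup A]
    (ψ : Additive Del →+ A) (g : Gam) :
    transferAdd S ψ (Additive.ofMul g) = ∑ i, ψ (Additive.ofMul (S.coc g i)) := by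
  show Multiplicative.toAdd (S.transfer (AddMonoidHom.toMultiplicativeRight ψ) g) = _
  rw [CosetSys₂.transfer_apply, toAdd_prod]
  rfl

end TransferAdd

variable (N q : ℕ) [hq : Fact q.Prime]

/-! ### `U_q` at level `N q` -/

/-- **`U_q` on `Hom(Γ₀(N q), A)`** -/
noncomputable abbrev UAdd {A : Type*} [AddCommGroup A] :
    (Additive ↥(Gamma0 (N * q)) →+ A) →+ (Additive ↥(Gamma0 (N * q)) →+ A) :=
  uAdd (N * q) q (dvd_level N q)

theorem toMultiplicativeRight_UAdd {A : Type*} [AddCommGroup A]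
    (ψ : Additive ↥(Gamma0 (N * q)) →+ A) :
    AddMonoidHom.toMultiplicativeRight (UAdd N q ψ) =
      uHom (N * q) q (dvd_level N q) (AddMonoidHom.toMultiplicativeRight ψ) := rfl

/-- the period map intertwines `U_q` on cusp forms with `UAdd` (shape of moonshots row 35) -/
theorem UAdd_periodHomPair [NeZero (N * q)] (hqp : q.Prime)
    (f g : CuspForm (Gamma0 (N * q)) 2) :
    UAdd N q (ModularCurve.periodHomPair (N * q) (f, g)) =
      ModularCurve.periodHomPair (N * q)
        (CuspForm.heckeULin 2 (Dvd.intro_left N rfl) f,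
          CuspForm.heckeULin 2 (Dvd.intro_left N rfl) g) :=
  uAdd_periodHomPair (N * q) hqp (dvd_level N q) f g

/-! ### `w_q` -/

variable (hqN : ¬ q ∣ N)

/-- **the Atkin–Lehner involution `w_q` on `Hom(Γ₀(N q), A)`**: `ψ ↦ ψ ∘ (W · W⁻¹)` -/
noncomputable def wAdd {A : Type*} [AddCommGroup A] :
    (Additive ↥(Gamma0 (N * q)) →+ A) →+ (Additive ↥(Gamma0 (N * q)) →+ A) where
  toFun ψ := ψ.comp (MonoidHom.toAdditive (wConj N q hqN))
  map_zero' := rfl
  map_add' _ _ := rfl

theorem wAdd_apply {A : Type*} [AddCommGroup A] (ψ : Additive ↥(Gamma0 (N * q)) →+ A)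
    (δ : ↥(Gamma0 (N * q))) :
    wAdd N q hqN ψ (Additive.ofMul δ) = ψ (Additive.ofMul (wConj N q hqN δ)) := rfl

theorem toMultiplicativeRight_wAdd {A : Type*} [AddCommGroup A]
    (ψ : Additive ↥(Gamma0 (N * q)) →+ A) :
    AddMonoidHom.toMultiplicativeRight (wAdd N q hqN ψ) =
      (AddMonoidHom.toMultiplicativeRight ψ).comp (wConj N q hqN) := rfl

theorem wAdd_comp {A B : Type*} [AddCommGroup A] [AddCommGroup B] (f : A →+ B)
    (ψ : Additive ↥(Gamma0 (N * q)) →+ A) :
    wAdd N q hqN (f.comp ψ) = f.comp (wAdd N q hqN ψ) := rfl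

/-- `w_q² = 1` -/
theorem wAdd_wAdd {A : Type*} [AddCommGroup A] (ψ : Additive ↥(Gamma0 (N * q)) →+ A) :
    wAdd N q hqN (wAdd N q hqN ψ) = ψ := by
  apply AddMonoidHom.toMultiplicativeRight.injective
  rw [toMultiplicativeRight_wAdd, toMultiplicativeRight_wAdd, comp_wConj_wConj]

theorem jGL_wConj (δ : ↥(Gamma0 (N * q))) :
    jGL (N * q) (wConj N q hqN δ) = wGL N q hqN * jGL (N * q) δ ^ 1 * (wGL N q hqN)⁻¹ := by
  rw [pow_one, wGL_mul_jGL, mul_inv_cancel_right]

theorem wAdd_mem_parHomAdd {A : Type*} [AddCommGroup A] {ψ : Additive ↥(Gamma0 (N * q)) →+ A}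
    (hψ : ψ ∈ parHomAdd (N * q) A) : wAdd N q hqN ψ ∈ parHomAdd (N * q) A := by
  intro g hg
  rw [wAdd_apply]
  exact hψ _ (parEllSet_stable (N * q) g hg 1 (wGL N q hqN) _ (jGL_wConj N q hqN g))

/-! ### (Tr), (CE), (U2), additive forms for arbitrary transversals -/

section Abstract

variable {ι ι' : Type*} [Fintype ι] [Fintype ι'] {A : Type*} [AddCommGroup A]

/-- **(Tr)**: `res (cores ψ) = ψ + U_q (w_q ψ)`. -/
theorem transferAdd_comp_incl (S : CosetSys₂ (jGL N) (jGL (N * q)) ι)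
    (hS : IsTransversalOf N q 1 S) (f : ↥(Gamma0 (N * q)) →* ↥(Gamma0 N))
    (hf : ∀ δ, jGL N (f δ) = jGL (N * q) δ) (ψ : Additive ↥(Gamma0 (N * q)) →+ A) :
    (transferAdd S ψ).comp (MonoidHom.toAdditive f) = ψ + UAdd N q (wAdd N q hqN ψ) := by
  apply AddMonoidHom.toMultiplicativeRight.injective
  have h := transfer_comp_incl N q hqN S hS f hf (AddMonoidHom.toMultiplicativeRight ψ)
  exact h

/-- **(CE)**: `coresEta ψ = cores (w_q ψ)`. -/
theorem transferAdd_eta_eq (S : CosetSys₂ (jGL N) (jGL (N * q)) ι)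
    (hS : IsTransversalOf N q 1 S) (S' : CosetSys₂ (jGL N) (jGL (N * q)) ι')
    (hS' : IsTransversalOf N q (heckeMatrix q 0) S') (ψ : Additive ↥(Gamma0 (N * q)) →+ A) :
    transferAdd S' ψ = transferAdd S (wAdd N q hqN ψ) := by
  apply AddMonoidHom.toMultiplicativeRight.injective
  exact transfer_eta_eq N q hqN S hS S' hS' (AddMonoidHom.toMultiplicativeRight ψ)

include hqN in
/-- **(U2)**: `U_q² = 1` on `ker cores ∩ ker coresEta`. -/
theorem UAdd_UAdd_of_transferAdd_eq_zero (S : CosetSys₂ (jGL N) (jGL (N * q)) ι)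
    (hS : IsTransversalOf N q 1 S) (S' : CosetSys₂ (jGL N) (jGL (N * q)) ι')
    (hS' : IsTransversalOf N q (heckeMatrix q 0) S') (f : ↥(Gamma0 (N * q)) →* ↥(Gamma0 N))
    (hf : ∀ δ, jGL N (f δ) = jGL (N * q) δ) (ψ : Additive ↥(Gamma0 (N * q)) →+ A)
    (h₁ : transferAdd S ψ = 0) (h₂ : transferAdd S' ψ = 0) :
    UAdd N q (UAdd N q ψ) = ψ := by
  apply AddMonoidHom.toMultiplicativeRight.injective
  have e₁ : S.transfer (AddMonoidHom.toMultiplicativeRight ψ) = 1 := by
    rw [← toMultiplicativeRight_transferAdd, h₁]; rfl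
  have e₂ : S'.transfer (AddMonoidHom.toMultiplicativeRight ψ) = 1 := by
    rw [← toMultiplicativeRight_transferAdd, h₂]; rfl
  exact uHom_uHom_of_ker N q hqN S hS S' hS' f hf _ e₁ e₂

end Abstract

end Fermat.Agent.P3LR.A.AtkinLehnerAdd
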