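/-
P3-LR block (A), file 0: integer `2 × 2` matrices inside `GL₂(ℝ)`.

All coset representatives of the degeneracy / Hecke / Atkin–Lehner coset systems are integer
matrices of non-zero determinant.  `glOf A : GL (Fin 2) ℝ` is the (total) embedding; relations
`rep * g = c * rep'` in `GL₂(ℝ)` are equivalent to the same relations between integer matrices.
-/
import Mathlib
import Fermat.Agent.N4F.Tors.HeckeHom

set_option autoImplicit false

open scoped MatrixGroups

namespace Fermat.Agent.P3LR.A.IntMat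

open Matrix.SpecialLinearGroup CongruenceSubgroup ModularForm
open P2MW.S_ModularForm_heckeT_slash_eq_self_of_mem_Gamma0.ModularForm.HeckeSlashInvariance
open Fermat.Agent.N4F.Tors.HeckeHom
open scoped OnePoint

/-- integer `2 × 2` matrices -/
abbrev MI := Matrix (Fin 2) (Fin 2) ℤ

/-- the real matrix of an integer matrix -/
def toReal (A : MI) : Matrix (Fin 2) (Fin 2) ℝ := A.map (Int.cast : ℤ → ℝ)

@[simp] theorem toReal_apply (A : MI) (i k : Fin 2) : toReal A i k = ((A i k : ℤ) : ℝ) := rfl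

theorem toReal_mul (A B : MI) : toReal (A * B) = toReal A * toReal B := by
  ext i k
  simp [toReal, Matrix.mul_apply]

theorem toReal_one : toReal 1 = 1 := by
  ext i k
  simp [toReal, Matrix.one_apply]

theorem toReal_injective : Function.Injective toReal := by
  intro A B h
  ext i k
  have := congrFun (congrFun h i) k
  simpa using this

theorem det_toReal (A : MI) : (toReal A).det = ((A.det : ℤ) : ℝ) := by
  rw [Matrix.det_fin_two, Matrix.det_fin_two]
  simp

/-- an integer matrix as an element of `GL₂(ℝ)` (junk value `1` if the determinant vanishes) -/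
noncomputable def glOf (A : MI) : GL (Fin 2) ℝ :=
  if h : A.det = 0 then 1
  else Matrix.GeneralLinearGroup.mkOfDetNeZero (toReal A) (by
    rw [det_toReal]; exact_mod_cast h)

theorem coe_glOf {A : MI} (h : A.det ≠ 0) :
    ((glOf A : GL (Fin 2) ℝ) : Matrix (Fin 2) (Fin 2) ℝ) = toReal A := by
  rw [glOf, dif_neg h]
  rfl

theorem glOf_apply {A : MI} (h : A.det ≠ 0) (i k : Fin 2) :
    (glOf A : GL (Fin 2) ℝ) i k = ((A i k : ℤ) : ℝ) := by
  show ((glOf A : GL (Fin 2) ℝ) : Matrix (Fin 2) (Fin 2) ℝ) i k = _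
  rw [coe_glOf h]
  rfl

theorem glOf_mul {A B : MI} (hA : A.det ≠ 0) (hB : B.det ≠ 0) :
    glOf (A * B) = glOf A * glOf B := by
  have hAB : (A * B).det ≠ 0 := by rw [Matrix.det_mul]; exact mul_ne_zero hA hB
  apply Units.ext
  rw [Units.val_mul, coe_glOf hAB, coe_glOf hA, coe_glOf hB, toReal_mul]

theorem glOf_one : glOf 1 = 1 := by
  apply Units.ext
  rw [coe_glOf (by simp), toReal_one]
  rfl

theorem glOf_inj {A B : MI} (hA : A.det ≠ 0) (hB : B.det ≠ 0) (h : glOf A = glOf B) : A = B := by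
  apply toReal_injective
  rw [← coe_glOf hA, ← coe_glOf hB, h]

theorem det_coe_SL (g : SL(2, ℤ)) : (g : MI).det ≠ 0 := by
  rw [g.det_coe]; exact one_ne_zero

theorem glOf_coe_SL (g : SL(2, ℤ)) : glOf (g : MI) = mapGL ℝ g := by
  apply Units.ext
  rw [coe_glOf (det_coe_SL g)]
  ext i k
  rw [toReal_apply]
  exact (mapGL_apply g i k).symm

theorem jGL_eq_glOf (N : ℕ) (g : ↥(Gamma0 N)) : jGL N g = glOf ((g : SL(2, ℤ)) : MI) :=
  (glOf_coe_SL _).symm

/-- **The bridge**: a relation `A * g = c * B` in `GL₂(ℝ)` between integer matrices is the same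
relation between integer matrices. -/
theorem glOf_mul_mapGL_eq_iff {A B : MI} (hA : A.det ≠ 0) (hB : B.det ≠ 0) (g c : SL(2, ℤ)) :
    glOf A * mapGL ℝ g = mapGL ℝ c * glOf B ↔ A * (g : MI) = (c : MI) * B := by
  rw [← glOf_coe_SL, ← glOf_coe_SL, ← glOf_mul hA (det_coe_SL g), ← glOf_mul (det_coe_SL c) hB]
  constructor
  · intro h
    refine glOf_inj ?_ ?_ h
    · rw [Matrix.det_mul]; exact mul_ne_zero hA (det_coe_SL g)
    · rw [Matrix.det_mul]; exact mul_ne_zero (det_coe_SL c) hB
  · intro h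
    rw [h]

theorem glOf_eq_mapGL_mul_iff {A B : MI} (hA : A.det ≠ 0) (hB : B.det ≠ 0) (c : SL(2, ℤ)) :
    glOf A = mapGL ℝ c * glOf B ↔ A = (c : MI) * B := by
  have h := glOf_mul_mapGL_eq_iff hA hB 1 c
  rw [map_one, mul_one] at h
  rw [h]
  simp

/-! ### The Hecke representatives as integer matrices -/

/-- the integer matrix of `heckeRep p x` -/
def hInt (p : ℕ) (x : OnePoint (ZMod p)) : MI :=
  x.elim !![(p : ℤ), 0; 0, 1] (fun j => !![1, (j.val : ℤ); 0, (p : ℤ)])

@[simp] theorem hInt_infty (p : ℕ) : hInt p ∞ = !![(p : ℤ), 0; 0, 1] := rfl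

@[simp] theorem hInt_coe (p : ℕ) (j : ZMod p) : hInt p j = !![1, (j.val : ℤ); 0, (p : ℤ)] := rfl

theorem det_hInt (p : ℕ) (x : OnePoint (ZMod p)) : (hInt p x).det = p := by
  induction x using OnePoint.rec with
  | infty => simp [Matrix.det_fin_two]
  | coe j => simp [Matrix.det_fin_two]

theorem det_hInt_ne_zero (p : ℕ) [NeZero p] (x : OnePoint (ZMod p)) : (hInt p x).det ≠ 0 := by
  rw [det_hInt]; exact_mod_cast NeZero.ne p

theorem heckeRep_eq_glOf (p : ℕ) [NeZero p] (x : OnePoint (ZMod p)) :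
    heckeRep p x = glOf (hInt p x) := by
  have hp : p ≠ 0 := NeZero.ne p
  apply Units.ext
  rw [coe_glOf (det_hInt_ne_zero p x)]
  induction x using OnePoint.rec with
  | infty =>
    rw [heckeRep_infty, val_heckeDiagMatrix hp]
    ext i k
    fin_cases i <;> fin_cases k <;> simp
  | coe j =>
    rw [heckeRep_coe, val_heckeMatrix hp]
    ext i k
    fin_cases i <;> fin_cases k <;> simp

end Fermat.Agent.P3LR.A.IntMat
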