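/-
P3-LR (S41, level raising), block (A), file 1: TWO-GROUP COSET SYSTEMS AND THEIR TRANSFER.

Generalises helper7's `N4F/Tors/HeckeHom.CosetSys` (one group `Gam`, `j : Gam →* G`) to a pair of
groups `jΓ : Gam →* G`, `jΔ : Del →* G`: a family `rep i ∈ G` with
`rep i * jΓ g = jΔ (coc g i) * rep (perm g i)`.  The transfer is
`(Del →* M) →* (Gam →* M)`, `ψ ↦ (g ↦ ∏ i, ψ (coc g i))`.
Restriction, conjugation, corestriction, Hecke operators `T_ℓ`, `U_q`, Atkin–Lehner involutions
are all of this form, and the relations between them ((R1), (R2), the trace identity) become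
statements "two coset systems have the same transfer".

The cocycle identities are FIELDS (so that composites, which may repeat cosets, are allowed);
`CosetSys₂.ofInj` builds a system from representatives of pairwise distinct cosets.

* `transfer`, `transfer_apply`, `transfer_comp_hom`;
* `transfer_eq_of_equiv`, `transfer_eq_of_rep_eq` (independence of the transversal);
* `comp`, `transfer_comp` (composition);
* `single`, `transfer_single` (pull-back along a homomorphism);
* `transfer_eq_one_of_mem` (kill lemma);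
* `ofCosetSys`, `transfer_ofCosetSys` (comparison with `HeckeHom.CosetSys.transferHom`);
* `transfer_comp_of_rep_mem_range` (`cores ∘ res = index`).
-/
import Mathlib
import Fermat.Agent.N4F.Tors.HeckeHom

set_option autoImplicit false

namespace Fermat.Agent.P3LR.A.Transfer2

open Fermat.Agent.N4F.Tors.HeckeHom

variable {G Gam Del Eps : Type*} [Group G] [Group Gam] [Group Del] [Group Eps]

/-- A two-group coset system: representatives `rep i ∈ G` with
`rep i * jΓ g = jΔ (coc g i) * rep (perm g i)`, `perm` a right action of `Gam` on the index set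
and `coc` a cocycle for it. -/
structure CosetSys₂ (jΓ : Gam →* G) (jΔ : Del →* G) (ι : Type*) where
  /-- the representatives -/
  rep : ι → G
  /-- the (right) action on the index set -/
  perm : Gam → ι → ι
  /-- the cocycle -/
  coc : Gam → ι → Del
  rep_mul : ∀ (g : Gam) (i : ι), rep i * jΓ g = jΔ (coc g i) * rep (perm g i)
  perm_one : ∀ i : ι, perm 1 i = i
  perm_mul : ∀ (g h : Gam) (i : ι), perm (g * h) i = perm h (perm g i)
  coc_mul : ∀ (g h : Gam) (i : ι), coc (g * h) i = coc g i * coc h (perm g i)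

namespace CosetSys₂

variable {jΓ : Gam →* G} {jΔ : Del →* G} {jΕ : Eps →* G} {ι ι' : Type*}

/-- the cosets `jΔ(Del) * rep i` are pairwise distinct -/
def IsInj (S : CosetSys₂ jΓ jΔ ι) : Prop :=
  ∀ (i i' : ι) (d : Del), S.rep i = jΔ d * S.rep i' → i = i'

section Basic

variable (S : CosetSys₂ jΓ jΔ ι)

theorem coc_one (i : ι) : S.coc 1 i = 1 := by
  have h := S.coc_mul 1 1 i
  rw [mul_one, S.perm_one] at h
  exact (mul_eq_left.mp h.symm)

/-- the permutation attached to `g`, as an equivalence -/
def permEquiv (g : Gam) : Equiv.Perm ι where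
  toFun := S.perm g
  invFun := S.perm g⁻¹
  left_inv i := by rw [← S.perm_mul, mul_inv_cancel, S.perm_one]
  right_inv i := by rw [← S.perm_mul, inv_mul_cancel, S.perm_one]

@[simp] theorem permEquiv_apply (g : Gam) (i : ι) : S.permEquiv g i = S.perm g i := rfl

theorem perm_pow (g : Gam) (n : ℕ) (i : ι) : S.perm (g ^ n) i = ((S.permEquiv g) ^ n) i := by
  induction n generalizing i with
  | zero => simp [S.perm_one]
  | succ n ih =>
    rw [pow_succ, S.perm_mul, ih, pow_succ', Equiv.Perm.mul_apply, permEquiv_apply]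

variable {M : Type*} [CommGroup M]

theorem map_coc_pow (ψ : Del →* M) (g : Gam) (n : ℕ) (i : ι) :
    ψ (S.coc (g ^ n) i) = ∏ k ∈ Finset.range n, ψ (S.coc g (((S.permEquiv g) ^ k) i)) := by
  induction n with
  | zero => simp [S.coc_one]
  | succ n ih =>
    rw [pow_succ, S.coc_mul, map_mul, ih, Finset.prod_range_succ, S.perm_pow]

end Basic

/-! ### Systems of pairwise distinct cosets -/

section OfInj

/-- A coset system from representatives of pairwise distinct cosets: the cocycle identities
follow from uniqueness. -/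
def ofInj (hΔ : Function.Injective jΔ) (rep : ι → G) (perm : Gam → ι → ι) (coc : Gam → ι → Del)
    (rep_mul : ∀ (g : Gam) (i : ι), rep i * jΓ g = jΔ (coc g i) * rep (perm g i))
    (rep_inj : ∀ (i i' : ι) (d : Del), rep i = jΔ d * rep i' → i = i') :
    CosetSys₂ jΓ jΔ ι :=
  have key : ∀ {g : Gam} {i i' : ι} {c : Del}, rep i * jΓ g = jΔ c * rep i' →
      perm g i = i' ∧ coc g i = c := by
    intro g i i' c h
    have h1 := rep_mul g i
    rw [h] at h1
    have hp : perm g i = i' := by
      refine (rep_inj i' (perm g i) (c⁻¹ * coc g i) ?_).symm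
      rw [map_mul, map_inv, mul_assoc, ← h1, inv_mul_cancel_left]
    refine ⟨hp, ?_⟩
    rw [hp] at h1
    exact (hΔ (mul_right_cancel h1)).symm
  have hmm : ∀ (g h : Gam) (i : ι), rep i * jΓ (g * h) =
      jΔ (coc g i * coc h (perm g i)) * rep (perm h (perm g i)) := by
    intro g h i
    rw [map_mul, ← mul_assoc, rep_mul g i, mul_assoc, rep_mul h, ← mul_assoc, map_mul]
  { rep := rep
    perm := perm
    coc := coc
    rep_mul := rep_mul
    perm_one := fun i => (key (c := 1) (by simp)).1
    perm_mul := fun g h i => (key (hmm g h i)).1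
    coc_mul := fun g h i => (key (hmm g h i)).2 }

@[simp] theorem ofInj_rep (hΔ : Function.Injective jΔ) (rep : ι → G) (perm : Gam → ι → ι)
    (coc : Gam → ι → Del) (rep_mul) (rep_inj) (i : ι) :
    (ofInj (jΓ := jΓ) hΔ rep perm coc rep_mul rep_inj).rep i = rep i := rfl

@[simp] theorem ofInj_perm (hΔ : Function.Injective jΔ) (rep : ι → G) (perm : Gam → ι → ι)
    (coc : Gam → ι → Del) (rep_mul) (rep_inj) (g : Gam) (i : ι) :
    (ofInj (jΓ := jΓ) hΔ rep perm coc rep_mul rep_inj).perm g i = perm g i := rfl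

@[simp] theorem ofInj_coc (hΔ : Function.Injective jΔ) (rep : ι → G) (perm : Gam → ι → ι)
    (coc : Gam → ι → Del) (rep_mul) (rep_inj) (g : Gam) (i : ι) :
    (ofInj (jΓ := jΓ) hΔ rep perm coc rep_mul rep_inj).coc g i = coc g i := rfl

theorem isInj_ofInj (hΔ : Function.Injective jΔ) (rep : ι → G) (perm : Gam → ι → ι)
    (coc : Gam → ι → Del) (rep_mul) (rep_inj) :
    (ofInj (jΓ := jΓ) hΔ rep perm coc rep_mul rep_inj).IsInj := rep_inj

variable (S : CosetSys₂ jΓ jΔ ι)

theorem perm_eq_of_eq (hS : S.IsInj) {g : Gam} {i i' : ι} {c : Del}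
    (h : S.rep i * jΓ g = jΔ c * S.rep i') : S.perm g i = i' := by
  have h1 := S.rep_mul g i
  rw [h] at h1
  refine (hS i' (S.perm g i) (c⁻¹ * S.coc g i) ?_).symm
  rw [map_mul, map_inv, mul_assoc, ← h1, inv_mul_cancel_left]

theorem coc_eq_of_eq (hS : S.IsInj) (hΔ : Function.Injective jΔ) {g : Gam} {i i' : ι} {c : Del}
    (h : S.rep i * jΓ g = jΔ c * S.rep i') : S.coc g i = c := by
  have hp := S.perm_eq_of_eq hS h
  have h1 := S.rep_mul g i
  rw [h, hp] at h1
  exact (hΔ (mul_right_cancel h1)).symm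

end OfInj

/-! ### The transfer -/

section Transfer

variable (S : CosetSys₂ jΓ jΔ ι) {M : Type*} [CommGroup M] [Fintype ι]

/-- The transfer of a homomorphism along a coset system: `g ↦ ∏ i, ψ (coc g i)`. -/
def transferHom (ψ : Del →* M) : Gam →* M where
  toFun g := ∏ i, ψ (S.coc g i)
  map_one' := by simp [S.coc_one]
  map_mul' g h := by
    have h1 : ∏ i, ψ (S.coc h (S.perm g i)) = ∏ i, ψ (S.coc h i) :=
      Equiv.prod_comp (S.permEquiv g) (fun i => ψ (S.coc h i))
    simp only [S.coc_mul, map_mul, Finset.prod_mul_distrib, h1]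

/-- The transfer as a homomorphism `(Del →* M) →* (Gam →* M)`. -/
def transfer : (Del →* M) →* (Gam →* M) where
  toFun := S.transferHom
  map_one' := by ext g; simp [transferHom]
  map_mul' φ ψ := by ext g; simp [transferHom, Finset.prod_mul_distrib]

theorem transfer_apply (ψ : Del →* M) (g : Gam) :
    S.transfer ψ g = ∏ i, ψ (S.coc g i) := rfl

theorem transfer_comp_hom {M' : Type*} [CommGroup M'] (f : M →* M') (ψ : Del →* M) :
    S.transfer (f.comp ψ) = f.comp (S.transfer ψ) := by
  ext g; simp [transfer_apply]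

/-- **Kill lemma.** If `ψ` kills a set `T'` containing all "conjugates of powers" of elements
of `T`, then its transfer kills `T`. -/
theorem transfer_eq_one_of_mem (T : Set Gam) (T' : Set Del)
    (hT : ∀ g ∈ T, ∀ (n : ℕ) (a : G) (d : Del), jΔ d = a * jΓ g ^ n * a⁻¹ → d ∈ T')
    (ψ : Del →* M) (hψ : ∀ d ∈ T', ψ d = 1) {g : Gam} (hg : g ∈ T) :
    S.transfer ψ g = 1 := by
  rw [transfer_apply]
  refine prod_univ_eq_one_of_orbits (S.permEquiv g) (fun i => ψ (S.coc g i)) ?_
  intro i r _ hri
  rw [← S.map_coc_pow]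
  refine hψ _ (hT g hg r (S.rep i) _ ?_)
  have h1 := S.rep_mul (g ^ r) i
  rw [S.perm_pow, hri, map_pow] at h1
  rw [h1, mul_inv_cancel_right]

end Transfer

/-! ### Independence of the transversal -/

section Equivalence

variable (S : CosetSys₂ jΓ jΔ ι) (S' : CosetSys₂ jΓ jΔ ι') {M : Type*} [CommGroup M]
  [Fintype ι] [Fintype ι']

/-- Two coset systems related by a bijection of index sets and a change of representatives
`rep' i' = jΔ (d i') * rep (σ i')` (compatible with `perm` and `coc`) have the same transfer. -/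
theorem transfer_eq_of_equiv (σ : ι' ≃ ι) (d : ι' → Del)
    (_hperm : ∀ (g : Gam) (i' : ι'), σ (S'.perm g i') = S.perm g (σ i'))
    (hcoc : ∀ (g : Gam) (i' : ι'),
      S'.coc g i' * d (S'.perm g i') = d i' * S.coc g (σ i'))
    (ψ : Del →* M) : S'.transfer ψ = S.transfer ψ := by
  ext g
  rw [transfer_apply, transfer_apply]
  have h1 : ∀ i' : ι', ψ (S'.coc g i') = ψ (d i') * ψ (S.coc g (σ i')) * (ψ (d (S'.perm g i')))⁻¹ := by
    intro i'
    rw [← map_mul, ← hcoc g i', map_mul, mul_inv_cancel_right]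
  simp only [h1, Finset.prod_mul_distrib, Finset.prod_inv_distrib]
  have h2 : ∏ i', ψ (d (S'.perm g i')) = ∏ i', ψ (d i') :=
    Equiv.prod_comp (S'.permEquiv g) (fun i' => ψ (d i'))
  have h3 : ∏ i', ψ (S.coc g (σ i')) = ∏ i, ψ (S.coc g i) :=
    Equiv.prod_comp σ (fun i => ψ (S.coc g i))
  rw [h2, h3, mul_comm (∏ i', ψ (d i')), mul_inv_cancel_right]

/-- **Independence of the transversal**: if `S` consists of pairwise distinct cosets, any system
`S'` whose representatives lie in the cosets of `S`, bijectively, has the same transfer. -/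
theorem transfer_eq_of_rep_eq (hS : S.IsInj) (hΔ : Function.Injective jΔ) (σ : ι' ≃ ι)
    (d : ι' → Del) (hrep : ∀ i' : ι', S'.rep i' = jΔ (d i') * S.rep (σ i'))
    (ψ : Del →* M) : S'.transfer ψ = S.transfer ψ := by
  have key : ∀ (g : Gam) (i' : ι'), S.rep (σ i') * jΓ g =
      jΔ ((d i')⁻¹ * S'.coc g i' * d (S'.perm g i')) * S.rep (σ (S'.perm g i')) := by
    intro g i'
    have h1 := S'.rep_mul g i'
    rw [hrep i', hrep (S'.perm g i')] at h1
    rw [map_mul, map_mul, map_inv, mul_assoc, mul_assoc, ← h1, ← mul_assoc, ← mul_assoc,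
      inv_mul_cancel, one_mul]
  refine transfer_eq_of_equiv S S' σ d (fun g i' => ?_) (fun g i' => ?_) ψ
  · exact (S.perm_eq_of_eq hS (key g i')).symm
  · have h := S.coc_eq_of_eq hS hΔ (key g i')
    rw [h, ← mul_assoc, ← mul_assoc, mul_inv_cancel, one_mul]

/-- Variant of `transfer_eq_of_rep_eq` where the bijection is not given: both systems consist of
pairwise distinct cosets and each representative of one lies in a coset of the other. -/
theorem transfer_eq_of_rep_mem (hS : S.IsInj) (hS' : S'.IsInj) (hΔ : Function.Injective jΔ)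
    (h : ∀ i' : ι', ∃ (i : ι) (d : Del), S'.rep i' = jΔ d * S.rep i)
    (h' : ∀ i : ι, ∃ (i' : ι') (d : Del), S.rep i = jΔ d * S'.rep i')
    (ψ : Del →* M) : S'.transfer ψ = S.transfer ψ := by
  classical
  choose σ d hσ using h
  choose τ e hτ using h'
  have hστ : ∀ i, σ (τ i) = i := by
    intro i
    refine (hS i (σ (τ i)) (e i * d (τ i)) ?_).symm
    rw [map_mul, mul_assoc, ← hσ, ← hτ]
  have hτσ : ∀ i', τ (σ i') = i' := by
    intro i'
    refine (hS' i' (τ (σ i')) (d i' * e (σ i')) ?_).symm
    rw [map_mul, mul_assoc, ← hτ, ← hσ]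
  exact transfer_eq_of_rep_eq S S' hS hΔ ⟨σ, τ, hτσ, hστ⟩ d hσ ψ

end Equivalence

/-! ### Composition -/

section Comp

variable (S : CosetSys₂ jΓ jΔ ι) (S' : CosetSys₂ jΔ jΕ ι')

/-- Composition of coset systems: `Gam ⟶ Del ⟶ Eps`, representatives `S'.rep i' * S.rep i`. -/
def comp : CosetSys₂ jΓ jΕ (ι × ι') where
  rep x := S'.rep x.2 * S.rep x.1
  perm g x := (S.perm g x.1, S'.perm (S.coc g x.1) x.2)
  coc g x := S'.coc (S.coc g x.1) x.2
  rep_mul g x := by
    rw [mul_assoc, S.rep_mul, ← mul_assoc, S'.rep_mul, mul_assoc]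
  perm_one x := by
    simp only [S.perm_one, S.coc_one, S'.perm_one]
  perm_mul g h x := by
    simp only [S.perm_mul, S.coc_mul, S'.perm_mul]
  coc_mul g h x := by
    simp only [S.coc_mul, S'.coc_mul]

@[simp] theorem comp_rep (x : ι × ι') : (S.comp S').rep x = S'.rep x.2 * S.rep x.1 := rfl

@[simp] theorem comp_coc (g : Gam) (x : ι × ι') :
    (S.comp S').coc g x = S'.coc (S.coc g x.1) x.2 := rfl

@[simp] theorem comp_perm (g : Gam) (x : ι × ι') :
    (S.comp S').perm g x = (S.perm g x.1, S'.perm (S.coc g x.1) x.2) := rfl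

variable {M : Type*} [CommGroup M] [Fintype ι] [Fintype ι']

/-- **Transfer of a composite = composite of the transfers.** -/
theorem transfer_comp (ψ : Eps →* M) :
    (S.comp S').transfer ψ = S.transfer (S'.transfer ψ) := by
  ext g
  simp only [transfer_apply, comp_coc]
  rw [Fintype.prod_prod_type]

end Comp

/-! ### Pull-back along a homomorphism -/

section Single

/-- The one-coset system of a homomorphism `f : Gam →* Del` with `a * jΓ g = jΔ (f g) * a`:
its transfer is the pull-back `ψ ↦ ψ ∘ f`. -/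
def single (a : G) (f : Gam →* Del) (h : ∀ g : Gam, a * jΓ g = jΔ (f g) * a) :
    CosetSys₂ jΓ jΔ Unit where
  rep _ := a
  perm _ _ := ()
  coc g _ := f g
  rep_mul g _ := h g
  perm_one _ := rfl
  perm_mul _ _ _ := rfl
  coc_mul g h _ := map_mul f g h

variable {M : Type*} [CommGroup M]

theorem transfer_single (a : G) (f : Gam →* Del) (h : ∀ g : Gam, a * jΓ g = jΔ (f g) * a)
    (ψ : Del →* M) : (single a f h).transfer ψ = ψ.comp f := by
  ext g
  simp [transfer_apply, single]

end Single

/-! ### Comparison with `HeckeHom.CosetSys` -/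

section Old

variable {j : Gam →* G}

/-- A one-group coset system in the sense of `HeckeHom.CosetSys` as a two-group one. -/
def ofCosetSys (hj : Function.Injective j) (S : CosetSys j ι) : CosetSys₂ j j ι :=
  ofInj hj S.rep S.perm S.coc S.rep_mul S.rep_inj

theorem isInj_ofCosetSys (hj : Function.Injective j) (S : CosetSys j ι) :
    (ofCosetSys hj S).IsInj := S.rep_inj

variable {M : Type*} [CommGroup M] [Fintype ι]

theorem transfer_ofCosetSys (hj : Function.Injective j) (S : CosetSys j ι) (ψ : Gam →* M) :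
    (ofCosetSys hj S).transfer ψ = S.transferHom hj ψ := rfl

end Old

/-! ### `cores ∘ res = index` -/

section Index

variable (S : CosetSys₂ jΓ jΔ ι) {M : Type*} [CommGroup M] [Fintype ι]

/-- If all representatives come from `Gam` (`rep i = jΓ (ρ i)`) and `jΔ = jΓ ∘ f`, then the
transfer of the restriction `φ ∘ f` of a homomorphism `φ : Gam →* M` is `φ ^ card ι`. -/
theorem transfer_comp_of_rep_mem_range (hΓ : Function.Injective jΓ) (f : Del →* Gam)
    (hf : ∀ d : Del, jΔ d = jΓ (f d)) (ρ : ι → Gam) (hρ : ∀ i, S.rep i = jΓ (ρ i))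
    (φ : Gam →* M) : S.transfer (φ.comp f) = φ ^ Fintype.card ι := by
  ext g
  rw [transfer_apply, MonoidHom.pow_apply]
  have h1 : ∀ i, φ (f (S.coc g i)) = φ (ρ i) * φ g * (φ (ρ (S.perm g i)))⁻¹ := by
    intro i
    have h := S.rep_mul g i
    rw [hρ, hρ, hf, ← map_mul, ← map_mul] at h
    have h2 := hΓ h
    have h3 : φ (ρ i * g) = φ (f (S.coc g i)) * φ (ρ (S.perm g i)) := by rw [h2, map_mul]
    rw [← map_mul, h3, mul_inv_cancel_right]
  simp only [MonoidHom.comp_apply, h1, Finset.prod_mul_distrib, Finset.prod_inv_distrib,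
    Finset.prod_const, Finset.card_univ]
  have h3 : ∏ i, φ (ρ (S.perm g i)) = ∏ i, φ (ρ i) :=
    Equiv.prod_comp (S.permEquiv g) (fun i => φ (ρ i))
  rw [h3, mul_comm (∏ i, φ (ρ i)), mul_inv_cancel_right]

end Index

end CosetSys₂

end Fermat.Agent.P3LR.A.Transfer2
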