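/-
P3-LR (S41, level raising), block (A), file 2a: THE DEGENERACY MAPS — definitions and specs.

`Γ := Γ₀(N)`, `Δ := Γ₀(N q)`, `q` prime.  `η := diag(q,1)`, `η' := diag(1,q) = q η⁻¹`.

* `incl N q : Δ →* Γ`, `conjEta N q : Δ →* Γ` (`δ ↦ η δ η⁻¹`), both injective;
* `resAdd`, `resEtaAdd : (Additive Γ →+ A) →+ (Additive Δ →+ A)` (pull-back);
* for `q ∤ N` the two coset systems `coresSys`, `coresEtaSys : CosetSys₂ (jGL N) (jGL (N q))`
  indexed by `OnePoint (ZMod q)`, with permutation `redMatrix q g • x` (as for `heckeSys N q`)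
  and representatives `jGL N (coresRep x)` resp. `η' * jGL N (coresEtaRep x)`;
* `coresAdd`, `coresEtaAdd : (Additive Δ →+ A) →+ (Additive Γ →+ A)` (transfer);
* naturality in `A`, preservation of `parHomAdd`, the bundled `iAdd`, `iDagAdd`.

The relations (R1), (R2) are in `Degeneracy.lean`.
-/
import Mathlib
import Fermat.Agent.N4F.Tors.HeckeHom
import Fermat.Agent.P3LR.A.Transfer2
import Fermat.Agent.P3LR.A.IntMat

set_option autoImplicit false

open scoped MatrixGroups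

namespace Fermat.Agent.P3LR.A.Degeneracy

open Matrix.SpecialLinearGroup CongruenceSubgroup ModularForm
open P2MW.S_ModularForm_heckeT_slash_eq_self_of_mem_Gamma0.ModularForm.HeckeSlashInvariance
open Fermat.Agent.N4F.Tors.HeckeHom
open Fermat.Agent.P3LR.A.Transfer2
open Fermat.Agent.P3LR.A.IntMat
open scoped OnePoint

/-! ### Additive twin of the transfer of a two-group coset system -/

section TransferAdd

variable {G Gam Del : Type*} [Group G] [Group Gam] [Group Del] {jΓ : Gam →* G} {jΔ : Del →* G}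
  {ι : Type*} [Fintype ι]

/-- additive twin of `CosetSys₂.transfer`: `ψ ↦ (g ↦ ∑ i, ψ (coc g i))` -/
noncomputable def transferAdd (S : CosetSys₂ jΓ jΔ ι) {A : Type*} [AddCommGroup A] :
    (Additive Del →+ A) →+ (Additive Gam →+ A) where
  toFun ψ := MonoidHom.toAdditiveLeft (S.transfer (AddMonoidHom.toMultiplicativeRight ψ))
  map_zero' := by
    have h : AddMonoidHom.toMultiplicativeRight (0 : Additive Del →+ A) =
        (1 : Del →* Multiplicative A) := rfl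
    rw [h, map_one]
    rfl
  map_add' φ ψ := by
    have h : AddMonoidHom.toMultiplicativeRight (φ + ψ) =
        AddMonoidHom.toMultiplicativeRight φ * AddMonoidHom.toMultiplicativeRight ψ := rfl
    rw [h, map_mul]
    rfl

theorem transferAdd_apply (S : CosetSys₂ jΓ jΔ ι) {A : Type*} [AddCommGroup A]
    (ψ : Additive Del →+ A) (g : Gam) :
    transferAdd S ψ (Additive.ofMul g) = ∑ i, ψ (Additive.ofMul (S.coc g i)) := by
  show Multiplicative.toAdd (S.transfer (AddMonoidHom.toMultiplicativeRight ψ) g) = _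
  rw [CosetSys₂.transfer_apply, toAdd_prod]
  rfl

/-- bridge to the multiplicative transfer -/
theorem toMultiplicativeRight_transferAdd (S : CosetSys₂ jΓ jΔ ι) {A : Type*} [AddCommGroup A]
    (ψ : Additive Del →+ A) :
    AddMonoidHom.toMultiplicativeRight (transferAdd S ψ) =
      S.transfer (AddMonoidHom.toMultiplicativeRight ψ) := rfl

theorem transferAdd_comp (S : CosetSys₂ jΓ jΔ ι) {A B : Type*} [AddCommGroup A]
    [AddCommGroup B] (f : A →+ B) (ψ : Additive Del →+ A) :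
    transferAdd S (f.comp ψ) = f.comp (transferAdd S ψ) := by
  refine AddMonoidHom.ext fun g => ?_
  obtain ⟨g, rfl⟩ := Additive.ofMul.surjective g
  rw [transferAdd_apply, AddMonoidHom.comp_apply, transferAdd_apply, map_sum]
  rfl

end TransferAdd

/-! ### `incl`, `η`, `η'`, `conjEta` -/

section Incl

variable (N q : ℕ)

theorem Gamma0_mul_le : Gamma0 (N * q) ≤ Gamma0 N := by
  intro g hg
  rw [Gamma0_mem, ZMod.intCast_zmod_eq_zero_iff_dvd] at hg ⊢
  exact dvd_trans (by push_cast; exact Dvd.intro _ rfl) hg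

/-- the inclusion `Γ₀(N q) → Γ₀(N)` -/
def incl : ↥(Gamma0 (N * q)) →* ↥(Gamma0 N) := Subgroup.inclusion (Gamma0_mul_le N q)

@[simp] theorem coe_incl (δ : ↥(Gamma0 (N * q))) :
    ((incl N q δ : ↥(Gamma0 N)) : SL(2, ℤ)) = (δ : SL(2, ℤ)) := rfl

theorem jGL_incl (δ : ↥(Gamma0 (N * q))) : jGL N (incl N q δ) = jGL (N * q) δ := rfl

theorem incl_injective : Function.Injective (incl N q) :=
  Subgroup.inclusion_injective _

/-- `η = diag(q, 1)` -/
noncomputable def etaGL : GL (Fin 2) ℝ := heckeDiagMatrix q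

/-- `η' = diag(1, q) = q η⁻¹` -/
noncomputable def etaGL' : GL (Fin 2) ℝ := heckeMatrix q 0

theorem etaGL_eq_heckeRep : etaGL q = heckeRep q ∞ := rfl

theorem etaGL'_eq_heckeRep : etaGL' q = heckeRep q ((0 : ZMod q) : OnePoint (ZMod q)) := by
  rw [heckeRep_coe, ZMod.val_zero]
  rfl

/-- the integer matrix of `η` -/
abbrev etaInt : MI := !![(q : ℤ), 0; 0, 1]

/-- the integer matrix of `η'` -/
abbrev etaInt' : MI := !![1, 0; 0, (q : ℤ)]

theorem det_etaInt : (etaInt q).det = q := by simp [Matrix.det_fin_two]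

theorem det_etaInt' : (etaInt' q).det = q := by simp [Matrix.det_fin_two]

variable [NeZero q]

theorem det_etaInt_ne_zero : (etaInt q).det ≠ 0 := by
  rw [det_etaInt]; exact_mod_cast NeZero.ne q

theorem det_etaInt'_ne_zero : (etaInt' q).det ≠ 0 := by
  rw [det_etaInt']; exact_mod_cast NeZero.ne q

theorem etaGL_eq_glOf : etaGL q = glOf (etaInt q) := heckeRep_eq_glOf q ∞

theorem etaGL'_eq_glOf : etaGL' q = glOf (etaInt' q) := by
  rw [etaGL'_eq_heckeRep, heckeRep_eq_glOf, hInt_coe, ZMod.val_zero]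
  rfl

/-- `η g = c η` for elements of `SL₂(ℤ)`, in integer entries -/
theorem etaGL_mul_mapGL_eq_iff (g c : SL(2, ℤ)) :
    etaGL q * mapGL ℝ g = mapGL ℝ c * etaGL q ↔
      c 0 0 = g 0 0 ∧ c 0 1 = (q : ℤ) * g 0 1 ∧ g 1 0 = (q : ℤ) * c 1 0 ∧ c 1 1 = g 1 1 := by
  have hq : (q : ℤ) ≠ 0 := by exact_mod_cast NeZero.ne q
  rw [etaGL_eq_glOf, glOf_mul_mapGL_eq_iff (det_etaInt_ne_zero q) (det_etaInt_ne_zero q)]
  constructor
  · intro h
    have h00 := congrFun (congrFun h 0) 0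
    have h01 := congrFun (congrFun h 0) 1
    have h10 := congrFun (congrFun h 1) 0
    have h11 := congrFun (congrFun h 1) 1
    simp [Matrix.mul_apply, Fin.sum_univ_two] at h00 h01 h10 h11
    refine ⟨?_, ?_, ?_, ?_⟩
    · exact (mul_left_cancel₀ hq (by linarith)).symm
    · linarith
    · linarith
    · linarith
  · rintro ⟨h00, h01, h10, h11⟩
    ext i k
    fin_cases i <;> fin_cases k <;> simp [Matrix.mul_apply, Fin.sum_univ_two] <;>
      first | (rw [h00]; ring) | (rw [h01]) | (rw [h10]; ring) | (rw [h11])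

/-- `η' c = g η'` for elements of `SL₂(ℤ)`, in integer entries -/
theorem etaGL'_mul_mapGL_eq_iff (g c : SL(2, ℤ)) :
    etaGL' q * mapGL ℝ c = mapGL ℝ g * etaGL' q ↔
      c 0 0 = g 0 0 ∧ c 0 1 = (q : ℤ) * g 0 1 ∧ g 1 0 = (q : ℤ) * c 1 0 ∧ c 1 1 = g 1 1 := by
  have hq : (q : ℤ) ≠ 0 := by exact_mod_cast NeZero.ne q
  rw [etaGL'_eq_glOf, glOf_mul_mapGL_eq_iff (det_etaInt'_ne_zero q) (det_etaInt'_ne_zero q)]
  constructor
  · intro h
    have h00 := congrFun (congrFun h 0) 0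
    have h01 := congrFun (congrFun h 0) 1
    have h10 := congrFun (congrFun h 1) 0
    have h11 := congrFun (congrFun h 1) 1
    simp [Matrix.mul_apply, Fin.sum_univ_two] at h00 h01 h10 h11
    refine ⟨?_, ?_, ?_, ?_⟩
    · linarith
    · linarith
    · linarith
    · exact (mul_left_cancel₀ hq (by linarith))
  · rintro ⟨h00, h01, h10, h11⟩
    ext i k
    fin_cases i <;> fin_cases k <;> simp [Matrix.mul_apply, Fin.sum_univ_two] <;>
      first | (rw [h00]) | (rw [h01]; ring) | (rw [h10]) | (rw [h11]; ring)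

end Incl

/-! ### `conjEta` -/

section ConjEta

variable (N q : ℕ) [NeZero q]

theorem exists_conjEta (δ : ↥(Gamma0 (N * q))) :
    ∃ γ : ↥(Gamma0 N), etaGL q * jGL (N * q) δ = jGL N γ * etaGL q := by
  have hδ : ((N * q : ℕ) : ℤ) ∣ (δ : SL(2, ℤ)) 1 0 :=
    (ZMod.intCast_zmod_eq_zero_iff_dvd _ _).mp (Gamma0_mem.mp δ.2)
  obtain ⟨e, he⟩ := hδ
  have hdet := det_eq (δ : SL(2, ℤ))
  let c : SL(2, ℤ) := ⟨!![(δ : SL(2, ℤ)) 0 0, (q : ℤ) * (δ : SL(2, ℤ)) 0 1; (N : ℤ) * e,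
    (δ : SL(2, ℤ)) 1 1], by
      rw [Matrix.det_fin_two_of]
      rw [he] at hdet
      push_cast at hdet
      linear_combination hdet⟩
  have hc : c ∈ Gamma0 N := by
    rw [Gamma0_mem, ZMod.intCast_zmod_eq_zero_iff_dvd]
    exact Dvd.intro _ rfl
  refine ⟨⟨c, hc⟩, ?_⟩
  rw [jGL_apply, jGL_apply, etaGL_mul_mapGL_eq_iff]
  refine ⟨rfl, rfl, ?_, rfl⟩
  show (δ : SL(2, ℤ)) 1 0 = (q : ℤ) * ((N : ℤ) * e)
  rw [he]; push_cast; ring

/-- the underlying function of `conjEta` -/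
noncomputable def conjEtaFun (δ : ↥(Gamma0 (N * q))) : ↥(Gamma0 N) :=
  (exists_conjEta N q δ).choose

theorem conjEtaFun_spec (δ : ↥(Gamma0 (N * q))) :
    etaGL q * jGL (N * q) δ = jGL N (conjEtaFun N q δ) * etaGL q :=
  (exists_conjEta N q δ).choose_spec

/-- **conjugation by `η = diag(q,1)`**: `Γ₀(N q) → Γ₀(N)`, `δ ↦ η δ η⁻¹`. -/
noncomputable def conjEta : ↥(Gamma0 (N * q)) →* ↥(Gamma0 N) where
  toFun := conjEtaFun N q
  map_one' := by
    apply jGL_injective N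
    have h := conjEtaFun_spec N q 1
    rw [map_one, mul_one] at h
    rw [map_one]
    exact (mul_right_cancel (b := etaGL q) (by rw [one_mul]; exact h)).symm
  map_mul' a b := by
    apply jGL_injective N
    have hab := conjEtaFun_spec N q (a * b)
    have ha := conjEtaFun_spec N q a
    have hb := conjEtaFun_spec N q b
    rw [map_mul]
    apply mul_right_cancel (b := etaGL q)
    rw [← hab, map_mul, ← mul_assoc, ha, mul_assoc, hb, mul_assoc]

/-- `η δ = conjEta(δ) η` -/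
theorem etaGL_mul_jGL (δ : ↥(Gamma0 (N * q))) :
    etaGL q * jGL (N * q) δ = jGL N (conjEta N q δ) * etaGL q :=
  conjEtaFun_spec N q δ

theorem conjEta_spec (δ : ↥(Gamma0 (N * q))) :
    jGL N (conjEta N q δ) = etaGL q * jGL (N * q) δ * (etaGL q)⁻¹ := by
  rw [etaGL_mul_jGL, mul_inv_cancel_right]

/-- `η' conjEta(δ) = δ η'` -/
theorem conjEta_spec' (δ : ↥(Gamma0 (N * q))) :
    etaGL' q * jGL N (conjEta N q δ) = jGL (N * q) δ * etaGL' q := by
  have h := etaGL_mul_jGL N q δ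
  rw [jGL_apply, jGL_apply] at h ⊢
  rw [etaGL_mul_mapGL_eq_iff] at h
  rw [etaGL'_mul_mapGL_eq_iff]
  exact h

theorem conjEta_entries (δ : ↥(Gamma0 (N * q))) :
    ((conjEta N q δ : ↥(Gamma0 N)) : SL(2, ℤ)) 0 0 = (δ : SL(2, ℤ)) 0 0 ∧
    ((conjEta N q δ : ↥(Gamma0 N)) : SL(2, ℤ)) 0 1 = (q : ℤ) * (δ : SL(2, ℤ)) 0 1 ∧
    (δ : SL(2, ℤ)) 1 0 = (q : ℤ) * ((conjEta N q δ : ↥(Gamma0 N)) : SL(2, ℤ)) 1 0 ∧
    ((conjEta N q δ : ↥(Gamma0 N)) : SL(2, ℤ)) 1 1 = (δ : SL(2, ℤ)) 1 1 := by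
  have h := etaGL_mul_jGL N q δ
  rw [jGL_apply, jGL_apply, etaGL_mul_mapGL_eq_iff] at h
  exact h

theorem conjEta_injective : Function.Injective (conjEta N q) := by
  intro a b hab
  apply jGL_injective (N * q)
  have ha := etaGL_mul_jGL N q a
  have hb := etaGL_mul_jGL N q b
  rw [hab, ← hb] at ha
  exact mul_left_cancel ha

end ConjEta

/-! ### Restriction maps -/

section Res

variable (N q : ℕ)

/-- pull-back along a group homomorphism, additive form -/
def pullAdd {Gam Del : Type*} [Group Gam] [Group Del] (f : Del →* Gam) {A : Type*}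
    [AddCommGroup A] : (Additive Gam →+ A) →+ (Additive Del →+ A) where
  toFun φ := φ.comp (MonoidHom.toAdditive f)
  map_zero' := rfl
  map_add' _ _ := rfl

theorem pullAdd_apply {Gam Del : Type*} [Group Gam] [Group Del] (f : Del →* Gam) {A : Type*}
    [AddCommGroup A] (φ : Additive Gam →+ A) (d : Del) :
    pullAdd f φ (Additive.ofMul d) = φ (Additive.ofMul (f d)) := rfl

theorem pullAdd_comp {Gam Del : Type*} [Group Gam] [Group Del] (f : Del →* Gam) {A B : Type*}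
    [AddCommGroup A] [AddCommGroup B] (h : A →+ B) (φ : Additive Gam →+ A) :
    pullAdd f (h.comp φ) = h.comp (pullAdd f φ) := rfl

/-- bridge to the multiplicative pull-back -/
theorem toMultiplicativeRight_pullAdd {Gam Del : Type*} [Group Gam] [Group Del] (f : Del →* Gam)
    {A : Type*} [AddCommGroup A] (φ : Additive Gam →+ A) :
    AddMonoidHom.toMultiplicativeRight (pullAdd f φ) =
      (AddMonoidHom.toMultiplicativeRight φ).comp f := rfl

/-- **restriction** `Hom(Γ₀(N), A) → Hom(Γ₀(N q), A)` -/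
def resAdd {A : Type*} [AddCommGroup A] :
    (Additive ↥(Gamma0 N) →+ A) →+ (Additive ↥(Gamma0 (N * q)) →+ A) :=
  pullAdd (incl N q)

theorem resAdd_apply {A : Type*} [AddCommGroup A] (φ : Additive ↥(Gamma0 N) →+ A)
    (δ : ↥(Gamma0 (N * q))) :
    resAdd N q φ (Additive.ofMul δ) = φ (Additive.ofMul (incl N q δ)) := rfl

theorem resAdd_comp {A B : Type*} [AddCommGroup A] [AddCommGroup B] (f : A →+ B)
    (φ : Additive ↥(Gamma0 N) →+ A) :
    resAdd N q (f.comp φ) = f.comp (resAdd N q φ) := rfl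

theorem resAdd_mem_parHomAdd {A : Type*} [AddCommGroup A] {φ : Additive ↥(Gamma0 N) →+ A}
    (hφ : φ ∈ parHomAdd N A) : resAdd N q φ ∈ parHomAdd (N * q) A := by
  intro δ hδ
  exact hφ (incl N q δ) hδ

variable [NeZero q]

/-- **`η`-twisted restriction** `Hom(Γ₀(N), A) → Hom(Γ₀(N q), A)`, `φ ↦ φ ∘ (δ ↦ η δ η⁻¹)` -/
noncomputable def resEtaAdd {A : Type*} [AddCommGroup A] :
    (Additive ↥(Gamma0 N) →+ A) →+ (Additive ↥(Gamma0 (N * q)) →+ A) :=
  pullAdd (conjEta N q)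

theorem resEtaAdd_apply {A : Type*} [AddCommGroup A] (φ : Additive ↥(Gamma0 N) →+ A)
    (δ : ↥(Gamma0 (N * q))) :
    resEtaAdd N q φ (Additive.ofMul δ) = φ (Additive.ofMul (conjEta N q δ)) := rfl

theorem resEtaAdd_comp {A B : Type*} [AddCommGroup A] [AddCommGroup B] (f : A →+ B)
    (φ : Additive ↥(Gamma0 N) →+ A) :
    resEtaAdd N q (f.comp φ) = f.comp (resEtaAdd N q φ) := rfl

theorem isParEll_conjEta {δ : ↥(Gamma0 (N * q))} (hδ : IsParEll (δ : SL(2, ℤ))) :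
    IsParEll ((conjEta N q δ : ↥(Gamma0 N)) : SL(2, ℤ)) := by
  refine isParEll_of_conj_pow hδ 1 (etaGL q) ?_
  have h := conjEta_spec N q δ
  rw [jGL_apply, jGL_apply] at h
  rw [h, pow_one]

theorem resEtaAdd_mem_parHomAdd {A : Type*} [AddCommGroup A] {φ : Additive ↥(Gamma0 N) →+ A}
    (hφ : φ ∈ parHomAdd N A) : resEtaAdd N q φ ∈ parHomAdd (N * q) A := by
  intro δ hδ
  exact hφ (conjEta N q δ) (isParEll_conjEta N q hδ)

end Res

/-! ### Twisting a one-group coset system -/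

section Twist

variable {G Gam ι : Type*} [Group G] [Group Gam] {j : Gam →* G} (H : CosetSys j ι) (a : G)
  (p k : ι → Gam)

/-- If `a * j (p x) = j (k x) * H.rep x`, then `p x * g * (p x')⁻¹` (`x' = H.perm g x`) is
conjugated into `j(Gam)` by `a`. -/
theorem twist_exists (hpk : ∀ x, a * j (p x) = j (k x) * H.rep x) (g : Gam) (x : ι) :
    ∃ D D' : Gam, j (p x) * j g = j D * j (p (H.perm g x)) ∧ a * j D = j D' * a := by
  refine ⟨p x * g * (p (H.perm g x))⁻¹, k x * H.coc g x * (k (H.perm g x))⁻¹, ?_, ?_⟩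
  · simp only [map_mul, map_inv, inv_mul_cancel_right]
  · have h1 := hpk x
    have h2 := hpk (H.perm g x)
    have h3 := H.rep_mul g x
    have h4 : H.rep (H.perm g x) = (j (k (H.perm g x)))⁻¹ * a * j (p (H.perm g x)) := by
      rw [mul_assoc, h2, inv_mul_cancel_left]
    simp only [map_mul, map_inv]
    calc a * (j (p x) * j g * (j (p (H.perm g x)))⁻¹)
        = (a * j (p x)) * j g * (j (p (H.perm g x)))⁻¹ := by group
      _ = j (k x) * (H.rep x * j g) * (j (p (H.perm g x)))⁻¹ := by rw [h1]; group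
      _ = j (k x) * (j (H.coc g x) * H.rep (H.perm g x)) * (j (p (H.perm g x)))⁻¹ := by rw [h3]
      _ = j (k x) * j (H.coc g x) * (j (k (H.perm g x)))⁻¹ * a := by rw [h4]; group

theorem twist_inj (hpk : ∀ x, a * j (p x) = j (k x) * H.rep x) {x x' : ι} {D D' : Gam}
    (h1 : j (p x) = j D * j (p x')) (h2 : a * j D = j D' * a) : x = x' := by
  refine H.rep_inj x x' ((k x)⁻¹ * D' * k x') ?_
  have e1 : H.rep x = (j (k x))⁻¹ * (a * j (p x)) := by rw [hpk x, inv_mul_cancel_left]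
  rw [e1, h1, ← mul_assoc a, h2, mul_assoc (j D'), hpk x']
  simp only [map_mul, map_inv]
  group

end Twist

/-! ### Bézout data and the explicit representatives -/

section Reps

variable (N q : ℕ) [Fact q.Prime]

theorem bezout (hqN : ¬ q ∣ N) : (N : ℤ) * Int.gcdA N q + (q : ℤ) * Int.gcdB N q = 1 := by
  have h := Int.gcd_eq_gcd_ab (N : ℤ) (q : ℤ)
  have hc : Nat.Coprime N q := ((Nat.Prime.coprime_iff_not_dvd Fact.out).mpr hqN).symm
  rw [Int.gcd_natCast_natCast, hc] at h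
  rw [← h]
  rfl

/-- `γ₀ = [[1, -s], [N, q t]]`, where `N s + q t = 1` -/
def gam0SL (hqN : ¬ q ∣ N) : SL(2, ℤ) :=
  ⟨!![1, -Int.gcdA N q; (N : ℤ), (q : ℤ) * Int.gcdB N q], by
    rw [Matrix.det_fin_two_of]; linear_combination bezout N q hqN⟩

/-- `c' = [[q, -s], [N, t]]`, where `N s + q t = 1` -/
def cPrSL (hqN : ¬ q ∣ N) : SL(2, ℤ) :=
  ⟨!![(q : ℤ), -Int.gcdA N q; (N : ℤ), Int.gcdB N q], by
    rw [Matrix.det_fin_two_of]; linear_combination bezout N q hqN⟩

/-- `u_m = [[1, m], [0, 1]]` -/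
def uSL (m : ℤ) : SL(2, ℤ) :=
  ⟨!![1, m; 0, 1], by rw [Matrix.det_fin_two_of]; ring⟩

theorem coe_gam0SL (hqN : ¬ q ∣ N) : ((gam0SL N q hqN : SL(2, ℤ)) : MI) =
    !![1, -Int.gcdA N q; (N : ℤ), (q : ℤ) * Int.gcdB N q] := rfl

theorem coe_cPrSL (hqN : ¬ q ∣ N) : ((cPrSL N q hqN : SL(2, ℤ)) : MI) =
    !![(q : ℤ), -Int.gcdA N q; (N : ℤ), Int.gcdB N q] := rfl

theorem coe_uSL (m : ℤ) : ((uSL m : SL(2, ℤ)) : MI) = !![1, m; 0, 1] := rfl

/-- `γ₀ ∈ Γ₀(N)` -/
def gam0 (hqN : ¬ q ∣ N) : ↥(Gamma0 N) :=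
  ⟨gam0SL N q hqN, by rw [Gamma0_mem]; simp [gam0SL]⟩

/-- `c' ∈ Γ₀(N)` -/
def cPr (hqN : ¬ q ∣ N) : ↥(Gamma0 N) :=
  ⟨cPrSL N q hqN, by rw [Gamma0_mem]; simp [cPrSL]⟩

/-- `u_m ∈ Γ₀(N)` -/
def uMat (m : ℤ) : ↥(Gamma0 N) :=
  ⟨uSL m, by rw [Gamma0_mem]; simp [uSL]⟩

/-- representatives of `Γ₀(N q) \ Γ₀(N)`: `∞ ↦ 1`, `j ↦ γ₀ u_j` -/
def coresRep (hqN : ¬ q ∣ N) (x : OnePoint (ZMod q)) : ↥(Gamma0 N) :=
  x.elim 1 (fun j => gam0 N q hqN * uMat N (j.val : ℤ))

/-- `η * coresRep x = coresK x * heckeRep q x` -/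
def coresK (hqN : ¬ q ∣ N) (x : OnePoint (ZMod q)) : ↥(Gamma0 N) :=
  x.elim 1 (fun _ => cPr N q hqN)

/-- representatives of `(Γ₀(N) ∩ Γ⁰(q)) \ Γ₀(N)`: `∞ ↦ c'`, `j ↦ u_j` -/
def coresEtaRep (hqN : ¬ q ∣ N) (x : OnePoint (ZMod q)) : ↥(Gamma0 N) :=
  x.elim (cPr N q hqN) (fun j => uMat N (j.val : ℤ))

/-- `η' * coresEtaRep x = coresEtaK x * heckeRep q x` -/
def coresEtaK (hqN : ¬ q ∣ N) (x : OnePoint (ZMod q)) : ↥(Gamma0 N) :=
  x.elim (gam0 N q hqN) (fun _ => 1)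

@[simp] theorem coresRep_infty (hqN : ¬ q ∣ N) : coresRep N q hqN ∞ = 1 := rfl

@[simp] theorem coresRep_coe (hqN : ¬ q ∣ N) (j : ZMod q) :
    coresRep N q hqN j = gam0 N q hqN * uMat N (j.val : ℤ) := rfl

@[simp] theorem coresEtaRep_infty (hqN : ¬ q ∣ N) : coresEtaRep N q hqN ∞ = cPr N q hqN := rfl

@[simp] theorem coresEtaRep_coe (hqN : ¬ q ∣ N) (j : ZMod q) :
    coresEtaRep N q hqN j = uMat N (j.val : ℤ) := rfl

theorem etaGL_mul_coresRep (hqN : ¬ q ∣ N) (x : OnePoint (ZMod q)) :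
    etaGL q * jGL N (coresRep N q hqN x) = jGL N (coresK N q hqN x) * heckeRep q x := by
  induction x using OnePoint.rec with
  | infty =>
    show etaGL q * jGL N 1 = jGL N 1 * heckeRep q ∞
    rw [map_one, mul_one, one_mul]
    rfl
  | coe j =>
    show etaGL q * jGL N (gam0 N q hqN * uMat N (j.val : ℤ)) =
      jGL N (cPr N q hqN) * heckeRep q j
    rw [etaGL_eq_glOf, heckeRep_eq_glOf, jGL_apply, jGL_apply,
      glOf_mul_mapGL_eq_iff (det_etaInt_ne_zero q) (det_hInt_ne_zero q _)]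
    show etaInt q * (((gam0SL N q hqN : SL(2, ℤ)) : MI) * ((uSL (j.val : ℤ) : SL(2, ℤ)) : MI)) =
      ((cPrSL N q hqN : SL(2, ℤ)) : MI) * hInt q j
    rw [coe_gam0SL, coe_uSL, coe_cPrSL, hInt_coe]
    simp only [Matrix.mul_fin_two]
    ext i k
    fin_cases i <;> fin_cases k <;> simp <;> ring

theorem etaGL'_mul_coresEtaRep (hqN : ¬ q ∣ N) (x : OnePoint (ZMod q)) :
    etaGL' q * jGL N (coresEtaRep N q hqN x) = jGL N (coresEtaK N q hqN x) * heckeRep q x := by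
  induction x using OnePoint.rec with
  | infty =>
    show etaGL' q * jGL N (cPr N q hqN) = jGL N (gam0 N q hqN) * heckeRep q ∞
    rw [etaGL'_eq_glOf, heckeRep_eq_glOf, jGL_apply, jGL_apply,
      glOf_mul_mapGL_eq_iff (det_etaInt'_ne_zero q) (det_hInt_ne_zero q _)]
    show etaInt' q * ((cPrSL N q hqN : SL(2, ℤ)) : MI) =
      ((gam0SL N q hqN : SL(2, ℤ)) : MI) * hInt q ∞
    rw [coe_gam0SL, coe_cPrSL, hInt_infty]
    simp only [Matrix.mul_fin_two]
    ext i k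
    fin_cases i <;> fin_cases k <;> simp <;> ring
  | coe j =>
    show etaGL' q * jGL N (uMat N (j.val : ℤ)) = jGL N 1 * heckeRep q j
    rw [map_one, one_mul, etaGL'_eq_glOf, heckeRep_eq_glOf]
    have h := (glOf_mul_mapGL_eq_iff (det_etaInt'_ne_zero q) (det_hInt_ne_zero q (j : OnePoint (ZMod q)))
      (uSL (j.val : ℤ)) 1).mpr ?_
    · rw [map_one, one_mul] at h
      exact h
    · show etaInt' q * ((uSL (j.val : ℤ) : SL(2, ℤ)) : MI) = ((1 : SL(2, ℤ)) : MI) * hInt q j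
      rw [coe_uSL, hInt_coe, Matrix.SpecialLinearGroup.coe_one, one_mul]
      simp only [Matrix.mul_fin_two]
      ext i k
      fin_cases i <;> fin_cases k <;> simp

/-! ### The membership criteria -/

theorem mem_Gamma0_mul_of_etaGL_comm {D D' : SL(2, ℤ)} (hD' : D' ∈ Gamma0 N)
    (h : etaGL q * mapGL ℝ D = mapGL ℝ D' * etaGL q) : D ∈ Gamma0 (N * q) := by
  rw [etaGL_mul_mapGL_eq_iff] at h
  rw [Gamma0_mem, ZMod.intCast_zmod_eq_zero_iff_dvd] at hD' ⊢
  obtain ⟨e, he⟩ := hD'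
  rw [h.2.2.1, he]
  exact ⟨e, by push_cast; ring⟩

theorem mem_Gamma0_mul_of_etaGL'_comm {D D' : SL(2, ℤ)} (hD : D ∈ Gamma0 N)
    (h : etaGL' q * mapGL ℝ D = mapGL ℝ D' * etaGL' q) : D' ∈ Gamma0 (N * q) := by
  rw [etaGL'_mul_mapGL_eq_iff] at h
  rw [Gamma0_mem, ZMod.intCast_zmod_eq_zero_iff_dvd] at hD ⊢
  obtain ⟨e, he⟩ := hD
  rw [h.2.2.1, he]
  exact ⟨e, by push_cast; ring⟩

end Reps

/-! ### The two coset systems -/

section Systems

variable (N q : ℕ) [Fact q.Prime]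

theorem exists_coresCoc (hqN : ¬ q ∣ N) (g : ↥(Gamma0 N)) (x : OnePoint (ZMod q)) :
    ∃ d : ↥(Gamma0 (N * q)), jGL N (coresRep N q hqN x) * jGL N g =
      jGL (N * q) d * jGL N (coresRep N q hqN (redMatrix q (g : SL(2, ℤ)) • x)) := by
  obtain ⟨D, D', h1, h2⟩ := twist_exists (heckeSys N q hqN) (etaGL q) (coresRep N q hqN)
    (coresK N q hqN) (etaGL_mul_coresRep N q hqN) g x
  have hD : (D : SL(2, ℤ)) ∈ Gamma0 (N * q) := mem_Gamma0_mul_of_etaGL_comm N q D'.2 h2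
  exact ⟨⟨D, hD⟩, h1⟩

theorem coresRep_inj (hqN : ¬ q ∣ N) (x x' : OnePoint (ZMod q)) (d : ↥(Gamma0 (N * q)))
    (h : jGL N (coresRep N q hqN x) = jGL (N * q) d * jGL N (coresRep N q hqN x')) : x = x' :=
  twist_inj (heckeSys N q hqN) (etaGL q) (coresRep N q hqN) (coresK N q hqN)
    (etaGL_mul_coresRep N q hqN) (D := incl N q d) (D' := conjEta N q d) h
    (etaGL_mul_jGL N q d)

/-- **The coset system of `Γ₀(N q) \ Γ₀(N)`** (`q ∤ N`): representatives `coresRep x ∈ Γ₀(N)`,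
permutation `x ↦ redMatrix q g • x`. -/
noncomputable def coresSys (hqN : ¬ q ∣ N) :
    CosetSys₂ (jGL N) (jGL (N * q)) (OnePoint (ZMod q)) :=
  CosetSys₂.ofInj (jGL_injective (N * q)) (fun x => jGL N (coresRep N q hqN x))
    (fun g x => redMatrix q (g : SL(2, ℤ)) • x)
    (fun g x => (exists_coresCoc N q hqN g x).choose)
    (fun g x => (exists_coresCoc N q hqN g x).choose_spec)
    (coresRep_inj N q hqN)

theorem exists_coresEtaCoc (hqN : ¬ q ∣ N) (g : ↥(Gamma0 N)) (x : OnePoint (ZMod q)) :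
    ∃ d : ↥(Gamma0 (N * q)), etaGL' q * jGL N (coresEtaRep N q hqN x) * jGL N g =
      jGL (N * q) d *
        (etaGL' q * jGL N (coresEtaRep N q hqN (redMatrix q (g : SL(2, ℤ)) • x))) := by
  obtain ⟨D, D', h1, h2⟩ := twist_exists (heckeSys N q hqN) (etaGL' q) (coresEtaRep N q hqN)
    (coresEtaK N q hqN) (etaGL'_mul_coresEtaRep N q hqN) g x
  have hD' : (D' : SL(2, ℤ)) ∈ Gamma0 (N * q) := mem_Gamma0_mul_of_etaGL'_comm N q D.2 h2
  refine ⟨⟨D', hD'⟩, ?_⟩
  have h3 : jGL (N * q) ⟨(D' : SL(2, ℤ)), hD'⟩ = jGL N D' := rfl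
  rw [mul_assoc, h1, ← mul_assoc, h2, h3, mul_assoc]
  rfl

theorem coresEtaRep_inj (hqN : ¬ q ∣ N) (x x' : OnePoint (ZMod q)) (d : ↥(Gamma0 (N * q)))
    (h : etaGL' q * jGL N (coresEtaRep N q hqN x) =
      jGL (N * q) d * (etaGL' q * jGL N (coresEtaRep N q hqN x'))) : x = x' := by
  refine twist_inj (heckeSys N q hqN) (etaGL' q) (coresEtaRep N q hqN) (coresEtaK N q hqN)
    (etaGL'_mul_coresEtaRep N q hqN) (D := conjEta N q d) (D' := incl N q d) ?_
    (conjEta_spec' N q d)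
  rw [← mul_assoc, ← conjEta_spec', mul_assoc] at h
  exact mul_left_cancel h

/-- **The coset system of the `η`-twisted corestriction** (`q ∤ N`): representatives
`η' * coresEtaRep x` (`η' = diag(1,q)`), permutation `x ↦ redMatrix q g • x`.  The
`coresEtaRep x` represent `(Γ₀(N) ∩ Γ⁰(q)) \ Γ₀(N)`. -/
noncomputable def coresEtaSys (hqN : ¬ q ∣ N) :
    CosetSys₂ (jGL N) (jGL (N * q)) (OnePoint (ZMod q)) :=
  CosetSys₂.ofInj (jGL_injective (N * q))
    (fun x => etaGL' q * jGL N (coresEtaRep N q hqN x))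
    (fun g x => redMatrix q (g : SL(2, ℤ)) • x)
    (fun g x => (exists_coresEtaCoc N q hqN g x).choose)
    (fun g x => (exists_coresEtaCoc N q hqN g x).choose_spec)
    (coresEtaRep_inj N q hqN)

@[simp] theorem coresSys_rep (hqN : ¬ q ∣ N) (x : OnePoint (ZMod q)) :
    (coresSys N q hqN).rep x = jGL N (coresRep N q hqN x) := rfl

@[simp] theorem coresSys_perm (hqN : ¬ q ∣ N) (g : ↥(Gamma0 N)) (x : OnePoint (ZMod q)) :
    (coresSys N q hqN).perm g x = redMatrix q (g : SL(2, ℤ)) • x := rfl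

@[simp] theorem coresEtaSys_rep (hqN : ¬ q ∣ N) (x : OnePoint (ZMod q)) :
    (coresEtaSys N q hqN).rep x = etaGL' q * jGL N (coresEtaRep N q hqN x) := rfl

@[simp] theorem coresEtaSys_perm (hqN : ¬ q ∣ N) (g : ↥(Gamma0 N)) (x : OnePoint (ZMod q)) :
    (coresEtaSys N q hqN).perm g x = redMatrix q (g : SL(2, ℤ)) • x := rfl

theorem coresSys_isInj (hqN : ¬ q ∣ N) : (coresSys N q hqN).IsInj := coresRep_inj N q hqN

theorem coresEtaSys_isInj (hqN : ¬ q ∣ N) : (coresEtaSys N q hqN).IsInj :=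
  coresEtaRep_inj N q hqN

/-- every representative of `coresEtaSys` is `jGL N (r x) * heckeRep q x` -/
theorem coresEtaSys_rep_eq (hqN : ¬ q ∣ N) (x : OnePoint (ZMod q)) :
    (coresEtaSys N q hqN).rep x = jGL N (coresEtaK N q hqN x) * heckeRep q x :=
  etaGL'_mul_coresEtaRep N q hqN x

/-- `η * rep x = jGL N (k x) * heckeRep q x` for the representatives of `coresSys` -/
theorem etaGL_mul_coresSys_rep (hqN : ¬ q ∣ N) (x : OnePoint (ZMod q)) :
    etaGL q * (coresSys N q hqN).rep x = jGL N (coresK N q hqN x) * heckeRep q x :=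
  etaGL_mul_coresRep N q hqN x

/-- the cosets `Γ₀(N q) * coresRep x` cover `Γ₀(N)` -/
theorem coresSys_cover (hqN : ¬ q ∣ N) (γ : ↥(Gamma0 N)) :
    ∃ (x : OnePoint (ZMod q)) (d : ↥(Gamma0 (N * q))),
      jGL N γ = jGL (N * q) d * (coresSys N q hqN).rep x := by
  refine ⟨(coresSys N q hqN).perm γ ∞, (coresSys N q hqN).coc γ ∞, ?_⟩
  have h := (coresSys N q hqN).rep_mul γ ∞
  rw [coresSys_rep, coresRep_infty, map_one, one_mul] at h
  exact h

/-- the cosets `Γ₀(N q) * η' * coresEtaRep x` cover `η' * Γ₀(N)` -/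
theorem coresEtaSys_cover (hqN : ¬ q ∣ N) (γ : ↥(Gamma0 N)) :
    ∃ (x : OnePoint (ZMod q)) (d : ↥(Gamma0 (N * q))),
      etaGL' q * jGL N γ = jGL (N * q) d * (coresEtaSys N q hqN).rep x := by
  refine ⟨(coresEtaSys N q hqN).perm ((coresEtaRep N q hqN ∞)⁻¹ * γ) ∞,
    (coresEtaSys N q hqN).coc ((coresEtaRep N q hqN ∞)⁻¹ * γ) ∞, ?_⟩
  have h := (coresEtaSys N q hqN).rep_mul ((coresEtaRep N q hqN ∞)⁻¹ * γ) ∞
  rw [coresEtaSys_rep, mul_assoc, ← map_mul, mul_inv_cancel_left] at h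
  exact h

end Systems

/-! ### Corestriction maps -/

section Cores

variable (N q : ℕ) [Fact q.Prime]

omit [Fact q.Prime] in
/-- the transfer along a coset system `Γ₀(N) ⟶ Γ₀(N q)` preserves parabolic homomorphisms -/
theorem transferAdd_mem_parHomAdd {ι : Type*} [Fintype ι]
    (S : CosetSys₂ (jGL N) (jGL (N * q)) ι) {A : Type*} [AddCommGroup A]
    {ψ : Additive ↥(Gamma0 (N * q)) →+ A} (hψ : ψ ∈ parHomAdd (N * q) A) :
    transferAdd S ψ ∈ parHomAdd N A := by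
  intro g hg
  have h := S.transfer_eq_one_of_mem (parEllSet N) (parEllSet (N * q))
    (fun g hg n a d hd => isParEll_of_conj_pow hg n a hd)
    (AddMonoidHom.toMultiplicativeRight ψ) (fun d hd => hψ d hd) (g := g) hg
  exact h

/-- **corestriction** `Hom(Γ₀(N q), A) → Hom(Γ₀(N), A)` (`0` if `q ∣ N`) -/
noncomputable def coresAdd {A : Type*} [AddCommGroup A] :
    (Additive ↥(Gamma0 (N * q)) →+ A) →+ (Additive ↥(Gamma0 N) →+ A) :=
  if hqN : ¬ q ∣ N then transferAdd (coresSys N q hqN) else 0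

/-- **`η`-twisted corestriction** `Hom(Γ₀(N q), A) → Hom(Γ₀(N), A)` (`0` if `q ∣ N`) -/
noncomputable def coresEtaAdd {A : Type*} [AddCommGroup A] :
    (Additive ↥(Gamma0 (N * q)) →+ A) →+ (Additive ↥(Gamma0 N) →+ A) :=
  if hqN : ¬ q ∣ N then transferAdd (coresEtaSys N q hqN) else 0

theorem coresAdd_eq (hqN : ¬ q ∣ N) {A : Type*} [AddCommGroup A] :
    (coresAdd N q : (Additive ↥(Gamma0 (N * q)) →+ A) →+ _) =
      transferAdd (coresSys N q hqN) := dif_pos hqN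

theorem coresEtaAdd_eq_transferAdd (hqN : ¬ q ∣ N) {A : Type*} [AddCommGroup A] :
    (coresEtaAdd N q : (Additive ↥(Gamma0 (N * q)) →+ A) →+ _) =
      transferAdd (coresEtaSys N q hqN) := dif_pos hqN

theorem coresAdd_apply (hqN : ¬ q ∣ N) {A : Type*} [AddCommGroup A]
    (ψ : Additive ↥(Gamma0 (N * q)) →+ A) (g : ↥(Gamma0 N)) :
    coresAdd N q ψ (Additive.ofMul g) =
      ∑ x : OnePoint (ZMod q), ψ (Additive.ofMul ((coresSys N q hqN).coc g x)) := by
  rw [coresAdd_eq N q hqN, transferAdd_apply]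

theorem coresEtaAdd_apply (hqN : ¬ q ∣ N) {A : Type*} [AddCommGroup A]
    (ψ : Additive ↥(Gamma0 (N * q)) →+ A) (g : ↥(Gamma0 N)) :
    coresEtaAdd N q ψ (Additive.ofMul g) =
      ∑ x : OnePoint (ZMod q), ψ (Additive.ofMul ((coresEtaSys N q hqN).coc g x)) := by
  rw [coresEtaAdd_eq_transferAdd N q hqN, transferAdd_apply]

theorem coresAdd_comp {A B : Type*} [AddCommGroup A] [AddCommGroup B] (f : A →+ B)
    (ψ : Additive ↥(Gamma0 (N * q)) →+ A) :
    coresAdd N q (f.comp ψ) = f.comp (coresAdd N q ψ) := by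
  by_cases hqN : ¬ q ∣ N
  · rw [coresAdd_eq N q hqN, coresAdd_eq N q hqN, transferAdd_comp]
  · simp [coresAdd, hqN]

theorem coresEtaAdd_comp {A B : Type*} [AddCommGroup A] [AddCommGroup B] (f : A →+ B)
    (ψ : Additive ↥(Gamma0 (N * q)) →+ A) :
    coresEtaAdd N q (f.comp ψ) = f.comp (coresEtaAdd N q ψ) := by
  by_cases hqN : ¬ q ∣ N
  · rw [coresEtaAdd_eq_transferAdd N q hqN, coresEtaAdd_eq_transferAdd N q hqN,
      transferAdd_comp]
  · simp [coresEtaAdd, hqN]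

theorem coresAdd_mem_parHomAdd {A : Type*} [AddCommGroup A]
    {ψ : Additive ↥(Gamma0 (N * q)) →+ A} (hψ : ψ ∈ parHomAdd (N * q) A) :
    coresAdd N q ψ ∈ parHomAdd N A := by
  by_cases hqN : ¬ q ∣ N
  · rw [coresAdd_eq N q hqN]
    exact transferAdd_mem_parHomAdd N q _ hψ
  · simp only [coresAdd, hqN, dite_false, AddMonoidHom.zero_apply]
    exact zero_mem _

theorem coresEtaAdd_mem_parHomAdd {A : Type*} [AddCommGroup A]
    {ψ : Additive ↥(Gamma0 (N * q)) →+ A} (hψ : ψ ∈ parHomAdd (N * q) A) :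
    coresEtaAdd N q ψ ∈ parHomAdd N A := by
  by_cases hqN : ¬ q ∣ N
  · rw [coresEtaAdd_eq_transferAdd N q hqN]
    exact transferAdd_mem_parHomAdd N q _ hψ
  · simp only [coresEtaAdd, hqN, dite_false, AddMonoidHom.zero_apply]
    exact zero_mem _

/-! ### The bundled maps `i` and `i†` -/

/-- `i = res + resEta : H_N ⊕ H_N → H_{N q}` on parabolic homomorphisms -/
noncomputable def iAdd (A : Type*) [AddCommGroup A] :
    parHomAdd N A × parHomAdd N A →+ parHomAdd (N * q) A where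
  toFun φ := ⟨resAdd N q φ.1.1 + resEtaAdd N q φ.2.1,
    add_mem (resAdd_mem_parHomAdd N q φ.1.2) (resEtaAdd_mem_parHomAdd N q φ.2.2)⟩
  map_zero' := Subtype.ext (by simp)
  map_add' φ ψ := Subtype.ext (by
    simp only [Prod.fst_add, Prod.snd_add, AddSubgroup.coe_add, map_add]
    abel)

/-- `i† = (cores, coresEta) : H_{N q} → H_N ⊕ H_N` on parabolic homomorphisms -/
noncomputable def iDagAdd (A : Type*) [AddCommGroup A] :
    parHomAdd (N * q) A →+ parHomAdd N A × parHomAdd N A where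
  toFun ψ := (⟨coresAdd N q ψ.1, coresAdd_mem_parHomAdd N q ψ.2⟩,
    ⟨coresEtaAdd N q ψ.1, coresEtaAdd_mem_parHomAdd N q ψ.2⟩)
  map_zero' := Prod.ext (Subtype.ext (by simp)) (Subtype.ext (by simp))
  map_add' φ ψ := Prod.ext (Subtype.ext (by simp)) (Subtype.ext (by simp))

@[simp] theorem coe_iAdd {A : Type*} [AddCommGroup A] (φ : parHomAdd N A × parHomAdd N A) :
    ((iAdd N q A φ : parHomAdd (N * q) A) : Additive ↥(Gamma0 (N * q)) →+ A) =
      resAdd N q φ.1.1 + resEtaAdd N q φ.2.1 := rfl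

@[simp] theorem coe_iDagAdd_fst {A : Type*} [AddCommGroup A] (ψ : parHomAdd (N * q) A) :
    (((iDagAdd N q A ψ).1 : parHomAdd N A) : Additive ↥(Gamma0 N) →+ A) =
      coresAdd N q ψ.1 := rfl

@[simp] theorem coe_iDagAdd_snd {A : Type*} [AddCommGroup A] (ψ : parHomAdd (N * q) A) :
    (((iDagAdd N q A ψ).2 : parHomAdd N A) : Additive ↥(Gamma0 N) →+ A) =
      coresEtaAdd N q ψ.1 := rfl

end Cores

end Fermat.Agent.P3LR.A.Degeneracy
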