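/-
P3-LR (S41, level raising), block (A), file 3d (helper21): the Atkin–Lehner identities of
moonshots row 33 (FILE 3) for helper7's concrete degeneracy maps
`resAdd / resEtaAdd / coresAdd / coresEtaAdd` (`P3LR/A/DegeneracyDefs.lean`).

* `coresSys_isTransversalOf`, `coresEtaSys_isTransversalOf` : the two concrete coset systems are
  transversals of `Γ₀(N q) \ Γ₀(N)` resp. `Γ₀(N q) \ η' Γ₀(N)`;
* ★ (Tr) `resAdd_coresAdd : resAdd (coresAdd ψ) = ψ + UAdd (wAdd ψ)`;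
* ★ (CE) `coresEtaAdd_eq : coresEtaAdd ψ = coresAdd (wAdd ψ)`, `coresAdd_eq_coresEtaAdd`;
* `resAdd_coresEtaAdd : resAdd (coresEtaAdd ψ) = wAdd ψ + UAdd ψ`;
* ★★ (U2) `UAdd_UAdd_of_ker : coresAdd ψ = 0 → coresEtaAdd ψ = 0 → UAdd (UAdd ψ) = ψ`,
  and its bundled form `UAdd_UAdd_of_iDagAdd_eq_zero` on `parHomAdd (N q) A`.
-/
import Mathlib
import Fermat.Agent.P3LR.A.AtkinLehnerAdd
import Fermat.Agent.P3LR.A.DegeneracyDefs

set_option autoImplicit false

open scoped MatrixGroups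

namespace Fermat.Agent.P3LR.A.AtkinLehnerFinal

open Matrix.SpecialLinearGroup CongruenceSubgroup ModularForm
open P2MW.S_ModularForm_heckeT_slash_eq_self_of_mem_Gamma0.ModularForm.HeckeSlashInvariance
open Fermat.Agent.N4F.Tors.HeckeHom Fermat.Agent.P3LR.A.IntMat
open Fermat.Agent.P3LR.A.AtkinLehnerSys
open Fermat.Agent.P3LR.A.AtkinLehner
open Fermat.Agent.P3LR.A.Transfer2
open Fermat.Agent.S16.Lower.USystem
open scoped OnePoint

variable (N q : ℕ) [hq : Fact q.Prime] (hqN : ¬ q ∣ N)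

/-! ### The two concrete systems are transversals -/

/-- `coresSys` is a transversal of `Γ₀(N q) \ Γ₀(N)`. -/
theorem coresSys_isTransversalOf :
    IsTransversalOf N q 1 (Degeneracy.coresSys N q hqN) where
  inj := Degeneracy.coresSys_isInj N q hqN
  mem x := ⟨Degeneracy.coresRep N q hqN x, by rw [Degeneracy.coresSys_rep, one_mul]⟩
  cover γ := by
    obtain ⟨x, d, h⟩ := Degeneracy.coresSys_cover N q hqN γ
    exact ⟨x, d, by rw [one_mul]; exact h⟩

/-- `coresEtaSys` is a transversal of `Γ₀(N q) \ η' Γ₀(N)`, `η' = diag(1, q)`. -/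
theorem coresEtaSys_isTransversalOf :
    IsTransversalOf N q (heckeMatrix q 0) (Degeneracy.coresEtaSys N q hqN) where
  inj := Degeneracy.coresEtaSys_isInj N q hqN
  mem x := ⟨Degeneracy.coresEtaRep N q hqN x, rfl⟩
  cover γ := Degeneracy.coresEtaSys_cover N q hqN γ

/-! ### Bridges between the two additive transfers -/

theorem transferAdd_eq {G Gam Del : Type*} [Group G] [Group Gam] [Group Del] {jΓ : Gam →* G}
    {jΔ : Del →* G} {ι : Type*} [Fintype ι] (S : CosetSys₂ jΓ jΔ ι) {A : Type*}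
    [AddCommGroup A] (ψ : Additive Del →+ A) :
    Degeneracy.transferAdd S ψ = AtkinLehnerAdd.transferAdd S ψ := rfl

theorem coresAdd_eq_transferAdd {A : Type*} [AddCommGroup A]
    (ψ : Additive ↥(Gamma0 (N * q)) →+ A) :
    Degeneracy.coresAdd N q ψ = AtkinLehnerAdd.transferAdd (Degeneracy.coresSys N q hqN) ψ := by
  rw [Degeneracy.coresAdd_eq N q hqN]; rfl

theorem coresEtaAdd_eq_transferAdd {A : Type*} [AddCommGroup A]
    (ψ : Additive ↥(Gamma0 (N * q)) →+ A) :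
    Degeneracy.coresEtaAdd N q ψ =
      AtkinLehnerAdd.transferAdd (Degeneracy.coresEtaSys N q hqN) ψ := by
  rw [Degeneracy.coresEtaAdd_eq_transferAdd N q hqN]; rfl

/-! ### The identities of row 33, FILE 3 -/

section Main

open Fermat.Agent.P3LR.A.Degeneracy Fermat.Agent.P3LR.A.AtkinLehnerAdd

variable {A : Type*} [AddCommGroup A]

/-- ★ **(Tr)** `res ∘ cores = 1 + U_q ∘ w_q`. -/
theorem resAdd_coresAdd (ψ : Additive ↥(Gamma0 (N * q)) →+ A) :
    resAdd N q (coresAdd N q ψ) = ψ + UAdd N q (wAdd N q hqN ψ) := by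
  rw [coresAdd_eq_transferAdd N q hqN]
  exact transferAdd_comp_incl N q hqN (coresSys N q hqN) (coresSys_isTransversalOf N q hqN)
    (incl N q) (jGL_incl N q) ψ

/-- ★ **(CE)** `coresEta = cores ∘ w_q`. -/
theorem coresEtaAdd_eq (ψ : Additive ↥(Gamma0 (N * q)) →+ A) :
    coresEtaAdd N q ψ = coresAdd N q (wAdd N q hqN ψ) := by
  rw [coresEtaAdd_eq_transferAdd N q hqN, coresAdd_eq_transferAdd N q hqN]
  exact transferAdd_eta_eq N q hqN (coresSys N q hqN) (coresSys_isTransversalOf N q hqN)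
    (coresEtaSys N q hqN) (coresEtaSys_isTransversalOf N q hqN) ψ

/-- `cores = coresEta ∘ w_q`. -/
theorem coresAdd_eq_coresEtaAdd (ψ : Additive ↥(Gamma0 (N * q)) →+ A) :
    coresAdd N q ψ = coresEtaAdd N q (wAdd N q hqN ψ) := by
  rw [coresEtaAdd_eq N q hqN, wAdd_wAdd]

/-- `res ∘ coresEta = w_q + U_q`. -/
theorem resAdd_coresEtaAdd (ψ : Additive ↥(Gamma0 (N * q)) →+ A) :
    resAdd N q (coresEtaAdd N q ψ) = wAdd N q hqN ψ + UAdd N q ψ := by
  rw [coresEtaAdd_eq N q hqN, resAdd_coresAdd N q hqN, wAdd_wAdd]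

include hqN in
/-- ★★ **(U2)** `U_q² = 1` on `ker cores ∩ ker coresEta`. -/
theorem UAdd_UAdd_of_ker (ψ : Additive ↥(Gamma0 (N * q)) →+ A)
    (h₁ : coresAdd N q ψ = 0) (h₂ : coresEtaAdd N q ψ = 0) :
    UAdd N q (UAdd N q ψ) = ψ := by
  rw [coresAdd_eq_transferAdd N q hqN] at h₁
  rw [coresEtaAdd_eq_transferAdd N q hqN] at h₂
  exact UAdd_UAdd_of_transferAdd_eq_zero N q hqN (coresSys N q hqN)
    (coresSys_isTransversalOf N q hqN) (coresEtaSys N q hqN)
    (coresEtaSys_isTransversalOf N q hqN) (incl N q) (jGL_incl N q) ψ h₁ h₂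

include hqN in
/-- (U2) in the exact `USystem.uAdd` form consumed by `DS1.exists_eigenform_of_eigenvector`
(any proof `hqM` of `q ∣ N * q`). -/
theorem uAdd_uAdd_of_ker (hqM : q ∣ N * q) (ψ : Additive ↥(Gamma0 (N * q)) →+ A)
    (h₁ : coresAdd N q ψ = 0) (h₂ : coresEtaAdd N q ψ = 0) :
    uAdd (N * q) q hqM (uAdd (N * q) q hqM ψ) = ψ :=
  UAdd_UAdd_of_ker N q hqN ψ h₁ h₂

include hqN in
/-- (U2), bundled: `U_q² = 1` on `ker i†`. -/
theorem UAdd_UAdd_of_iDagAdd_eq_zero (ψ : parHomAdd (N * q) A) (h : iDagAdd N q A ψ = 0) :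
    UAdd N q (UAdd N q ψ.1) = ψ.1 := by
  have h₁ : coresAdd N q ψ.1 = 0 := by
    have := congrArg (fun z => ((z.1 : parHomAdd N A) : Additive ↥(Gamma0 N) →+ A)) h
    simpa using this
  have h₂ : coresEtaAdd N q ψ.1 = 0 := by
    have := congrArg (fun z => ((z.2 : parHomAdd N A) : Additive ↥(Gamma0 N) →+ A)) h
    simpa using this
  exact UAdd_UAdd_of_ker N q hqN ψ.1 h₁ h₂

/-- on `ker i†`, `U_q = - w_q`. -/
theorem UAdd_wAdd_of_ker (ψ : Additive ↥(Gamma0 (N * q)) →+ A)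
    (h₁ : coresAdd N q ψ = 0) : UAdd N q (wAdd N q hqN ψ) = -ψ := by
  have h := resAdd_coresAdd N q hqN ψ
  rw [h₁, map_zero] at h
  exact (neg_eq_of_add_eq_zero_right h.symm).symm

end Main

end Fermat.Agent.P3LR.A.AtkinLehnerFinal
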