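/-
P3-LR (S41, level raising), block (A), file 3e (helper21): the Atkin–Lehner involution exchanges
the two degeneracy maps, and the data the [PD] block needs about `w_q`.

* `incl_wConj : incl (wConj δ) = α * conjEta δ * α⁻¹` (`α ∈ Γ₀(N)`, `W = α η`);
* ★ `resEtaAdd_eq : resEtaAdd φ = wAdd (resAdd φ)`, `resAdd_eq : resAdd φ = wAdd (resEtaAdd φ)`;
* `wAdd_iAdd`, `iDagAdd_wAdd` : `w_q` exchanges the two components of `i`, `i†`;
* `wConj_injective`, `wEquiv : Γ₀(N q) ≃* Γ₀(N q)`, the integer matrix `wMat` with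
  `det_wMat : det = q`, `wMat_mul_coe : wMat * δ = wConj δ * wMat` (for `PD/Conj.cuspSum_conj`).
-/
import Mathlib
import Fermat.Agent.P3LR.A.AtkinLehnerFinal

set_option autoImplicit false

open scoped MatrixGroups

namespace Fermat.Agent.P3LR.A.AtkinLehnerEta

open Matrix.SpecialLinearGroup CongruenceSubgroup ModularForm
open P2MW.S_ModularForm_heckeT_slash_eq_self_of_mem_Gamma0.ModularForm.HeckeSlashInvariance
open Fermat.Agent.N4F.Tors.HeckeHom Fermat.Agent.P3LR.A.IntMat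
open Fermat.Agent.P3LR.A.AtkinLehnerMat Fermat.Agent.P3LR.A.AtkinLehnerSys
open Fermat.Agent.P3LR.A.AtkinLehner Fermat.Agent.P3LR.A.AtkinLehnerAdd
open Fermat.Agent.P3LR.A.AtkinLehnerFinal
open Fermat.Agent.P3LR.A.Degeneracy
open scoped OnePoint

variable (N q : ℕ) [hq : Fact q.Prime] (hqN : ¬ q ∣ N)

/-! ### `w_q` as an automorphism; integer forms -/

theorem wConj_injective : Function.Injective (wConj N q hqN) := by
  intro x y h
  apply jGL_injective (N * q)
  have hx := wGL_mul_jGL N q hqN x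
  have hy := wGL_mul_jGL N q hqN y
  rw [h, ← hy] at hx
  exact mul_left_cancel hx

/-- conjugation by `W` as an automorphism of `Γ₀(N q)` -/
noncomputable def wEquiv : ↥(Gamma0 (N * q)) ≃* ↥(Gamma0 (N * q)) :=
  MulEquiv.ofBijective (wConj N q hqN) ⟨wConj_injective N q hqN, wConj_surjective N q hqN⟩

@[simp] theorem wEquiv_apply (δ : ↥(Gamma0 (N * q))) :
    wEquiv N q hqN δ = wConj N q hqN δ := rfl

theorem coe_wEquiv : ((wEquiv N q hqN : ↥(Gamma0 (N * q)) ≃* ↥(Gamma0 (N * q))) :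
    ↥(Gamma0 (N * q)) →* ↥(Gamma0 (N * q))) = wConj N q hqN := rfl

theorem det_wMat : (wMat N q hqN).det = q := det_wInt (wBD N q hqN)

theorem det_wMat_pos : 0 < (wMat N q hqN).det := by
  rw [det_wMat]
  exact_mod_cast hq.out.pos

/-- integer form of `W δ = (W δ W⁻¹) W` -/
theorem wMat_mul_coe (δ : ↥(Gamma0 (N * q))) :
    wMat N q hqN * ((δ : SL(2, ℤ)) : MI) =
      ((wConj N q hqN δ : SL(2, ℤ)) : MI) * wMat N q hqN :=
  wMat_mul N q hqN δ

theorem wGL_eq_glOf : wGL N q hqN = glOf (wMat N q hqN) := rfl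

/-! ### `w_q` exchanges `incl` and `conjEta` -/

theorem incl_wConj (δ : ↥(Gamma0 (N * q))) :
    incl N q (wConj N q hqN δ) =
      alp N q hqN * conjEta N q δ * (alp N q hqN)⁻¹ := by
  apply jGL_injective N
  have h1 := wGL_mul_jGL N q hqN δ
  have h2 : etaGL q * jGL (N * q) δ = jGL N (conjEta N q δ) * etaGL q := etaGL_mul_jGL N q δ
  have h3 : wGL N q hqN = jGL N (alp N q hqN) * etaGL q := wGL_eq N q hqN
  rw [h3, mul_assoc, h2, ← mul_assoc, ← mul_assoc] at h1
  have h4 := mul_right_cancel h1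
  rw [jGL_incl, map_mul, map_mul, map_inv, h4, mul_inv_cancel_right]

section Add

variable {A : Type*} [AddCommGroup A]

/-- ★ `resEta = w_q ∘ res`. -/
theorem resEtaAdd_eq (φ : Additive ↥(Gamma0 N) →+ A) :
    resEtaAdd N q φ = wAdd N q hqN (resAdd N q φ) := by
  refine AddMonoidHom.ext fun δ => ?_
  obtain ⟨δ, rfl⟩ := Additive.ofMul.surjective δ
  rw [resEtaAdd_apply, wAdd_apply, resAdd_apply, incl_wConj, ofMul_mul, ofMul_mul, ofMul_inv,
    map_add, map_add, map_neg]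
  abel

/-- `res = w_q ∘ resEta`. -/
theorem resAdd_eq (φ : Additive ↥(Gamma0 N) →+ A) :
    resAdd N q φ = wAdd N q hqN (resEtaAdd N q φ) := by
  rw [resEtaAdd_eq N q hqN, wAdd_wAdd]

/-- `w_q` exchanges the two components of `i`. -/
theorem wAdd_iAdd (φ : parHomAdd N A × parHomAdd N A) :
    wAdd N q hqN ((iAdd N q A φ : parHomAdd (N * q) A) : Additive ↥(Gamma0 (N * q)) →+ A) =
      ((iAdd N q A (φ.2, φ.1) : parHomAdd (N * q) A) : Additive ↥(Gamma0 (N * q)) →+ A) := by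
  rw [coe_iAdd, coe_iAdd, map_add, ← resEtaAdd_eq, ← resAdd_eq, add_comm]

/-- `w_q` exchanges the two components of `i†`. -/
theorem coresAdd_wAdd (ψ : Additive ↥(Gamma0 (N * q)) →+ A) :
    coresAdd N q (wAdd N q hqN ψ) = coresEtaAdd N q ψ :=
  (coresEtaAdd_eq N q hqN ψ).symm

theorem coresEtaAdd_wAdd (ψ : Additive ↥(Gamma0 (N * q)) →+ A) :
    coresEtaAdd N q (wAdd N q hqN ψ) = coresAdd N q ψ :=
  (coresAdd_eq_coresEtaAdd N q hqN ψ).symm

end Add

end Fermat.Agent.P3LR.A.AtkinLehnerEta
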