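/-
P3-LR (S41, level raising), block (A), file 3a (helper21): the Atkin–Lehner matrix
`W = [[q, b], [N q, q d]]`, `q d - N b = 1`, as an integer matrix, and the matrix identities
behind `w_q` on `Γ₀(N q)`:

* `exists_wConj` : `W δ = δ' W` with `δ' ∈ Γ₀(N q)` for `δ ∈ Γ₀(N q)` (`W` normalises `Γ₀(N q)`);
* `wInt_mul_self` : `W² = q • δ₀`, `δ₀ ∈ Γ₀(N q)`;
* `wInt_eq_alpha_mul` : `W = α · diag(q, 1)`, `α ∈ Γ₀(N)`;
* `wInt_mul_hInt` : `W · [[1, j], [0, q]] = q • γ_j`, `γ_j ∈ Γ₀(N)`; the `γ_j` together with `1`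
  form a transversal of `Γ₀(N q) \ Γ₀(N)` (`gammaRep_inj`, `gammaRep_ne_one`, `exists_gammaRep`).
-/
import Mathlib
import Fermat.Agent.P3LR.A.IntMat

set_option autoImplicit false

open scoped MatrixGroups

namespace Fermat.Agent.P3LR.A.AtkinLehnerMat

open Matrix.SpecialLinearGroup CongruenceSubgroup ModularForm
open Fermat.Agent.N4F.Tors.HeckeHom Fermat.Agent.P3LR.A.IntMat

/-- the lower left entry of an element of `Γ₀(M)` is divisible by `M` -/
theorem dvd_lowerLeft (M : ℕ) (g : ↥(Gamma0 M)) : (M : ℤ) ∣ (g : SL(2, ℤ)) 1 0 :=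
  (ZMod.intCast_zmod_eq_zero_iff_dvd _ _).mp (Gamma0_mem.mp g.2)

theorem mem_Gamma0_of_dvd {M : ℕ} {g : SL(2, ℤ)} (h : (M : ℤ) ∣ g 1 0) : g ∈ Gamma0 M :=
  Gamma0_mem.mpr ((ZMod.intCast_zmod_eq_zero_iff_dvd _ _).mpr h)

theorem coe_eq_of (g : SL(2, ℤ)) : (g : MI) = !![g 0 0, g 0 1; g 1 0, g 1 1] :=
  Matrix.eta_fin_two _

section Mat

variable (N q : ℕ) (b d : ℤ)

/-- the Atkin–Lehner matrix `[[q, b], [N q, q d]]` -/
def wInt : MI := !![(q : ℤ), b; (N : ℤ) * q, q * d]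

variable {N q b d}

theorem det_wInt (h : (q : ℤ) * d - N * b = 1) : (wInt N q b d).det = q := by
  rw [wInt, Matrix.det_fin_two_of]
  linear_combination (q : ℤ) * h

theorem det_wInt_ne_zero (hq : q ≠ 0) (h : (q : ℤ) * d - N * b = 1) : (wInt N q b d).det ≠ 0 := by
  rw [det_wInt h]
  exact_mod_cast hq

variable (N q b d) in
/-- the matrix of `W δ W⁻¹` for `δ = [[x, y], [N q z, t]]` -/
def wConjMat (x y z t : ℤ) : MI :=
  !![d * (q * x + b * (N * q * z)) - N * (q * y + b * t),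
     -b * x + q * y + b * t - b ^ 2 * N * z;
     (N * q) * (d * x + d ^ 2 * q * z - N * y - d * t),
     -b * (N * x + d * (N * q * z)) + N * q * y + q * d * t]

theorem wConjMat_mul (h : (q : ℤ) * d - N * b = 1) (x y z t : ℤ) :
    wConjMat N q b d x y z t * wInt N q b d = wInt N q b d * !![x, y; (N : ℤ) * q * z, t] := by
  ext i j
  fin_cases i <;> fin_cases j
  · simp only [wConjMat, wInt, Matrix.mul_apply, Fin.sum_univ_two, Fin.zero_eta, Fin.isValue,
      Matrix.of_apply, Matrix.cons_val', Matrix.cons_val_zero, Matrix.cons_val_one,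
      Matrix.cons_val_fin_one]
    linear_combination ((q : ℤ) * x + b * (N * q * z)) * h
  · simp only [wConjMat, wInt, Matrix.mul_apply, Fin.sum_univ_two, Fin.zero_eta, Fin.isValue,
      Fin.mk_one, Matrix.of_apply, Matrix.cons_val', Matrix.cons_val_zero, Matrix.cons_val_one,
      Matrix.cons_val_fin_one]
    linear_combination ((q : ℤ) * y + b * t) * h
  · simp only [wConjMat, wInt, Matrix.mul_apply, Fin.sum_univ_two, Fin.zero_eta, Fin.isValue,
      Fin.mk_one, Matrix.of_apply, Matrix.cons_val', Matrix.cons_val_zero, Matrix.cons_val_one,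
      Matrix.cons_val_fin_one]
    linear_combination ((N : ℤ) * q * x + q * d * (N * q * z)) * h
  · simp only [wConjMat, wInt, Matrix.mul_apply, Fin.sum_univ_two, Fin.isValue,
      Fin.mk_one, Matrix.of_apply, Matrix.cons_val', Matrix.cons_val_zero, Matrix.cons_val_one,
      Matrix.cons_val_fin_one]
    linear_combination ((N : ℤ) * q * y + q * d * t) * h

/-- **`W` normalises `Γ₀(N q)`.** -/
theorem exists_wConj (hq : q ≠ 0) (h : (q : ℤ) * d - N * b = 1) (δ : ↥(Gamma0 (N * q))) :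
    ∃ δ' : ↥(Gamma0 (N * q)),
      wInt N q b d * ((δ : SL(2, ℤ)) : MI) = ((δ' : SL(2, ℤ)) : MI) * wInt N q b d := by
  obtain ⟨z, hz⟩ := dvd_lowerLeft (N * q) δ
  have hz' : (δ : SL(2, ℤ)) 1 0 = (N : ℤ) * q * z := by rw [hz]; push_cast; ring
  set x := (δ : SL(2, ℤ)) 0 0 with hx
  set y := (δ : SL(2, ℤ)) 0 1 with hy
  set t := (δ : SL(2, ℤ)) 1 1 with ht
  have hδ : ((δ : SL(2, ℤ)) : MI) = !![x, y; (N : ℤ) * q * z, t] := by
    rw [coe_eq_of, hz']
  have hmul := wConjMat_mul (N := N) (q := q) (b := b) (d := d) h x y z t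
  have hdet : (wConjMat N q b d x y z t).det = 1 := by
    have h1 := congrArg Matrix.det hmul
    rw [Matrix.det_mul, Matrix.det_mul, ← hδ, (δ : SL(2, ℤ)).det_coe, mul_one] at h1
    have h0 := det_wInt_ne_zero hq h
    have h2 : (wConjMat N q b d x y z t).det * (wInt N q b d).det = 1 * (wInt N q b d).det := by
      rw [h1, one_mul]
    exact mul_right_cancel₀ h0 h2
  refine ⟨⟨⟨wConjMat N q b d x y z t, hdet⟩, mem_Gamma0_of_dvd ?_⟩, ?_⟩
  · show ((N * q : ℕ) : ℤ) ∣ wConjMat N q b d x y z t 1 0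
    refine ⟨d * x + d ^ 2 * q * z - N * y - d * t, ?_⟩
    simp only [wConjMat, Matrix.of_apply, Matrix.cons_val', Matrix.cons_val_zero,
      Matrix.cons_val_one, Matrix.cons_val_fin_one]
    push_cast
    ring
  · rw [hδ]
    exact hmul.symm

/-- the element `δ₀` with `W² = q δ₀` -/
def delta0Mat (N q : ℕ) (b d : ℤ) : MI :=
  !![(q : ℤ) + b * N, b * (1 + d); (N : ℤ) * q * (1 + d), N * b + q * d ^ 2]

theorem wInt_mul_self : wInt N q b d * wInt N q b d = (q : ℤ) • delta0Mat N q b d := by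
  ext i j
  fin_cases i <;> fin_cases j <;>
    simp only [delta0Mat, wInt, Matrix.mul_apply, Fin.sum_univ_two, Fin.zero_eta, Fin.isValue,
      Fin.mk_one, Matrix.of_apply, Matrix.cons_val', Matrix.cons_val_zero, Matrix.cons_val_one,
      Matrix.cons_val_fin_one, Matrix.smul_apply, smul_eq_mul] <;> ring

theorem det_delta0Mat (h : (q : ℤ) * d - N * b = 1) : (delta0Mat N q b d).det = 1 := by
  rw [delta0Mat, Matrix.det_fin_two_of]
  linear_combination ((q : ℤ) * d - N * b + 1) * h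

/-- `δ₀ ∈ Γ₀(N q)` -/
def delta0 (h : (q : ℤ) * d - N * b = 1) : ↥(Gamma0 (N * q)) :=
  ⟨⟨delta0Mat N q b d, det_delta0Mat h⟩, mem_Gamma0_of_dvd (by
    show ((N * q : ℕ) : ℤ) ∣ delta0Mat N q b d 1 0
    refine ⟨1 + d, ?_⟩
    simp only [delta0Mat, Matrix.of_apply, Matrix.cons_val', Matrix.cons_val_zero,
      Matrix.cons_val_one, Matrix.cons_val_fin_one]
    push_cast
    ring)⟩

@[simp] theorem coe_delta0 (h : (q : ℤ) * d - N * b = 1) :
    (((delta0 h : ↥(Gamma0 (N * q))) : SL(2, ℤ)) : MI) = delta0Mat N q b d := rfl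

/-- `α = [[1, b], [N, q d]] ∈ Γ₀(N)` with `W = α · diag(q, 1)` -/
def alphaMat (N q : ℕ) (b d : ℤ) : MI := !![1, b; (N : ℤ), q * d]

theorem det_alphaMat (h : (q : ℤ) * d - N * b = 1) : (alphaMat N q b d).det = 1 := by
  rw [alphaMat, Matrix.det_fin_two_of]
  linear_combination h

/-- `α ∈ Γ₀(N)` -/
def alpha (h : (q : ℤ) * d - N * b = 1) : ↥(Gamma0 N) :=
  ⟨⟨alphaMat N q b d, det_alphaMat h⟩, mem_Gamma0_of_dvd (by
    show (N : ℤ) ∣ alphaMat N q b d 1 0
    simp [alphaMat])⟩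

@[simp] theorem coe_alpha (h : (q : ℤ) * d - N * b = 1) :
    (((alpha h : ↥(Gamma0 N)) : SL(2, ℤ)) : MI) = alphaMat N q b d := rfl

theorem wInt_eq_alpha_mul : wInt N q b d = alphaMat N q b d * !![(q : ℤ), 0; 0, 1] := by
  ext i j
  fin_cases i <;> fin_cases j <;>
    simp [alphaMat, wInt, Matrix.mul_apply, Fin.sum_univ_two]

/-- `γ_j = [[1, j + b], [N, N j + q d]] ∈ Γ₀(N)` with `W · [[1, j], [0, q]] = q γ_j` -/
def gammaMat (N q : ℕ) (b d : ℤ) (j : ℤ) : MI := !![1, j + b; (N : ℤ), N * j + q * d]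

theorem det_gammaMat (h : (q : ℤ) * d - N * b = 1) (j : ℤ) : (gammaMat N q b d j).det = 1 := by
  rw [gammaMat, Matrix.det_fin_two_of]
  linear_combination h

/-- `γ_j ∈ Γ₀(N)` -/
def gammaRep (h : (q : ℤ) * d - N * b = 1) (j : ℤ) : ↥(Gamma0 N) :=
  ⟨⟨gammaMat N q b d j, det_gammaMat h j⟩, mem_Gamma0_of_dvd (by
    show (N : ℤ) ∣ gammaMat N q b d j 1 0
    simp [gammaMat])⟩

@[simp] theorem coe_gammaRep (h : (q : ℤ) * d - N * b = 1) (j : ℤ) :
    (((gammaRep h j : ↥(Gamma0 N)) : SL(2, ℤ)) : MI) = gammaMat N q b d j := rfl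

theorem wInt_mul_hInt (j : ℤ) :
    wInt N q b d * !![1, j; 0, (q : ℤ)] = (q : ℤ) • gammaMat N q b d j := by
  ext i k
  fin_cases i <;> fin_cases k <;>
    simp only [gammaMat, wInt, Matrix.mul_apply, Fin.sum_univ_two, Fin.zero_eta, Fin.isValue,
      Fin.mk_one, Matrix.of_apply, Matrix.cons_val', Matrix.cons_val_zero, Matrix.cons_val_one,
      Matrix.cons_val_fin_one, Matrix.smul_apply, smul_eq_mul] <;> ring

end Mat

end Fermat.Agent.P3LR.A.AtkinLehnerMat
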