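/-
P3-LR (S41, level raising), block (A), file 1b (helper21): two more operations on two-group coset
systems (`Transfer2.CosetSys₂`).

* `scale S c hc` : multiply all representatives by a central element `c`; same transfer.
* `sum S S'` : disjoint union of two systems; the transfer is the product of the transfers.
* `conjTarget` : a system for `jΔ' = a * jΔ(·) * a⁻¹` is a system for `jΔ` with representatives
  `a⁻¹ * rep i`; same transfer.
-/
import Mathlib
import Fermat.Agent.P3LR.A.Transfer2

set_option autoImplicit false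

namespace Fermat.Agent.P3LR.A.Transfer2Ops

open Fermat.Agent.P3LR.A.Transfer2

variable {G Gam Del : Type*} [Group G] [Group Gam] [Group Del]
  {jΓ : Gam →* G} {jΔ : Del →* G} {ι ι' : Type*}

/-! ### Scaling by a central element -/

section Scale

/-- Multiply all representatives by a central element. -/
def scale (S : CosetSys₂ jΓ jΔ ι) (c : G) (hc : ∀ x : G, c * x = x * c) : CosetSys₂ jΓ jΔ ι where
  rep i := c * S.rep i
  perm := S.perm
  coc := S.coc
  rep_mul g i := by rw [mul_assoc, S.rep_mul, ← mul_assoc, ← mul_assoc, hc]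
  perm_one := S.perm_one
  perm_mul := S.perm_mul
  coc_mul := S.coc_mul

@[simp] theorem scale_rep (S : CosetSys₂ jΓ jΔ ι) (c : G) (hc : ∀ x : G, c * x = x * c) (i : ι) :
    (scale S c hc).rep i = c * S.rep i := rfl

@[simp] theorem scale_perm (S : CosetSys₂ jΓ jΔ ι) (c : G) (hc : ∀ x : G, c * x = x * c)
    (g : Gam) (i : ι) : (scale S c hc).perm g i = S.perm g i := rfl

@[simp] theorem scale_coc (S : CosetSys₂ jΓ jΔ ι) (c : G) (hc : ∀ x : G, c * x = x * c)
    (g : Gam) (i : ι) : (scale S c hc).coc g i = S.coc g i := rfl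

theorem transfer_scale {M : Type*} [CommGroup M] [Fintype ι] (S : CosetSys₂ jΓ jΔ ι) (c : G)
    (hc : ∀ x : G, c * x = x * c) (ψ : Del →* M) :
    (scale S c hc).transfer ψ = S.transfer ψ := rfl

theorem isInj_scale {S : CosetSys₂ jΓ jΔ ι} (hS : S.IsInj) (c : G)
    (hc : ∀ x : G, c * x = x * c) : (scale S c hc).IsInj := by
  intro i i' d h
  refine hS i i' d ?_
  have h1 : c * S.rep i = c * (jΔ d * S.rep i') := by
    rw [← mul_assoc, hc (jΔ d), mul_assoc]
    exact h
  exact mul_left_cancel h1

end Scale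

/-! ### Disjoint unions -/

section Sum

/-- The disjoint union of two coset systems. -/
def sum (S : CosetSys₂ jΓ jΔ ι) (S' : CosetSys₂ jΓ jΔ ι') : CosetSys₂ jΓ jΔ (ι ⊕ ι') where
  rep := Sum.elim S.rep S'.rep
  perm g := Sum.map (S.perm g) (S'.perm g)
  coc g := Sum.elim (S.coc g) (S'.coc g)
  rep_mul g x := by
    rcases x with i | i'
    · exact S.rep_mul g i
    · exact S'.rep_mul g i'
  perm_one x := by
    rcases x with i | i'
    · exact congrArg Sum.inl (S.perm_one i)
    · exact congrArg Sum.inr (S'.perm_one i')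
  perm_mul g h x := by
    rcases x with i | i'
    · exact congrArg Sum.inl (S.perm_mul g h i)
    · exact congrArg Sum.inr (S'.perm_mul g h i')
  coc_mul g h x := by
    rcases x with i | i'
    · exact S.coc_mul g h i
    · exact S'.coc_mul g h i'

@[simp] theorem sum_rep_inl (S : CosetSys₂ jΓ jΔ ι) (S' : CosetSys₂ jΓ jΔ ι') (i : ι) :
    (sum S S').rep (Sum.inl i) = S.rep i := rfl

@[simp] theorem sum_rep_inr (S : CosetSys₂ jΓ jΔ ι) (S' : CosetSys₂ jΓ jΔ ι') (i' : ι') :
    (sum S S').rep (Sum.inr i') = S'.rep i' := rfl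

theorem transfer_sum {M : Type*} [CommGroup M] [Fintype ι] [Fintype ι']
    (S : CosetSys₂ jΓ jΔ ι) (S' : CosetSys₂ jΓ jΔ ι') (ψ : Del →* M) :
    (sum S S').transfer ψ = S.transfer ψ * S'.transfer ψ := by
  ext g
  rw [MonoidHom.mul_apply, CosetSys₂.transfer_apply, CosetSys₂.transfer_apply,
    CosetSys₂.transfer_apply, Fintype.prod_sum_type]
  rfl

end Sum

/-! ### Conjugating the target embedding -/

section ConjTarget

/-- the embedding `d ↦ a * jΔ d * a⁻¹` -/
def conjHom (jΔ : Del →* G) (a : G) : Del →* G where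
  toFun d := a * jΔ d * a⁻¹
  map_one' := by simp
  map_mul' x y := by rw [map_mul]; group

@[simp] theorem conjHom_apply (jΔ : Del →* G) (a : G) (d : Del) :
    conjHom jΔ a d = a * jΔ d * a⁻¹ := rfl

/-- A system for the conjugated embedding is a system for the original one, with representatives
`a⁻¹ * rep i`. -/
def conjTarget (a : G) (S : CosetSys₂ jΓ (conjHom jΔ a) ι) : CosetSys₂ jΓ jΔ ι where
  rep i := a⁻¹ * S.rep i
  perm := S.perm
  coc := S.coc
  rep_mul g i := by
    rw [mul_assoc, S.rep_mul, conjHom_apply]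
    group
  perm_one := S.perm_one
  perm_mul := S.perm_mul
  coc_mul := S.coc_mul

@[simp] theorem conjTarget_rep (a : G) (S : CosetSys₂ jΓ (conjHom jΔ a) ι) (i : ι) :
    (conjTarget a S).rep i = a⁻¹ * S.rep i := rfl

theorem transfer_conjTarget {M : Type*} [CommGroup M] [Fintype ι] (a : G)
    (S : CosetSys₂ jΓ (conjHom jΔ a) ι) (ψ : Del →* M) :
    (conjTarget a S).transfer ψ = S.transfer ψ := rfl

theorem isInj_conjTarget {a : G} {S : CosetSys₂ jΓ (conjHom jΔ a) ι} (hS : S.IsInj) :
    (conjTarget a S).IsInj := by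
  intro i i' d h
  refine hS i i' d ?_
  have h1 : a⁻¹ * S.rep i = jΔ d * (a⁻¹ * S.rep i') := h
  rw [conjHom_apply]
  calc S.rep i = a * (a⁻¹ * S.rep i) := by group
    _ = a * (jΔ d * (a⁻¹ * S.rep i')) := by rw [h1]
    _ = a * jΔ d * a⁻¹ * S.rep i' := by group

end ConjTarget

end Fermat.Agent.P3LR.A.Transfer2Ops
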