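/-
P3-LR (S41, level raising), block (A), file 3b (helper21): the Atkin–Lehner element in `GL₂(ℝ)`
and its coset-system relations.

For a prime `q ∤ N` fix `b, d` with `q d - N b = 1` and `W = [[q, b], [N q, q d]]`.

* `wGL N q hqN : GL (Fin 2) ℝ`, `wConj N q hqN : Γ₀(N q) →* Γ₀(N q)` with
  `wGL * jGL δ = jGL (wConj δ) * wGL`  (`wGL_mul_jGL`);
* `zGL q` : the central scalar `q`; `wGL_mul_wGL : wGL * wGL = zGL q * jGL δ₀`;
  `wConj_wConj : wConj (wConj δ) = δ₀ * δ * δ₀⁻¹`, `wConj_surjective`;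
* `wGL_eq : wGL = jGL N α * heckeDiagMatrix q`;
* `wGL_mul_heckeMatrix : wGL * heckeMatrix q j = zGL q * jGL N (γ_j)`, and the transversal
  `{1} ∪ {γ_j}` of `Γ₀(N q) \ Γ₀(N)`: `gam_not_mem`, `gam_inj`, `exists_gam`.
-/
import Mathlib
import Fermat.Agent.P3LR.A.AtkinLehnerMat
import Fermat.Agent.P3LR.A.Transfer2Ops
import Fermat.Agent.S16.Lower.USystem

set_option autoImplicit false

open scoped MatrixGroups

namespace Fermat.Agent.P3LR.A.AtkinLehnerSys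

open Matrix.SpecialLinearGroup CongruenceSubgroup ModularForm
open P2MW.S_ModularForm_heckeT_slash_eq_self_of_mem_Gamma0.ModularForm.HeckeSlashInvariance
open Fermat.Agent.N4F.Tors.HeckeHom Fermat.Agent.P3LR.A.IntMat
open Fermat.Agent.P3LR.A.AtkinLehnerMat
open scoped OnePoint

/-! ### The central scalar -/

/-- the scalar matrix `q` in `GL₂(ℝ)` -/
noncomputable def zGL (q : ℕ) [NeZero q] : GL (Fin 2) ℝ :=
  Matrix.GeneralLinearGroup.scalar (Fin 2) (Units.mk0 (q : ℝ) (by exact_mod_cast NeZero.ne q))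

theorem zGL_comm (q : ℕ) [NeZero q] (x : GL (Fin 2) ℝ) : zGL q * x = x * zGL q :=
  Matrix.GeneralLinearGroup.scalar_commute _ x

theorem zGL_inv_comm (q : ℕ) [NeZero q] (x : GL (Fin 2) ℝ) : (zGL q)⁻¹ * x = x * (zGL q)⁻¹ := by
  have h := zGL_comm q x
  calc (zGL q)⁻¹ * x = (zGL q)⁻¹ * (x * zGL q) * (zGL q)⁻¹ := by group
    _ = (zGL q)⁻¹ * (zGL q * x) * (zGL q)⁻¹ := by rw [h]
    _ = x * (zGL q)⁻¹ := by group

theorem glOf_smul (q : ℕ) [NeZero q] {A : MI} (hA : A.det ≠ 0) :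
    glOf ((q : ℤ) • A) = zGL q * glOf A := by
  have hq : (q : ℤ) ≠ 0 := by exact_mod_cast NeZero.ne q
  have hqA : ((q : ℤ) • A).det ≠ 0 := by
    rw [Matrix.det_smul, Fintype.card_fin]
    exact mul_ne_zero (pow_ne_zero _ hq) hA
  apply Units.ext
  rw [coe_glOf hqA, Units.val_mul, coe_glOf hA]
  ext i k
  rw [toReal_apply, Matrix.smul_apply, smul_eq_mul, zGL, Matrix.GeneralLinearGroup.coe_scalar,
    Matrix.scalar_apply, Matrix.diagonal_mul, toReal_apply]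
  push_cast
  rfl

/-! ### The choice of `b`, `d` -/

section Choice

variable (N q : ℕ) [hq : Fact q.Prime] (hqN : ¬ q ∣ N)

include hqN in
theorem exists_bezout : ∃ bd : ℤ × ℤ, (q : ℤ) * bd.2 - N * bd.1 = 1 := by
  have hcop : Nat.Coprime q N := (Nat.Prime.coprime_iff_not_dvd hq.out).mpr hqN
  obtain ⟨u, v, huv⟩ := Nat.isCoprime_iff_coprime.mpr hcop
  exact ⟨(-v, u), by simp only; linear_combination huv⟩

/-- the entry `b` of `W` -/
noncomputable def wB : ℤ := (exists_bezout N q hqN).choose.1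

/-- the entry `d` of `W` -/
noncomputable def wD : ℤ := (exists_bezout N q hqN).choose.2

theorem wBD : (q : ℤ) * wD N q hqN - N * wB N q hqN = 1 :=
  (exists_bezout N q hqN).choose_spec

theorem q_ne_zero : q ≠ 0 := hq.out.ne_zero

instance : NeZero q := ⟨hq.out.ne_zero⟩

omit hq in
include hqN in
theorem N_ne_zero : N ≠ 0 := fun h => hqN (h ▸ dvd_zero q)

/-- the integer Atkin–Lehner matrix -/
noncomputable def wMat : MI := wInt N q (wB N q hqN) (wD N q hqN)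

theorem det_wMat_ne_zero : (wMat N q hqN).det ≠ 0 :=
  det_wInt_ne_zero hq.out.ne_zero (wBD N q hqN)

/-- **the Atkin–Lehner element** of `GL₂(ℝ)` -/
noncomputable def wGL : GL (Fin 2) ℝ := glOf (wMat N q hqN)

/-! ### `W` normalises `Γ₀(N q)` -/

/-- the conjugate `W δ W⁻¹`, as a function -/
noncomputable def wConjFun (δ : ↥(Gamma0 (N * q))) : ↥(Gamma0 (N * q)) :=
  (exists_wConj hq.out.ne_zero (wBD N q hqN) δ).choose

theorem wMat_mul (δ : ↥(Gamma0 (N * q))) :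
    wMat N q hqN * ((δ : SL(2, ℤ)) : MI) =
      ((wConjFun N q hqN δ : SL(2, ℤ)) : MI) * wMat N q hqN :=
  (exists_wConj hq.out.ne_zero (wBD N q hqN) δ).choose_spec

theorem wGL_mul_jGL' (δ : ↥(Gamma0 (N * q))) :
    wGL N q hqN * jGL (N * q) δ = jGL (N * q) (wConjFun N q hqN δ) * wGL N q hqN := by
  rw [jGL_apply, jGL_apply, wGL]
  exact (glOf_mul_mapGL_eq_iff (det_wMat_ne_zero N q hqN) (det_wMat_ne_zero N q hqN) _ _).mpr
    (wMat_mul N q hqN δ)

/-- **conjugation by `W`** on `Γ₀(N q)` -/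
noncomputable def wConj : ↥(Gamma0 (N * q)) →* ↥(Gamma0 (N * q)) where
  toFun := wConjFun N q hqN
  map_one' := by
    apply jGL_injective (N * q)
    have h := wGL_mul_jGL' N q hqN 1
    rw [map_one, mul_one] at h
    have h2 : jGL (N * q) (wConjFun N q hqN 1) * wGL N q hqN = 1 * wGL N q hqN := by
      rw [← h, one_mul]
    rw [map_one]
    exact mul_right_cancel h2
  map_mul' x y := by
    apply jGL_injective (N * q)
    have h := wGL_mul_jGL' N q hqN (x * y)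
    have hx := wGL_mul_jGL' N q hqN x
    have hy := wGL_mul_jGL' N q hqN y
    have h2 : jGL (N * q) (wConjFun N q hqN (x * y)) * wGL N q hqN =
        jGL (N * q) (wConjFun N q hqN x * wConjFun N q hqN y) * wGL N q hqN := by
      rw [← h, map_mul, map_mul, ← mul_assoc, hx, mul_assoc, hy, mul_assoc]
    exact mul_right_cancel h2

theorem wGL_mul_jGL (δ : ↥(Gamma0 (N * q))) :
    wGL N q hqN * jGL (N * q) δ = jGL (N * q) (wConj N q hqN δ) * wGL N q hqN :=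
  wGL_mul_jGL' N q hqN δ

/-! ### `W² = q δ₀` -/

/-- the element `δ₀ ∈ Γ₀(N q)` with `W² = q δ₀` -/
noncomputable def del0 : ↥(Gamma0 (N * q)) := delta0 (wBD N q hqN)

theorem wGL_mul_wGL : wGL N q hqN * wGL N q hqN = zGL q * jGL (N * q) (del0 N q hqN) := by
  have hd : (delta0Mat N q (wB N q hqN) (wD N q hqN)).det ≠ 0 := by
    rw [det_delta0Mat (wBD N q hqN)]; exact one_ne_zero
  rw [wGL, ← glOf_mul (det_wMat_ne_zero N q hqN) (det_wMat_ne_zero N q hqN), wMat, wInt_mul_self,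
    glOf_smul q hd, jGL_eq_glOf]
  rfl

theorem wConj_wConj (δ : ↥(Gamma0 (N * q))) :
    wConj N q hqN (wConj N q hqN δ) = del0 N q hqN * δ * (del0 N q hqN)⁻¹ := by
  apply jGL_injective (N * q)
  have h1 := wGL_mul_jGL N q hqN δ
  have h2 := wGL_mul_jGL N q hqN (wConj N q hqN δ)
  have h3 := wGL_mul_wGL N q hqN
  -- `W² δ = wConj² δ W²`
  have h4 : (wGL N q hqN * wGL N q hqN) * jGL (N * q) δ =
      jGL (N * q) (wConj N q hqN (wConj N q hqN δ)) * (wGL N q hqN * wGL N q hqN) := by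
    rw [mul_assoc, h1, ← mul_assoc, h2, mul_assoc]
  rw [h3, mul_assoc, ← mul_assoc (jGL (N * q) _) (zGL q), ← zGL_comm, mul_assoc] at h4
  have h5 := mul_left_cancel h4
  rw [map_mul, map_mul, map_inv, h5]
  group

theorem wConj_surjective : Function.Surjective (wConj N q hqN) := by
  intro δ
  refine ⟨wConj N q hqN ((del0 N q hqN)⁻¹ * δ * del0 N q hqN), ?_⟩
  rw [wConj_wConj]
  group

/-- for commutative targets `w² = 1` -/
theorem comp_wConj_wConj {M : Type*} [CommGroup M] (ψ : ↥(Gamma0 (N * q)) →* M) :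
    (ψ.comp (wConj N q hqN)).comp (wConj N q hqN) = ψ := by
  ext δ
  rw [MonoidHom.comp_apply, MonoidHom.comp_apply, wConj_wConj, map_mul, map_mul, map_inv,
    mul_comm (ψ _) (ψ δ), mul_assoc, mul_inv_cancel, mul_one]

/-! ### `W = α η` -/

/-- the element `α ∈ Γ₀(N)` with `W = α · diag(q, 1)` -/
noncomputable def alp : ↥(Gamma0 N) := alpha (wBD N q hqN)

theorem wGL_eq : wGL N q hqN = jGL N (alp N q hqN) * heckeDiagMatrix q := by
  have h1 : heckeDiagMatrix q = glOf (hInt q ∞) := by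
    rw [← heckeRep_eq_glOf]; rfl
  have hα : (alphaMat N q (wB N q hqN) (wD N q hqN)).det ≠ 0 := by
    rw [det_alphaMat (wBD N q hqN)]; exact one_ne_zero
  rw [h1, jGL_eq_glOf, wGL, wMat, wInt_eq_alpha_mul, hInt_infty]
  exact glOf_mul hα (det_hInt_ne_zero q ∞)

/-! ### The transversal `{1} ∪ {γ_j}` -/

/-- the representatives `γ_j ∈ Γ₀(N)`, `j : ZMod q` -/
noncomputable def gam (j : ZMod q) : ↥(Gamma0 N) := gammaRep (wBD N q hqN) (j.val : ℤ)

theorem wGL_mul_heckeMatrix (j : ZMod q) :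
    wGL N q hqN * heckeMatrix q j.val = zGL q * jGL N (gam N q hqN j) := by
  have h1 : heckeMatrix q j.val = glOf (hInt q (j : OnePoint (ZMod q))) := by
    rw [← heckeRep_eq_glOf]; rfl
  have hγ : (gammaMat N q (wB N q hqN) (wD N q hqN) (j.val : ℤ)).det ≠ 0 := by
    rw [det_gammaMat (wBD N q hqN)]; exact one_ne_zero
  rw [h1, wGL, ← glOf_mul (det_wMat_ne_zero N q hqN) (det_hInt_ne_zero q _), hInt_coe, wMat,
    wInt_mul_hInt, glOf_smul q hγ, jGL_eq_glOf]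
  rfl

theorem coe_gam_apply (j : ZMod q) :
    (((gam N q hqN j : ↥(Gamma0 N)) : SL(2, ℤ)) : MI) =
      gammaMat N q (wB N q hqN) (wD N q hqN) (j.val : ℤ) := rfl

/-- `jGL` of both levels is `mapGL` of the underlying element of `SL(2, ℤ)` -/
theorem jGL_eq_iff {M M' : ℕ} (x : ↥(Gamma0 M)) (y : ↥(Gamma0 M')) :
    jGL M x = jGL M' y ↔ (x : SL(2, ℤ)) = (y : SL(2, ℤ)) := by
  rw [jGL_apply, jGL_apply]
  exact (mapGL_injective (R := ℤ) (S := ℝ)).eq_iff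

theorem jGL_eq_mul_iff {M M' M'' : ℕ} (x : ↥(Gamma0 M)) (y : ↥(Gamma0 M')) (z : ↥(Gamma0 M'')) :
    jGL M x = jGL M' y * jGL M'' z ↔ (x : SL(2, ℤ)) = (y : SL(2, ℤ)) * (z : SL(2, ℤ)) := by
  rw [jGL_apply, jGL_apply, jGL_apply, ← map_mul]
  exact (mapGL_injective (R := ℤ) (S := ℝ)).eq_iff

/-- `γ_j ∉ Γ₀(N q)` -/
theorem gam_not_mem (j : ZMod q) (d : ↥(Gamma0 (N * q))) :
    jGL N (gam N q hqN j) ≠ jGL (N * q) d := by
  intro h
  rw [jGL_eq_iff] at h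
  have h1 : ((gam N q hqN j : ↥(Gamma0 N)) : SL(2, ℤ)) 1 0 = (N : ℤ) := by
    show (((gam N q hqN j : ↥(Gamma0 N)) : SL(2, ℤ)) : MI) 1 0 = (N : ℤ)
    rw [coe_gam_apply]
    simp [gammaMat]
  have h2 := dvd_lowerLeft (N * q) d
  rw [← h, h1] at h2
  obtain ⟨k, hk⟩ := h2
  have hN : (N : ℤ) ≠ 0 := by exact_mod_cast N_ne_zero N q hqN
  have h3 : (N : ℤ) * 1 = (N : ℤ) * ((q : ℤ) * k) := by
    rw [mul_one]
    calc (N : ℤ) = ((N * q : ℕ) : ℤ) * k := hk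
      _ = (N : ℤ) * ((q : ℤ) * k) := by push_cast; ring
  have h4 : (1 : ℤ) = (q : ℤ) * k := mul_left_cancel₀ hN h3
  have h5 : (q : ℤ) ∣ 1 := ⟨k, h4⟩
  have h6 : q ∣ 1 := by exact_mod_cast h5
  exact hq.out.one_lt.ne' (Nat.dvd_one.mp h6)

/-- the cosets `Γ₀(N q) γ_j` are pairwise distinct -/
theorem gam_inj (j j' : ZMod q) (d : ↥(Gamma0 (N * q)))
    (h : jGL N (gam N q hqN j) = jGL (N * q) d * jGL N (gam N q hqN j')) : j = j' := by
  rw [jGL_eq_mul_iff] at h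
  have hM : (((gam N q hqN j : ↥(Gamma0 N)) : SL(2, ℤ)) : MI) =
      ((d : SL(2, ℤ)) : MI) * (((gam N q hqN j' : ↥(Gamma0 N)) : SL(2, ℤ)) : MI) := by
    rw [h]; rfl
  rw [coe_gam_apply, coe_gam_apply] at hM
  obtain ⟨u, hu⟩ := dvd_lowerLeft (N * q) d
  have h10 := congrFun (congrFun hM 1) 0
  have h11 := congrFun (congrFun hM 1) 1
  simp only [gammaMat, Matrix.mul_apply, Fin.sum_univ_two, Fin.isValue, Matrix.of_apply,
    Matrix.cons_val', Matrix.cons_val_zero, Matrix.cons_val_one, Matrix.cons_val_fin_one] at h10 h11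
  rw [hu] at h10 h11
  push_cast at h10 h11
  have hN : (N : ℤ) ≠ 0 := by exact_mod_cast N_ne_zero N q hqN
  -- `d₁₁ = 1 - q u`
  have hd11 : (d : SL(2, ℤ)) 1 1 = 1 - (q : ℤ) * u := by
    apply mul_left_cancel₀ hN
    linear_combination -h10
  rw [hd11] at h11
  have hdvd : (q : ℤ) ∣ (N : ℤ) * ((j.val : ℤ) - (j'.val : ℤ)) := by
    refine ⟨(N : ℤ) * u * ((j'.val : ℤ) + wB N q hqN) - u * ((N : ℤ) * (j'.val : ℤ) +
      (q : ℤ) * wD N q hqN), ?_⟩
    linear_combination h11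
  have hqp : Prime (q : ℤ) := Nat.prime_iff_prime_int.mp hq.out
  rcases hqp.dvd_or_dvd hdvd with h1 | h1
  · exact absurd (by exact_mod_cast h1) hqN
  · have h2 : (((j.val : ℤ) - (j'.val : ℤ) : ℤ) : ZMod q) = 0 :=
      (ZMod.intCast_zmod_eq_zero_iff_dvd _ _).mpr h1
    push_cast at h2
    rw [ZMod.natCast_zmod_val, ZMod.natCast_zmod_val, sub_eq_zero] at h2
    exact h2

/-- **`{1} ∪ {γ_j}` covers `Γ₀(N)`.** -/
theorem exists_gam (γ : ↥(Gamma0 N)) :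
    (∃ d : ↥(Gamma0 (N * q)), jGL N γ = jGL (N * q) d) ∨
      ∃ (j : ZMod q) (d : ↥(Gamma0 (N * q))), jGL N γ = jGL (N * q) d * jGL N (gam N q hqN j) := by
  obtain ⟨c'', hc''⟩ := dvd_lowerLeft N γ
  by_cases hqc : (q : ℤ) ∣ (γ : SL(2, ℤ)) 1 0
  · left
    have hcop : IsCoprime (N : ℤ) (q : ℤ) :=
      Nat.isCoprime_iff_coprime.mpr ((Nat.Prime.coprime_iff_not_dvd hq.out).mpr hqN).symm
    have hdvd : ((N * q : ℕ) : ℤ) ∣ (γ : SL(2, ℤ)) 1 0 := by
      push_cast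
      exact hcop.mul_dvd (dvd_lowerLeft N γ) hqc
    exact ⟨⟨(γ : SL(2, ℤ)), mem_Gamma0_of_dvd hdvd⟩, (jGL_eq_iff _ _).mpr rfl⟩
  · right
    set c' := (γ : SL(2, ℤ)) 1 0 with hc'
    set t := (γ : SL(2, ℤ)) 1 1 with ht
    have hc0 : ((c' : ℤ) : ZMod q) ≠ 0 := fun h0 =>
      hqc ((ZMod.intCast_zmod_eq_zero_iff_dvd _ _).mp h0)
    set j : ZMod q := ((t : ℤ) : ZMod q) * ((c' : ℤ) : ZMod q)⁻¹ with hj
    have hcj : ((c' : ℤ) : ZMod q) * j = ((t : ℤ) : ZMod q) := by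
      rw [hj, mul_comm, mul_assoc, inv_mul_cancel₀ hc0, mul_one]
    have hdvd1 : (q : ℤ) ∣ c' * (j.val : ℤ) - t := by
      rw [← ZMod.intCast_zmod_eq_zero_iff_dvd]
      push_cast
      rw [ZMod.natCast_zmod_val, hcj, sub_self]
    obtain ⟨m, hm⟩ := hdvd1
    -- the element `d = γ γ_j⁻¹`
    have hlow : ((γ : SL(2, ℤ)) * ((gam N q hqN j : ↥(Gamma0 N)) : SL(2, ℤ))⁻¹) 1 0 =
        ((N * q : ℕ) : ℤ) * (m + c'' * wD N q hqN) := by
      show ((((γ : SL(2, ℤ)) * ((gam N q hqN j : ↥(Gamma0 N)) : SL(2, ℤ))⁻¹ : SL(2, ℤ)) : MI)) 1 0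
        = _
      rw [Matrix.SpecialLinearGroup.coe_mul, Matrix.SpecialLinearGroup.coe_inv, coe_gam_apply,
        Matrix.adjugate_fin_two, Matrix.mul_apply, Fin.sum_univ_two]
      simp only [gammaMat, Fin.isValue, Matrix.of_apply, Matrix.cons_val', Matrix.cons_val_zero,
        Matrix.cons_val_one, Matrix.cons_val_fin_one]
      push_cast
      have e1 : ((γ : SL(2, ℤ)) : MI) 1 0 = c' := rfl
      have e2 : ((γ : SL(2, ℤ)) : MI) 1 1 = t := rfl
      rw [e1, e2]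
      have hc2 : c' = (N : ℤ) * c'' := hc''
      linear_combination (N : ℤ) * hm + ((q : ℤ) * wD N q hqN) * hc2
    refine ⟨j, ⟨(γ : SL(2, ℤ)) * ((gam N q hqN j : ↥(Gamma0 N)) : SL(2, ℤ))⁻¹,
      mem_Gamma0_of_dvd ⟨_, hlow⟩⟩, ?_⟩
    rw [jGL_eq_mul_iff]
    show (γ : SL(2, ℤ)) = (γ : SL(2, ℤ)) * ((gam N q hqN j : ↥(Gamma0 N)) : SL(2, ℤ))⁻¹ *
      ((gam N q hqN j : ↥(Gamma0 N)) : SL(2, ℤ))
    rw [inv_mul_cancel_right]

end Choice

end Fermat.Agent.P3LR.A.AtkinLehnerSys
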