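/-
P3-LR (S41, level raising), block (A), file 2b: THE DEGENERACY MAPS — the relations (R1).

With `Γ := Γ₀(N)`, `Δ := Γ₀(N q)`, `q ∤ N` prime:

* `coresAdd_resAdd : cores (res φ) = (q + 1) • φ`, `coresEtaAdd_resEtaAdd`;
* ★ `coresAdd_resEtaAdd : cores (resEta φ) = T_q φ`, ★ `coresEtaAdd_resAdd : coresEta (res φ) = T_q φ`;
* bundled: `iDagAdd_iAdd`.
-/
import Mathlib
import Fermat.Agent.P3LR.A.DegeneracyDefs

set_option autoImplicit false

open scoped MatrixGroups

namespace Fermat.Agent.P3LR.A.Degeneracy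

open Matrix.SpecialLinearGroup CongruenceSubgroup ModularForm
open P2MW.S_ModularForm_heckeT_slash_eq_self_of_mem_Gamma0.ModularForm.HeckeSlashInvariance
open Fermat.Agent.N4F.Tors.HeckeHom
open Fermat.Agent.P3LR.A.Transfer2
open Fermat.Agent.P3LR.A.IntMat
open scoped OnePoint

/-! ### Generalities -/

section General

variable {G Gam Del : Type*} [Group G] [Group Gam] [Group Del] {jΓ : Gam →* G} {jΔ : Del →* G}
  {ι : Type*} [Fintype ι] {M : Type*} [CommGroup M]

/-- Variant of `CosetSys₂.transfer_comp_of_rep_mem_range` with representatives `a * jΓ (ρ i)` and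
`jΔ d * a = a * jΓ (f d)`: the transfer of `φ ∘ f` is `φ ^ card ι`. -/
theorem transfer_comp_of_rep_eq_mul (S : CosetSys₂ jΓ jΔ ι) (hΓ : Function.Injective jΓ) (a : G)
    (f : Del →* Gam) (hf : ∀ d : Del, jΔ d * a = a * jΓ (f d)) (ρ : ι → Gam)
    (hρ : ∀ i, S.rep i = a * jΓ (ρ i)) (φ : Gam →* M) :
    S.transfer (φ.comp f) = φ ^ Fintype.card ι := by
  ext g
  rw [CosetSys₂.transfer_apply, MonoidHom.pow_apply]
  have h1 : ∀ i, φ (f (S.coc g i)) = φ (ρ i) * φ g * (φ (ρ (S.perm g i)))⁻¹ := by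
    intro i
    have h := S.rep_mul g i
    rw [hρ, hρ, ← mul_assoc, hf, mul_assoc, mul_assoc, ← map_mul, ← map_mul] at h
    have h2 := hΓ (mul_left_cancel h)
    have h3 : φ (ρ i * g) = φ (f (S.coc g i)) * φ (ρ (S.perm g i)) := by rw [h2, map_mul]
    rw [← map_mul, h3, mul_inv_cancel_right]
  simp only [MonoidHom.comp_apply, h1, Finset.prod_mul_distrib, Finset.prod_inv_distrib,
    Finset.prod_const, Finset.card_univ]
  have h3 : ∏ i, φ (ρ (S.perm g i)) = ∏ i, φ (ρ i) :=
    Equiv.prod_comp (S.permEquiv g) (fun i => φ (ρ i))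
  rw [h3, mul_comm (∏ i, φ (ρ i)), mul_inv_cancel_right]

theorem toMultiplicativeRight_nsmul {A : Type*} [AddCommGroup A] (n : ℕ)
    (φ : Additive Gam →+ A) :
    AddMonoidHom.toMultiplicativeRight (n • φ) = AddMonoidHom.toMultiplicativeRight φ ^ n := rfl

end General

theorem card_onePoint_zmod (q : ℕ) [NeZero q] : Fintype.card (OnePoint (ZMod q)) = q + 1 := by
  have h : Fintype.card (OnePoint (ZMod q)) = Fintype.card (Option (ZMod q)) :=
    Fintype.card_congr (Equiv.refl _)
  rw [h, Fintype.card_option, ZMod.card]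

/-- bridge: the additive Hecke operator is the multiplicative one -/
theorem toMultiplicativeRight_heckeAdd (N p : ℕ) [Fact p.Prime] (hpN : ¬ p ∣ N) {A : Type*}
    [AddCommGroup A] (φ : Additive ↥(Gamma0 N) →+ A) :
    AddMonoidHom.toMultiplicativeRight (heckeAdd N p hpN φ) =
      (CosetSys₂.ofCosetSys (jGL_injective N) (heckeSys N p hpN)).transfer
        (AddMonoidHom.toMultiplicativeRight φ) := rfl

/-! ### (R1) -/

section R1

variable (N q : ℕ) [Fact q.Prime] {A : Type*} [AddCommGroup A]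

/-- **(R1a)** `cores ∘ res = q + 1`. -/
theorem coresAdd_resAdd (hqN : ¬ q ∣ N) (φ : Additive ↥(Gamma0 N) →+ A) :
    coresAdd N q (resAdd N q φ) = (q + 1) • φ := by
  apply AddMonoidHom.toMultiplicativeRight.injective
  rw [coresAdd_eq N q hqN, toMultiplicativeRight_transferAdd, toMultiplicativeRight_nsmul]
  show (coresSys N q hqN).transfer ((AddMonoidHom.toMultiplicativeRight φ).comp (incl N q)) = _
  rw [CosetSys₂.transfer_comp_of_rep_mem_range _ (jGL_injective N) (incl N q) (fun d => rfl)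
    (coresRep N q hqN) (fun x => rfl), card_onePoint_zmod]

/-- **(R1b)** `coresEta ∘ resEta = q + 1`. -/
theorem coresEtaAdd_resEtaAdd (hqN : ¬ q ∣ N) (φ : Additive ↥(Gamma0 N) →+ A) :
    coresEtaAdd N q (resEtaAdd N q φ) = (q + 1) • φ := by
  apply AddMonoidHom.toMultiplicativeRight.injective
  rw [coresEtaAdd_eq_transferAdd N q hqN, toMultiplicativeRight_transferAdd,
    toMultiplicativeRight_nsmul]
  show (coresEtaSys N q hqN).transfer
    ((AddMonoidHom.toMultiplicativeRight φ).comp (conjEta N q)) = _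
  rw [transfer_comp_of_rep_eq_mul _ (jGL_injective N) (etaGL' q) (conjEta N q)
    (fun d => (conjEta_spec' N q d).symm) (coresEtaRep N q hqN) (fun x => rfl),
    card_onePoint_zmod]

/-- **(R1c)** ★ `cores ∘ resEta = T_q`. -/
theorem coresAdd_resEtaAdd (hqN : ¬ q ∣ N) (φ : Additive ↥(Gamma0 N) →+ A) :
    coresAdd N q (resEtaAdd N q φ) = heckeAdd N q hqN φ := by
  apply AddMonoidHom.toMultiplicativeRight.injective
  rw [coresAdd_eq N q hqN, toMultiplicativeRight_transferAdd, toMultiplicativeRight_heckeAdd]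
  set φ' := AddMonoidHom.toMultiplicativeRight φ with hφ'
  have h1 : AddMonoidHom.toMultiplicativeRight (resEtaAdd N q φ) =
      (CosetSys₂.single (jΓ := jGL (N * q)) (jΔ := jGL N) (etaGL q) (conjEta N q)
        (etaGL_mul_jGL N q)).transfer φ' := by
    rw [CosetSys₂.transfer_single]
    rfl
  rw [h1, ← CosetSys₂.transfer_comp]
  refine CosetSys₂.transfer_eq_of_rep_eq _ _
    (CosetSys₂.isInj_ofCosetSys (jGL_injective N) (heckeSys N q hqN)) (jGL_injective N)
    (Equiv.prodPUnit _) (fun x => coresK N q hqN x.1) (fun x => ?_) φ'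
  exact etaGL_mul_coresRep N q hqN x.1

/-- **(R1d)** ★ `coresEta ∘ res = T_q`. -/
theorem coresEtaAdd_resAdd (hqN : ¬ q ∣ N) (φ : Additive ↥(Gamma0 N) →+ A) :
    coresEtaAdd N q (resAdd N q φ) = heckeAdd N q hqN φ := by
  apply AddMonoidHom.toMultiplicativeRight.injective
  rw [coresEtaAdd_eq_transferAdd N q hqN, toMultiplicativeRight_transferAdd,
    toMultiplicativeRight_heckeAdd]
  set φ' := AddMonoidHom.toMultiplicativeRight φ with hφ'
  have h1 : AddMonoidHom.toMultiplicativeRight (resAdd N q φ) =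
      (CosetSys₂.single (jΓ := jGL (N * q)) (jΔ := jGL N) 1 (incl N q)
        (fun g => by rw [one_mul, mul_one]; rfl)).transfer φ' := by
    rw [CosetSys₂.transfer_single]
    rfl
  rw [h1, ← CosetSys₂.transfer_comp]
  refine CosetSys₂.transfer_eq_of_rep_eq _ _
    (CosetSys₂.isInj_ofCosetSys (jGL_injective N) (heckeSys N q hqN)) (jGL_injective N)
    (Equiv.prodPUnit _) (fun x => coresEtaK N q hqN x.1) (fun x => ?_) φ'
  show 1 * (etaGL' q * jGL N (coresEtaRep N q hqN x.1)) = _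
  rw [one_mul]
  exact etaGL'_mul_coresEtaRep N q hqN x.1

/-- **(R1), bundled**: `i† ∘ i = [[q + 1, T_q], [T_q, q + 1]]`. -/
theorem iDagAdd_iAdd (hqN : ¬ q ∣ N) (φ : parHomAdd N A × parHomAdd N A) :
    iDagAdd N q A (iAdd N q A φ) =
      ((q + 1) • φ.1 + heckePar N q hqN A φ.2, heckePar N q hqN A φ.1 + (q + 1) • φ.2) := by
  refine Prod.ext (Subtype.ext ?_) (Subtype.ext ?_)
  · rw [coe_iDagAdd_fst, coe_iAdd, map_add, coresAdd_resAdd N q hqN,
      coresAdd_resEtaAdd N q hqN]
    rfl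
  · rw [coe_iDagAdd_snd, coe_iAdd, map_add, coresEtaAdd_resAdd N q hqN,
      coresEtaAdd_resEtaAdd N q hqN]
    rfl

end R1

end Fermat.Agent.P3LR.A.Degeneracy
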