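/-
P3-LR (S41), block (A), (R2): ARITHMETIC of the Hecke representatives `hInt ℓ y` against the
matrices `η = diag(q,1) = hInt q ∞`, `η' = diag(1,q) = hInt q 0` and the representatives
`hInt q x` of another prime `q ≠ ℓ`.  Integer matrices only (helper2's `IntMat`).

* `dvd_lower_left_iff` : `hInt ℓ y * γ = c * hInt ℓ y'`, `q` prime to `ℓ` ⟹ (`q ∣ γ₁₀ ↔ q ∣ c₁₀`);
* `mulQ` : multiplication by `q` on `OnePoint (ZMod ℓ)`;
* `eta_mul_hInt` : `hInt q ∞ * hInt ℓ y = T^t * hInt ℓ (mulQ y) * hInt q ∞`;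
* `hInt_mul_eta'` : `hInt ℓ y * hInt q 0 = hInt q 0 * (T^t * hInt ℓ (mulQ y))`;
* `hInt_mul_hInt_inj` : `hInt ℓ y₁ * hInt q x = γ * (hInt ℓ y₂ * hInt q x')` ⟹ `x = x' ∧ y₁ = y₂`.
-/
import Mathlib
import Fermat.Agent.P3LR.A.IntMat

set_option autoImplicit false

open scoped MatrixGroups

namespace Fermat.Agent.P3LR.A.HeckeArith

open Matrix.SpecialLinearGroup CongruenceSubgroup ModularForm
open P2MW.S_ModularForm_heckeT_slash_eq_self_of_mem_Gamma0.ModularForm.HeckeSlashInvariance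
open Fermat.Agent.N4F.Tors.HeckeHom Fermat.Agent.P3LR.A.IntMat
open scoped OnePoint

/-! ### Entries of `hInt` -/

theorem hInt_one_zero (p : ℕ) (x : OnePoint (ZMod p)) : hInt p x 1 0 = 0 := by
  induction x using OnePoint.rec with
  | infty => simp
  | coe j => simp

theorem hInt_zero_zero_dvd (p : ℕ) (x : OnePoint (ZMod p)) : hInt p x 0 0 ∣ (p : ℤ) := by
  induction x using OnePoint.rec with
  | infty => simp
  | coe j => simp

theorem hInt_one_one_dvd (p : ℕ) (x : OnePoint (ZMod p)) : hInt p x 1 1 ∣ (p : ℤ) := by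
  induction x using OnePoint.rec with
  | infty => simp
  | coe j => simp

theorem hInt_zero_zero_pos (p : ℕ) [NeZero p] (x : OnePoint (ZMod p)) : 0 < hInt p x 0 0 := by
  have hp : 0 < p := Nat.pos_of_ne_zero (NeZero.ne p)
  induction x using OnePoint.rec with
  | infty => simpa using hp
  | coe j => simp

theorem hInt_one_one_pos (p : ℕ) [NeZero p] (x : OnePoint (ZMod p)) : 0 < hInt p x 1 1 := by
  have hp : 0 < p := Nat.pos_of_ne_zero (NeZero.ne p)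
  induction x using OnePoint.rec with
  | infty => simp
  | coe j => simpa using hp

theorem mul_apply_two (A B : MI) (i k : Fin 2) :
    (A * B) i k = A i 0 * B 0 k + A i 1 * B 1 k := by
  rw [Matrix.mul_apply, Fin.sum_univ_two]

/-! ### (L1) -/

theorem isCoprime_of_dvd_prime {q ℓ : ℕ} (hq : Nat.Coprime q ℓ) {a : ℤ} (ha : a ∣ (ℓ : ℤ)) :
    IsCoprime (q : ℤ) a := by
  have h1 : IsCoprime (q : ℤ) (ℓ : ℤ) := Nat.isCoprime_iff_coprime.mpr hq
  exact h1.of_isCoprime_of_dvd_right ha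

/-- **(L1)** -/
theorem dvd_lower_left_iff {q ℓ : ℕ} (hq : Nat.Coprime q ℓ) (y y' : OnePoint (ZMod ℓ))
    (γ c : SL(2, ℤ)) (h : hInt ℓ y * (γ : MI) = (c : MI) * hInt ℓ y') :
    (q : ℤ) ∣ γ 1 0 ↔ (q : ℤ) ∣ c 1 0 := by
  have h10 := congrFun (congrFun h 1) 0
  rw [mul_apply_two, mul_apply_two, hInt_one_zero, hInt_one_zero, zero_mul, zero_add, mul_zero,
    add_zero] at h10
  have c1 : IsCoprime (q : ℤ) (hInt ℓ y 1 1) := isCoprime_of_dvd_prime hq (hInt_one_one_dvd ℓ y)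
  have c2 : IsCoprime (q : ℤ) (hInt ℓ y' 0 0) := isCoprime_of_dvd_prime hq (hInt_zero_zero_dvd ℓ y')
  constructor
  · intro hd
    have : (q : ℤ) ∣ (c : MI) 1 0 * hInt ℓ y' 0 0 := by
      rw [← h10]; exact Dvd.dvd.mul_left hd _
    exact c2.dvd_of_dvd_mul_right this
  · intro hd
    have : (q : ℤ) ∣ hInt ℓ y 1 1 * (γ : MI) 1 0 := by
      rw [h10]; exact Dvd.dvd.mul_right hd _
    exact c1.dvd_of_dvd_mul_left this

/-! ### Multiplication by `q` on `OnePoint (ZMod ℓ)` -/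

/-- multiplication by `q` on `ℙ¹(𝔽_ℓ)` (in the affine coordinate) -/
def mulQ (q ℓ : ℕ) (y : OnePoint (ZMod ℓ)) : OnePoint (ZMod ℓ) :=
  y.elim ∞ (fun j => (((q : ZMod ℓ) * j : ZMod ℓ) : OnePoint (ZMod ℓ)))

@[simp] theorem mulQ_infty (q ℓ : ℕ) : mulQ q ℓ ∞ = ∞ := rfl

@[simp] theorem mulQ_coe (q ℓ : ℕ) (j : ZMod ℓ) :
    mulQ q ℓ (j : OnePoint (ZMod ℓ)) = (((q : ZMod ℓ) * j : ZMod ℓ) : OnePoint (ZMod ℓ)) := rfl

theorem mulQ_injective {q ℓ : ℕ} [Fact ℓ.Prime] (hq : Nat.Coprime q ℓ) :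
    Function.Injective (mulQ q ℓ) := by
  have hq0 : (q : ZMod ℓ) ≠ 0 := by
    intro h0
    rw [ZMod.natCast_eq_zero_iff] at h0
    have := Nat.Coprime.eq_one_of_dvd hq.symm h0
    exact (Fact.out : ℓ.Prime).ne_one this
  intro y y' h
  induction y using OnePoint.rec with
  | infty =>
    induction y' using OnePoint.rec with
    | infty => rfl
    | coe j' => simp at h
  | coe j =>
    induction y' using OnePoint.rec with
    | infty => simp at h
    | coe j' =>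
      simp only [mulQ_coe, OnePoint.coe_eq_coe] at h
      rw [mul_left_cancel₀ hq0 h]

theorem mulQ_bijective {q ℓ : ℕ} [Fact ℓ.Prime] (hq : Nat.Coprime q ℓ) :
    Function.Bijective (mulQ q ℓ) :=
  Finite.injective_iff_bijective.mp (mulQ_injective hq)

/-- the translation exponent: `q * j.val = (q * j).val + t * ℓ` -/
theorem exists_t (q ℓ : ℕ) [NeZero ℓ] (j : ZMod ℓ) :
    ∃ t : ℤ, (q : ℤ) * (j.val : ℤ) = ((((q : ZMod ℓ) * j : ZMod ℓ).val : ℕ) : ℤ) + t * (ℓ : ℤ) := by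
  have h : ((ℓ : ℕ) : ℤ) ∣ (q : ℤ) * (j.val : ℤ) - ((((q : ZMod ℓ) * j : ZMod ℓ).val : ℕ) : ℤ) := by
    rw [← ZMod.intCast_zmod_eq_zero_iff_dvd]
    push_cast
    rw [ZMod.natCast_zmod_val, ZMod.natCast_zmod_val, sub_self]
  obtain ⟨t, ht⟩ := h
  exact ⟨t, by linarith⟩

/-- the integer matrix of `T ^ t` -/
theorem coe_T_zpow' (t : ℤ) : ((ModularGroup.T ^ t : SL(2, ℤ)) : MI) = !![1, t; 0, 1] :=
  ModularGroup.coe_T_zpow t

/-! ### (L3), (L3') -/

/-- **(L3)** `η * h_y = T^t * h_{qy} * η`, `η = diag(q,1)`. -/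
theorem eta_mul_hInt (q ℓ : ℕ) [NeZero ℓ] (y : OnePoint (ZMod ℓ)) :
    ∃ t : ℤ, hInt q ∞ * hInt ℓ y =
      ((ModularGroup.T ^ t : SL(2, ℤ)) : MI) * hInt ℓ (mulQ q ℓ y) * hInt q ∞ := by
  induction y using OnePoint.rec with
  | infty =>
    refine ⟨0, ?_⟩
    rw [zpow_zero, Matrix.SpecialLinearGroup.coe_one, one_mul, mulQ_infty, hInt_infty, hInt_infty]
    ext i k
    fin_cases i <;> fin_cases k <;> simp [Matrix.mul_apply, Fin.sum_univ_two, mul_comm]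
  | coe j =>
    obtain ⟨t, ht⟩ := exists_t q ℓ j
    refine ⟨t, ?_⟩
    rw [coe_T_zpow', mulQ_coe, hInt_infty, hInt_coe, hInt_coe]
    ext i k
    rw [ZMod.natCast_val, ZMod.natCast_val] at ht
    fin_cases i <;> fin_cases k <;> simp [Matrix.mul_apply, Fin.sum_univ_two]
    linarith

/-- **(L3')** `h_y * η' = η' * (T^t * h_{qy})`, `η' = diag(1,q)`. -/
theorem hInt_mul_eta' (q ℓ : ℕ) [NeZero ℓ] [NeZero q] (y : OnePoint (ZMod ℓ)) :
    ∃ t : ℤ, hInt ℓ y * hInt q ((0 : ZMod q) : OnePoint (ZMod q)) =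
      hInt q ((0 : ZMod q) : OnePoint (ZMod q)) *
        (((ModularGroup.T ^ t : SL(2, ℤ)) : MI) * hInt ℓ (mulQ q ℓ y)) := by
  induction y using OnePoint.rec with
  | infty =>
    refine ⟨0, ?_⟩
    rw [zpow_zero, Matrix.SpecialLinearGroup.coe_one, one_mul, mulQ_infty, hInt_infty, hInt_coe]
    ext i k
    fin_cases i <;> fin_cases k <;> simp [Matrix.mul_apply, Fin.sum_univ_two, mul_comm]
  | coe j =>
    obtain ⟨t, ht⟩ := exists_t q ℓ j
    refine ⟨t, ?_⟩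
    rw [coe_T_zpow', mulQ_coe, hInt_coe, hInt_coe, hInt_coe]
    ext i k
    rw [ZMod.natCast_val, ZMod.natCast_val] at ht
    fin_cases i <;> fin_cases k <;> simp [Matrix.mul_apply, Fin.sum_univ_two]
    · linarith
    · ring

/-! ### (L4) -/

theorem not_dvd_of_dvd_prime {q ℓ : ℕ} (hq : q.Prime) (hqℓ : Nat.Coprime q ℓ) {a : ℤ}
    (ha : a ∣ (ℓ : ℤ)) : ¬ (q : ℤ) ∣ a := by
  intro h
  have h1 : (q : ℤ) ∣ (ℓ : ℤ) := h.trans ha
  have h2 : q ∣ ℓ := Int.natCast_dvd_natCast.mp h1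
  have := Nat.Coprime.eq_one_of_dvd hqℓ h2
  exact hq.ne_one this

theorem sl_diag_of_lower_zero (γ : SL(2, ℤ)) (h : γ 1 0 = 0) : γ 0 0 * γ 1 1 = 1 := by
  have := det_eq γ
  rw [h, mul_zero, sub_zero] at this
  exact this

theorem eq_one_of_mul_eq_one_of_pos {u v : ℤ} (h : u * v = 1) (hv : 0 < v) : u = 1 ∧ v = 1 := by
  have hu : 0 < u := by
    by_contra hneg
    have hneg := not_lt.mp hneg
    have : u * v ≤ 0 := mul_nonpos_of_nonpos_of_nonneg hneg hv.le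
    omega
  have h1 : u = 1 := by
    rcases Int.eq_one_or_neg_one_of_mul_eq_one h with h' | h'
    · exact h'
    · omega
  refine ⟨h1, ?_⟩
  rw [h1, one_mul] at h
  exact h

/-- **(L4)**, first half: the `q`-part of a product `h_y g_x` is determined by its left
`SL₂(ℤ)`-coset. -/
theorem hInt_mul_hInt_index_eq {q ℓ : ℕ} [Fact q.Prime] [NeZero ℓ] (hqℓ : Nat.Coprime q ℓ)
    (y₁ y₂ : OnePoint (ZMod ℓ)) (x x' : OnePoint (ZMod q)) (γ : SL(2, ℤ))
    (h : hInt ℓ y₁ * hInt q x = (γ : MI) * (hInt ℓ y₂ * hInt q x')) : x = x' := by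
  have hq : q.Prime := Fact.out
  have hq0 : (q : ℤ) ≠ 0 := by exact_mod_cast hq.ne_zero
  -- entries of `h₁ = hInt ℓ y₁`, `h₂ = hInt ℓ y₂`
  have a10 := hInt_one_zero ℓ y₁
  have a10' := hInt_one_zero ℓ y₂
  have hd2pos := hInt_one_one_pos ℓ y₂
  have hd1pos := hInt_one_one_pos ℓ y₁
  have ha2pos := hInt_zero_zero_pos ℓ y₂
  have ha2 : hInt ℓ y₂ 0 0 ≠ 0 := ha2pos.ne'
  have nq1 : ¬ (q : ℤ) ∣ hInt ℓ y₁ 0 0 := not_dvd_of_dvd_prime hq hqℓ (hInt_zero_zero_dvd ℓ y₁)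
  have nq2 : ¬ (q : ℤ) ∣ hInt ℓ y₂ 0 0 := not_dvd_of_dvd_prime hq hqℓ (hInt_zero_zero_dvd ℓ y₂)
  have cop1 : IsCoprime (q : ℤ) (hInt ℓ y₁ 0 0) :=
    isCoprime_of_dvd_prime hqℓ (hInt_zero_zero_dvd ℓ y₁)
  have E00 := congrFun (congrFun h 0) 0
  have E01 := congrFun (congrFun h 0) 1
  have E10 := congrFun (congrFun h 1) 0
  have E11 := congrFun (congrFun h 1) 1
  simp only [mul_apply_two] at E00 E01 E10 E11
  induction x using OnePoint.rec with
  | infty =>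
    induction x' using OnePoint.rec with
    | infty => rfl
    | coe j' =>
      exfalso
      simp only [hInt_infty, hInt_coe, Matrix.of_apply, Matrix.cons_val', Matrix.cons_val_zero,
        Matrix.cons_val_one, Matrix.cons_val_fin_one, a10, a10', mul_zero, add_zero, zero_mul,
        zero_add, mul_one] at E00 E10
      -- E10 : 0 = γ 1 0 * a₂ ; E00 : a₁ q = γ 0 0 * a₂
      have hγ10 : (γ : MI) 1 0 = 0 := by
        rcases mul_eq_zero.mp E10.symm with h' | h'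
        · exact h'
        · exact absurd h' ha2
      have hdiag := sl_diag_of_lower_zero γ hγ10
      have hunit : IsUnit ((γ : MI) 0 0) := IsUnit.of_mul_eq_one _ hdiag
      have : (q : ℤ) ∣ (γ : MI) 0 0 * hInt ℓ y₂ 0 0 := ⟨hInt ℓ y₁ 0 0, by rw [← E00]; ring⟩
      have h2 : (q : ℤ) ∣ hInt ℓ y₂ 0 0 := (hunit.dvd_mul_left).mp this
      exact nq2 h2
  | coe j =>
    induction x' using OnePoint.rec with
    | infty =>
      exfalso
      simp only [hInt_infty, hInt_coe, Matrix.of_apply, Matrix.cons_val', Matrix.cons_val_zero,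
        Matrix.cons_val_one, Matrix.cons_val_fin_one, a10, a10', mul_zero, add_zero, zero_mul,
        zero_add, mul_one] at E00 E10
      -- E10 : 0 = γ 1 0 * (a₂ q) ; E00 : a₁ = γ 0 0 * (a₂ q)
      have : (q : ℤ) ∣ hInt ℓ y₁ 0 0 := ⟨(γ : MI) 0 0 * hInt ℓ y₂ 0 0, by rw [E00]; ring⟩
      exact nq1 this
    | coe j' =>
      simp only [hInt_coe, Matrix.of_apply, Matrix.cons_val', Matrix.cons_val_zero,
        Matrix.cons_val_one, Matrix.cons_val_fin_one, a10, a10', mul_zero, add_zero, zero_mul,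
        zero_add, mul_one] at E00 E01 E10 E11
      -- E10 : 0 = γ 1 0 * a₂; E00 : a₁ = γ 0 0 * a₂; E11 : d₁ q = γ 1 0 (..) + γ 1 1 (d₂ q)
      have hγ10 : (γ : MI) 1 0 = 0 := by
        rcases mul_eq_zero.mp E10.symm with h' | h'
        · exact h'
        · exact absurd h' ha2
      have hdiag := sl_diag_of_lower_zero γ hγ10
      rw [hγ10, zero_mul, zero_add] at E11
      have hd : hInt ℓ y₁ 1 1 = (γ : MI) 1 1 * hInt ℓ y₂ 1 1 := by
        have : (q : ℤ) * hInt ℓ y₁ 1 1 = (q : ℤ) * ((γ : MI) 1 1 * hInt ℓ y₂ 1 1) := by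
          linear_combination E11
        exact mul_left_cancel₀ hq0 this
      have hγ11pos : 0 < (γ : MI) 1 1 := by
        by_contra hneg
        have hneg := not_lt.mp hneg
        have : (γ : MI) 1 1 * hInt ℓ y₂ 1 1 ≤ 0 := mul_nonpos_of_nonpos_of_nonneg hneg hd2pos.le
        rw [← hd] at this
        exact absurd hd1pos (not_lt.mpr this)
      obtain ⟨h00, h11⟩ := eq_one_of_mul_eq_one_of_pos hdiag hγ11pos
      rw [h00, one_mul] at E00
      rw [h00, one_mul, ← E00] at E01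
      -- E01 : a₁ j + b₁ q = (a₁ j' + b₂ q) + γ 0 1 * (d₂ q)
      have hdvd : (q : ℤ) ∣ hInt ℓ y₁ 0 0 * ((j.val : ℤ) - (j'.val : ℤ)) :=
        ⟨hInt ℓ y₂ 0 1 + (γ : MI) 0 1 * hInt ℓ y₂ 1 1 - hInt ℓ y₁ 0 1, by linear_combination E01⟩
      have hdvd' : (q : ℤ) ∣ (j.val : ℤ) - (j'.val : ℤ) := cop1.dvd_of_dvd_mul_left hdvd
      have hj : j = j' := by
        have h3 := (ZMod.intCast_zmod_eq_zero_iff_dvd _ q).mpr hdvd'
        push_cast at h3
        rw [ZMod.natCast_zmod_val, ZMod.natCast_zmod_val] at h3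
        exact sub_eq_zero.mp h3
      rw [hj]

/-- **(L4)**: the cosets `SL₂(ℤ) · h_y g_x` (`y ∈ ℙ¹(𝔽_ℓ)`, `x ∈ ℙ¹(𝔽_q)`) are pairwise distinct. -/
theorem hInt_mul_hInt_inj {q ℓ : ℕ} [Fact q.Prime] [Fact ℓ.Prime] (hqℓ : Nat.Coprime q ℓ)
    (y₁ y₂ : OnePoint (ZMod ℓ)) (x x' : OnePoint (ZMod q)) (γ : SL(2, ℤ))
    (h : hInt ℓ y₁ * hInt q x = (γ : MI) * (hInt ℓ y₂ * hInt q x')) : x = x' ∧ y₁ = y₂ := by
  have : NeZero ℓ := ⟨(Fact.out : ℓ.Prime).ne_zero⟩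
  have : NeZero q := ⟨(Fact.out : q.Prime).ne_zero⟩
  have hx := hInt_mul_hInt_index_eq hqℓ y₁ y₂ x x' γ h
  subst hx
  refine ⟨rfl, ?_⟩
  -- cancel `hInt q x` in `GL₂(ℝ)`
  have hdx := det_hInt_ne_zero q x
  have hd1 := det_hInt_ne_zero ℓ y₁
  have hd2 := det_hInt_ne_zero ℓ y₂
  have hγ2 : ((γ : MI) * hInt ℓ y₂).det ≠ 0 := by
    rw [Matrix.det_mul]; exact mul_ne_zero (det_coe_SL γ) hd2
  have h1 : glOf (hInt ℓ y₁) * glOf (hInt q x) = glOf ((γ : MI) * hInt ℓ y₂) * glOf (hInt q x) := by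
    rw [← glOf_mul hd1 hdx, ← glOf_mul hγ2 hdx, h, Matrix.mul_assoc]
  have h2 : glOf (hInt ℓ y₁) = glOf ((γ : MI) * hInt ℓ y₂) := mul_right_cancel h1
  rw [glOf_mul (det_coe_SL γ) hd2, glOf_coe_SL, ← heckeRep_eq_glOf, ← heckeRep_eq_glOf] at h2
  exact heckeRep_inj y₁ y₂ γ h2

end Fermat.Agent.P3LR.A.HeckeArith
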