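/-
P3-LR (S41, level raising), block (A), relation (R2): THE DEGENERACY MAPS COMMUTE WITH `T_ℓ`.

`Γ := Γ₀(N)`, `Δ := Γ₀(N q)`, `q` prime, `ℓ` prime, `ℓ ∤ N q`.  With the maps of
`DegeneracyDefs.lean`:

* `resAdd_heckeAdd`      : `res ∘ T_ℓ^N = T_ℓ^{Nq} ∘ res`;
* `resEtaAdd_heckeAdd`   : `resEta ∘ T_ℓ^N = T_ℓ^{Nq} ∘ resEta`;
* `coresAdd_heckeAdd`    : `cores ∘ T_ℓ^{Nq} = T_ℓ^N ∘ cores`;
* `coresEtaAdd_heckeAdd` : `coresEta ∘ T_ℓ^{Nq} = T_ℓ^N ∘ coresEta`;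
* the bundled forms `iAdd_heckePar`, `iDagAdd_heckePar`.

All four are instances of "two coset systems with the same cosets have the same transfer"
(`Transfer2`, `P4/TransferComm`); the arithmetic of the cosets is in `HeckeArith.lean`.
-/
import Mathlib
import Fermat.Agent.P3LR.A.DegeneracyDefs
import Fermat.Agent.P3LR.A.HeckeArith
import Fermat.Agent.P4.TransferComm

set_option autoImplicit false

open scoped MatrixGroups

namespace Fermat.Agent.P3LR.A.DegeneracyHecke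

open Matrix.SpecialLinearGroup CongruenceSubgroup ModularForm
open P2MW.S_ModularForm_heckeT_slash_eq_self_of_mem_Gamma0.ModularForm.HeckeSlashInvariance
open Fermat.Agent.N4F.Tors.HeckeHom
open Fermat.Agent.P3LR.A.Transfer2
open Fermat.Agent.P3LR.A.IntMat
open Fermat.Agent.P3LR.A.Degeneracy
open Fermat.Agent.P3LR.A.HeckeArith
open Fermat.Agent.P4.TransferComm
open scoped OnePoint

/-! ### The Hecke systems as two-group systems -/

section HeckeSys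

variable (N ℓ : ℕ) [Fact ℓ.Prime] (hℓN : ¬ ℓ ∣ N)

/-- the coset system of `T_ℓ` on `Γ₀(N)` as a two-group system -/
noncomputable def hSys : CosetSys₂ (jGL N) (jGL N) (OnePoint (ZMod ℓ)) :=
  CosetSys₂.ofCosetSys (jGL_injective N) (heckeSys N ℓ hℓN)

@[simp] theorem hSys_rep (y : OnePoint (ZMod ℓ)) : (hSys N ℓ hℓN).rep y = heckeRep ℓ y := rfl

theorem hSys_isInj : (hSys N ℓ hℓN).IsInj := CosetSys₂.isInj_ofCosetSys _ _

theorem hSys_transfer {M : Type*} [CommGroup M] (ψ : ↥(Gamma0 N) →* M) :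
    (hSys N ℓ hℓN).transfer ψ = heckeHom N ℓ hℓN ψ := rfl

end HeckeSys

/-! ### `res` and `resEta` -/

section Res

variable (N q ℓ : ℕ) [Fact ℓ.Prime] (hℓN : ¬ ℓ ∣ N) (hℓNq : ¬ ℓ ∣ N * q)

/-- the one-coset system of `incl` -/
noncomputable def inclSys : CosetSys₂ (jGL (N * q)) (jGL N) Unit :=
  CosetSys₂.single 1 (incl N q) (fun δ => by rw [one_mul, mul_one, jGL_incl])

/-- **(R2) for `res`**, multiplicative form -/
theorem heckeHom_comp_incl {M : Type*} [CommGroup M] (φ : ↥(Gamma0 N) →* M) :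
    (heckeHom N ℓ hℓN φ).comp (incl N q) = heckeHom (N * q) ℓ hℓNq (φ.comp (incl N q)) := by
  have h1 : (heckeHom N ℓ hℓN φ).comp (incl N q) =
      ((inclSys N q).comp (hSys N ℓ hℓN)).transfer φ := by
    rw [CosetSys₂.transfer_comp, hSys_transfer, inclSys, CosetSys₂.transfer_single]
  have h2 : heckeHom (N * q) ℓ hℓNq (φ.comp (incl N q)) =
      ((hSys (N * q) ℓ hℓNq).comp (inclSys N q)).transfer φ := by
    rw [CosetSys₂.transfer_comp, hSys_transfer, inclSys, CosetSys₂.transfer_single]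
  rw [h1, h2]
  symm
  refine CosetSys₂.transfer_eq_of_rep_eq _ _ ?_ (jGL_injective N) (Equiv.prodComm _ _)
    (fun _ => 1) ?_ φ
  · rintro ⟨u, y⟩ ⟨u', y'⟩ d h
    simp only [CosetSys₂.comp_rep, hSys_rep, inclSys, CosetSys₂.single, mul_one] at h
    have : y = y' := heckeRep_inj y y' (d : SL(2, ℤ)) h
    rw [this]
  · rintro ⟨y, u⟩
    simp [inclSys, CosetSys₂.single]

end Res

/-! ### `GL₂(ℝ)` forms of the arithmetic lemmas -/

section Arith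

/-- `T ^ t ∈ Γ₀(N)` -/
def tGam (N : ℕ) (t : ℤ) : ↥(Gamma0 N) :=
  ⟨ModularGroup.T ^ t, by
    rw [Gamma0_mem]
    have h : ((ModularGroup.T ^ t : SL(2, ℤ)) : MI) 1 0 = 0 := by
      rw [ModularGroup.coe_T_zpow]; rfl
    rw [h, Int.cast_zero]⟩

theorem coe_tGam (N : ℕ) (t : ℤ) : ((tGam N t : ↥(Gamma0 N)) : SL(2, ℤ)) = ModularGroup.T ^ t := rfl

theorem coprime_of_not_dvd_mul {N q ℓ : ℕ} [Fact ℓ.Prime] (hℓNq : ¬ ℓ ∣ N * q) :
    Nat.Coprime q ℓ := by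
  have h : ¬ ℓ ∣ q := fun h => hℓNq (Dvd.dvd.mul_left h N)
  exact ((Nat.Prime.coprime_iff_not_dvd (Fact.out : ℓ.Prime)).mpr h).symm

variable (N q ℓ : ℕ) [NeZero q] [NeZero ℓ]

/-- **(L3)** in `GL₂(ℝ)`: `η h_y = T^t h_{qy} η` -/
theorem etaGL_mul_heckeRep (y : OnePoint (ZMod ℓ)) :
    ∃ t : ℤ, etaGL q * heckeRep ℓ y =
      jGL N (tGam N t) * (heckeRep ℓ (mulQ q ℓ y) * etaGL q) := by
  obtain ⟨t, ht⟩ := eta_mul_hInt q ℓ y
  refine ⟨t, ?_⟩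
  have hη : (hInt q ∞).det ≠ 0 := det_hInt_ne_zero q ∞
  have hy : (hInt ℓ y).det ≠ 0 := det_hInt_ne_zero ℓ y
  have hy' : (hInt ℓ (mulQ q ℓ y)).det ≠ 0 := det_hInt_ne_zero ℓ _
  have hT : ((ModularGroup.T ^ t : SL(2, ℤ)) : MI).det ≠ 0 := det_coe_SL _
  have hy'η : (hInt ℓ (mulQ q ℓ y) * hInt q ∞).det ≠ 0 := by
    rw [Matrix.det_mul]; exact mul_ne_zero hy' hη
  rw [etaGL_eq_heckeRep, heckeRep_eq_glOf, heckeRep_eq_glOf, heckeRep_eq_glOf, jGL_eq_glOf,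
    coe_tGam, ← glOf_mul hη hy, ← glOf_mul hy' hη, ← glOf_mul hT hy'η, ht, Matrix.mul_assoc]

/-- **(L3')** in `GL₂(ℝ)`: `h_y η' = η' T^t h_{qy}` -/
theorem heckeRep_mul_etaGL' (y : OnePoint (ZMod ℓ)) :
    ∃ t : ℤ, heckeRep ℓ y * etaGL' q =
      etaGL' q * (jGL N (tGam N t) * heckeRep ℓ (mulQ q ℓ y)) := by
  obtain ⟨t, ht⟩ := hInt_mul_eta' q ℓ y
  refine ⟨t, ?_⟩
  have hη : (hInt q ((0 : ZMod q) : OnePoint (ZMod q))).det ≠ 0 := det_hInt_ne_zero q _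
  have hy : (hInt ℓ y).det ≠ 0 := det_hInt_ne_zero ℓ y
  have hy' : (hInt ℓ (mulQ q ℓ y)).det ≠ 0 := det_hInt_ne_zero ℓ _
  have hT : ((ModularGroup.T ^ t : SL(2, ℤ)) : MI).det ≠ 0 := det_coe_SL _
  have hTy' : (((ModularGroup.T ^ t : SL(2, ℤ)) : MI) * hInt ℓ (mulQ q ℓ y)).det ≠ 0 := by
    rw [Matrix.det_mul]; exact mul_ne_zero hT hy'
  rw [etaGL'_eq_heckeRep, heckeRep_eq_glOf, heckeRep_eq_glOf, heckeRep_eq_glOf, jGL_eq_glOf,
    coe_tGam, ← glOf_mul hy hη, ← glOf_mul hT hy', ← glOf_mul hη hTy', ht]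

end Arith

/-! ### `resEta` -/

section ResEta

variable (N q ℓ : ℕ) [NeZero q] [Fact ℓ.Prime] (hℓN : ¬ ℓ ∣ N) (hℓNq : ¬ ℓ ∣ N * q)

/-- the one-coset system of `conjEta` -/
noncomputable def etaSys : CosetSys₂ (jGL (N * q)) (jGL N) Unit :=
  CosetSys₂.single (etaGL q) (conjEta N q) (etaGL_mul_jGL N q)

/-- **(R2) for `resEta`**, multiplicative form -/
theorem heckeHom_comp_conjEta {M : Type*} [CommGroup M] (φ : ↥(Gamma0 N) →* M) :
    (heckeHom N ℓ hℓN φ).comp (conjEta N q) =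
      heckeHom (N * q) ℓ hℓNq (φ.comp (conjEta N q)) := by
  have hqℓ : Nat.Coprime q ℓ := coprime_of_not_dvd_mul hℓNq
  have h1 : (heckeHom N ℓ hℓN φ).comp (conjEta N q) =
      ((etaSys N q).comp (hSys N ℓ hℓN)).transfer φ := by
    rw [CosetSys₂.transfer_comp, hSys_transfer, etaSys, CosetSys₂.transfer_single]
  have h2 : heckeHom (N * q) ℓ hℓNq (φ.comp (conjEta N q)) =
      ((hSys (N * q) ℓ hℓNq).comp (etaSys N q)).transfer φ := by
    rw [CosetSys₂.transfer_comp, hSys_transfer, etaSys, CosetSys₂.transfer_single]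
  rw [h1, h2]
  symm
  choose t ht using etaGL_mul_heckeRep N q ℓ
  refine CosetSys₂.transfer_eq_of_rep_eq _ _ ?_ (jGL_injective N)
    ((Equiv.prodComm _ _).trans
      (Equiv.prodCongr (Equiv.refl Unit) (Equiv.ofBijective _ (mulQ_bijective hqℓ))))
    (fun z => tGam N (t z.1)) ?_ φ
  · rintro ⟨u, y⟩ ⟨u', y'⟩ d h
    simp only [CosetSys₂.comp_rep, hSys_rep, etaSys, CosetSys₂.single] at h
    rw [← mul_assoc] at h
    have h' := mul_right_cancel h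
    have : y = y' := heckeRep_inj y y' (d : SL(2, ℤ)) h'
    rw [this]
  · rintro ⟨y, u⟩
    simp only [CosetSys₂.comp_rep, hSys_rep, etaSys, CosetSys₂.single, Equiv.trans_apply,
      Equiv.prodComm_apply, Prod.swap_prod_mk, Equiv.prodCongr_apply, Prod.map_apply,
      Equiv.refl_apply, Equiv.ofBijective_apply]
    exact ht y

end ResEta

/-! ### `cores` -/

section Cores

variable (N q ℓ : ℕ) [Fact q.Prime] [Fact ℓ.Prime] (hqN : ¬ q ∣ N) (hℓN : ¬ ℓ ∣ N)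
  (hℓNq : ¬ ℓ ∣ N * q)

omit [Fact q.Prime] in
theorem dvd_of_mem_Gamma0_mul {g : SL(2, ℤ)} (hg : g ∈ Gamma0 (N * q)) : (q : ℤ) ∣ g 1 0 := by
  rw [Gamma0_mem, ZMod.intCast_zmod_eq_zero_iff_dvd] at hg
  exact dvd_trans (by push_cast; exact Dvd.intro_left _ rfl) hg

include hqN in
theorem mem_Gamma0_mul_of_dvd {g : SL(2, ℤ)} (hg : g ∈ Gamma0 N) (h : (q : ℤ) ∣ g 1 0) :
    g ∈ Gamma0 (N * q) := by
  rw [Gamma0_mem, ZMod.intCast_zmod_eq_zero_iff_dvd] at hg ⊢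
  have hc : IsCoprime (N : ℤ) (q : ℤ) :=
    Nat.isCoprime_iff_coprime.mpr
      ((Nat.Prime.coprime_iff_not_dvd (Fact.out : q.Prime)).mpr hqN).symm
  push_cast
  exact hc.mul_dvd hg h

/-- **(R2) for `cores`**, multiplicative form -/
theorem coresSys_transfer_heckeHom {M : Type*} [CommGroup M] (ψ : ↥(Gamma0 (N * q)) →* M) :
    (coresSys N q hqN).transfer (heckeHom (N * q) ℓ hℓNq ψ) =
      heckeHom N ℓ hℓN ((coresSys N q hqN).transfer ψ) := by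
  have hqℓ : Nat.Coprime q ℓ := coprime_of_not_dvd_mul hℓNq
  set ρ := coresRep N q hqN with hρdef
  have hrepc : ∀ x, (coresSys N q hqN).rep x = jGL N (ρ x) := fun _ => rfl
  have key := transfer_comm (coresSys N q hqN) (hSys N ℓ hℓN) (hSys (N * q) ℓ hℓNq)
    (jGL_injective (N * q)) ?_ ?_ ?_ ψ
  · exact key
  · -- the cosets `Γ₀(Nq) ρ_x β_y` are pairwise distinct
    refine isInj_comp (hSys N ℓ hℓN) (coresSys N q hqN) (hSys_isInj N ℓ hℓN)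
      (coresSys_isInj N q hqN) ?_
    intro x x' e _ _ _
    refine ⟨(ρ x)⁻¹ * incl N q e * ρ x', ?_⟩
    rw [hrepc, hrepc, map_mul, map_mul, map_inv, jGL_incl]
  · -- the cosets `Γ₀(Nq) β_y ρ_x` are pairwise distinct
    refine isInj_comp (coresSys N q hqN) (hSys (N * q) ℓ hℓNq) (coresSys_isInj N q hqN)
      (hSys_isInj (N * q) ℓ hℓNq) ?_
    intro y y' e x x' h
    rw [hSys_rep, hSys_rep, hrepc, hrepc] at h
    have h1 : heckeRep ℓ y * mapGL ℝ ((ρ x * (ρ x')⁻¹ : ↥(Gamma0 N)) : SL(2, ℤ)) =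
        mapGL ℝ (e : SL(2, ℤ)) * heckeRep ℓ y' := by
      have h2 : mapGL ℝ ((ρ x * (ρ x')⁻¹ : ↥(Gamma0 N)) : SL(2, ℤ)) =
          jGL N (ρ x) * (jGL N (ρ x'))⁻¹ := by
        rw [← map_inv, ← map_mul]; rfl
      rw [h2, ← mul_assoc, h, jGL_apply]
      group
    have h3 : (q : ℤ) ∣ ((ρ x * (ρ x')⁻¹ : ↥(Gamma0 N)) : SL(2, ℤ)) 1 0 := by
      have h1' := h1
      rw [heckeRep_eq_glOf, heckeRep_eq_glOf,
        glOf_mul_mapGL_eq_iff (det_hInt_ne_zero ℓ y) (det_hInt_ne_zero ℓ y')] at h1'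
      exact (dvd_lower_left_iff hqℓ y y' _ _ h1').mpr (dvd_of_mem_Gamma0_mul N q e.2)
    have h4 : ((ρ x * (ρ x')⁻¹ : ↥(Gamma0 N)) : SL(2, ℤ)) ∈ Gamma0 (N * q) :=
      mem_Gamma0_mul_of_dvd N q hqN (ρ x * (ρ x')⁻¹).2 h3
    refine ⟨⟨_, h4⟩, ?_⟩
    rw [hSys_rep, hSys_rep, jGL_apply, jGL_apply, mul_assoc, ← h1, inv_mul_cancel_left]
  · -- `β_y ρ_x ∈ Γ₀(Nq) ρ_x' β_y'`
    intro x y
    obtain ⟨x', d, hd⟩ := coresSys_cover N q hqN (heckeCoc N ℓ hℓN (ρ x) y)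
    refine ⟨x', redMatrix ℓ ((ρ x : ↥(Gamma0 N)) : SL(2, ℤ)) • y, d, ?_⟩
    rw [hSys_rep, hSys_rep, hrepc, jGL_apply, heckeRep_mul_eq N ℓ hℓN (ρ x) y, ← jGL_apply, hd,
      mul_assoc]

end Cores

/-! ### `coresEta` -/

section CoresEta

theorem group_aux {G : Type*} [Group G] {a k g E a' k' g' C a₁ C' a₁' : G}
    (h : a * (k * g) = E * (a' * (k' * g'))) (e1 : a * k = C * a₁) (e2 : a' * k' = C' * a₁') :
    a₁ * g = C⁻¹ * E * C' * (a₁' * g') := by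
  have h1 : C * (a₁ * g) = E * (C' * (a₁' * g')) := by
    rw [← mul_assoc, ← e1, mul_assoc, h, ← mul_assoc a', e2, mul_assoc]
  calc a₁ * g = C⁻¹ * (C * (a₁ * g)) := by rw [inv_mul_cancel_left]
    _ = C⁻¹ * (E * (C' * (a₁' * g'))) := by rw [h1]
    _ = C⁻¹ * E * C' * (a₁' * g') := by group

variable (N q ℓ : ℕ) [Fact q.Prime] [Fact ℓ.Prime] (hqN : ¬ q ∣ N) (hℓN : ¬ ℓ ∣ N)
  (hℓNq : ¬ ℓ ∣ N * q)

/-- **(R2) for `coresEta`**, multiplicative form -/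
theorem coresEtaSys_transfer_heckeHom {M : Type*} [CommGroup M]
    (ψ : ↥(Gamma0 (N * q)) →* M) :
    (coresEtaSys N q hqN).transfer (heckeHom (N * q) ℓ hℓNq ψ) =
      heckeHom N ℓ hℓN ((coresEtaSys N q hqN).transfer ψ) := by
  have hqℓ : Nat.Coprime q ℓ := coprime_of_not_dvd_mul hℓNq
  set ρ := coresEtaRep N q hqN with hρdef
  set k := coresEtaK N q hqN with hkdef
  have hrepc : ∀ x, (coresEtaSys N q hqN).rep x = etaGL' q * jGL N (ρ x) := fun _ => rfl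
  have hrepk : ∀ x, (coresEtaSys N q hqN).rep x = jGL N (k x) * heckeRep q x :=
    coresEtaSys_rep_eq N q hqN
  have key := transfer_comm (coresEtaSys N q hqN) (hSys N ℓ hℓN) (hSys (N * q) ℓ hℓNq)
    (jGL_injective (N * q)) ?_ ?_ ?_ ψ
  · exact key
  · -- the cosets `Γ₀(Nq) η' ρ_x β_y` are pairwise distinct
    refine isInj_comp (hSys N ℓ hℓN) (coresEtaSys N q hqN) (hSys_isInj N ℓ hℓN)
      (coresEtaSys_isInj N q hqN) ?_
    intro x x' e _ _ _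
    refine ⟨(ρ x)⁻¹ * conjEta N q e * ρ x', ?_⟩
    have hc := conjEta_spec' N q e
    have h1 : (etaGL' q)⁻¹ * jGL (N * q) e * etaGL' q = jGL N (conjEta N q e) := by
      rw [mul_assoc, ← hc, inv_mul_cancel_left]
    rw [hrepc, hrepc, map_mul, map_mul, map_inv, ← h1]
    group
  · -- the cosets `Γ₀(Nq) β_y η' ρ_x` are pairwise distinct
    refine isInj_comp (coresEtaSys N q hqN) (hSys (N * q) ℓ hℓNq) (coresEtaSys_isInj N q hqN)
      (hSys_isInj (N * q) ℓ hℓNq) ?_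
    intro y y' e x x' h
    have hx : x = x' := by
      have h' := h
      rw [hSys_rep, hSys_rep, hrepk, hrepk] at h'
      have e1 := (hSys N ℓ hℓN).rep_mul (k x) y
      have e2 := (hSys N ℓ hℓN).rep_mul (k x') y'
      have h5 := group_aux h' e1 e2
      set c := (hSys N ℓ hℓN).coc (k x) y with hc
      set c' := (hSys N ℓ hℓN).coc (k x') y' with hc'
      set y₁ := (hSys N ℓ hℓN).perm (k x) y with hy₁
      set y₁' := (hSys N ℓ hℓN).perm (k x') y' with hy₁'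
      have h6 : (jGL N c)⁻¹ * jGL (N * q) e * jGL N c' =
          mapGL ℝ (((c : ↥(Gamma0 N)) : SL(2, ℤ))⁻¹ * ((e : ↥(Gamma0 (N * q))) : SL(2, ℤ)) *
            ((c' : ↥(Gamma0 N)) : SL(2, ℤ))) := by
        rw [map_mul, map_mul, map_inv]; rfl
      rw [h6, hSys_rep, hSys_rep, heckeRep_eq_glOf, heckeRep_eq_glOf, heckeRep_eq_glOf,
        heckeRep_eq_glOf, ← glOf_mul (det_hInt_ne_zero ℓ y₁) (det_hInt_ne_zero q x),
        ← glOf_mul (det_hInt_ne_zero ℓ y₁') (det_hInt_ne_zero q x'),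
        glOf_eq_mapGL_mul_iff] at h5
      · exact hInt_mul_hInt_index_eq hqℓ y₁ y₁' x x' _ h5
      · rw [Matrix.det_mul]
        exact mul_ne_zero (det_hInt_ne_zero ℓ y₁) (det_hInt_ne_zero q x)
      · rw [Matrix.det_mul]
        exact mul_ne_zero (det_hInt_ne_zero ℓ y₁') (det_hInt_ne_zero q x')
    subst hx
    have h' : (hSys (N * q) ℓ hℓNq).rep y = jGL (N * q) e * (hSys (N * q) ℓ hℓNq).rep y' := by
      rw [← mul_assoc] at h
      exact mul_right_cancel h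
    refine ⟨1, ?_⟩
    rw [map_one, mul_assoc, ← h', inv_mul_cancel]
  · -- `β_y η' ρ_x ∈ Γ₀(Nq) η' ρ_x' β_y'`
    intro x y
    obtain ⟨t, ht⟩ := heckeRep_mul_etaGL' N q ℓ y
    have e1 := (hSys N ℓ hℓN).rep_mul (ρ x) (mulQ q ℓ y)
    obtain ⟨x', d, hd⟩ := coresEtaSys_cover N q hqN
      (tGam N t * (hSys N ℓ hℓN).coc (ρ x) (mulQ q ℓ y))
    refine ⟨x', (hSys N ℓ hℓN).perm (ρ x) (mulQ q ℓ y), d, ?_⟩
    calc (hSys (N * q) ℓ hℓNq).rep y * (coresEtaSys N q hqN).rep x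
        = (heckeRep ℓ y * etaGL' q) * jGL N (ρ x) := by rw [hrepc x, hSys_rep, mul_assoc]
      _ = etaGL' q * (jGL N (tGam N t) * heckeRep ℓ (mulQ q ℓ y)) * jGL N (ρ x) := by rw [ht]
      _ = etaGL' q * jGL N (tGam N t) *
            ((hSys N ℓ hℓN).rep (mulQ q ℓ y) * jGL N (ρ x)) := by
          rw [hSys_rep]; group
      _ = etaGL' q * jGL N (tGam N t) *
            (jGL N ((hSys N ℓ hℓN).coc (ρ x) (mulQ q ℓ y)) *
              (hSys N ℓ hℓN).rep ((hSys N ℓ hℓN).perm (ρ x) (mulQ q ℓ y))) := by rw [e1]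
      _ = etaGL' q * jGL N (tGam N t * (hSys N ℓ hℓN).coc (ρ x) (mulQ q ℓ y)) *
            (hSys N ℓ hℓN).rep ((hSys N ℓ hℓN).perm (ρ x) (mulQ q ℓ y)) := by
          rw [map_mul]; group
      _ = jGL (N * q) d * (coresEtaSys N q hqN).rep x' *
            (hSys N ℓ hℓN).rep ((hSys N ℓ hℓN).perm (ρ x) (mulQ q ℓ y)) := by rw [hd]
      _ = jGL (N * q) d * ((coresEtaSys N q hqN).rep x' *
            (hSys N ℓ hℓN).rep ((hSys N ℓ hℓN).perm (ρ x) (mulQ q ℓ y))) := by rw [mul_assoc]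

end CoresEta

/-! ### Additive forms (the shapes of `DegeneracyDefs.lean`) -/

section Additive

variable (N q ℓ : ℕ) [Fact ℓ.Prime] (hℓN : ¬ ℓ ∣ N) (hℓNq : ¬ ℓ ∣ N * q)
  {A : Type*} [AddCommGroup A]

/-- **(R2)** `res ∘ T_ℓ^N = T_ℓ^{Nq} ∘ res`, `ℓ ∤ N q`. -/
theorem resAdd_heckeAdd (φ : Additive ↥(Gamma0 N) →+ A) :
    resAdd N q (heckeAdd N ℓ hℓN φ) = heckeAdd (N * q) ℓ hℓNq (resAdd N q φ) :=
  congrArg MonoidHom.toAdditiveLeft
    (heckeHom_comp_incl N q ℓ hℓN hℓNq (AddMonoidHom.toMultiplicativeRight φ))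

/-- **(R2)** `resEta ∘ T_ℓ^N = T_ℓ^{Nq} ∘ resEta`, `ℓ ∤ N q`. -/
theorem resEtaAdd_heckeAdd [NeZero q] (φ : Additive ↥(Gamma0 N) →+ A) :
    resEtaAdd N q (heckeAdd N ℓ hℓN φ) = heckeAdd (N * q) ℓ hℓNq (resEtaAdd N q φ) :=
  congrArg MonoidHom.toAdditiveLeft
    (heckeHom_comp_conjEta N q ℓ hℓN hℓNq (AddMonoidHom.toMultiplicativeRight φ))

variable [Fact q.Prime]

/-- **(R2)** `cores ∘ T_ℓ^{Nq} = T_ℓ^N ∘ cores`, `ℓ ∤ N q`. -/
theorem coresAdd_heckeAdd (ψ : Additive ↥(Gamma0 (N * q)) →+ A) :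
    coresAdd N q (heckeAdd (N * q) ℓ hℓNq ψ) = heckeAdd N ℓ hℓN (coresAdd N q ψ) := by
  by_cases hqN : ¬ q ∣ N
  · rw [coresAdd_eq N q hqN]
    exact congrArg MonoidHom.toAdditiveLeft
      (coresSys_transfer_heckeHom N q ℓ hqN hℓN hℓNq (AddMonoidHom.toMultiplicativeRight ψ))
  · simp [coresAdd, hqN]

/-- **(R2)** `coresEta ∘ T_ℓ^{Nq} = T_ℓ^N ∘ coresEta`, `ℓ ∤ N q`. -/
theorem coresEtaAdd_heckeAdd (ψ : Additive ↥(Gamma0 (N * q)) →+ A) :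
    coresEtaAdd N q (heckeAdd (N * q) ℓ hℓNq ψ) = heckeAdd N ℓ hℓN (coresEtaAdd N q ψ) := by
  by_cases hqN : ¬ q ∣ N
  · rw [coresEtaAdd_eq_transferAdd N q hqN]
    exact congrArg MonoidHom.toAdditiveLeft
      (coresEtaSys_transfer_heckeHom N q ℓ hqN hℓN hℓNq (AddMonoidHom.toMultiplicativeRight ψ))
  · simp [coresEtaAdd, hqN]

/-- **(R2)**, bundled: `i ∘ (T_ℓ, T_ℓ) = T_ℓ ∘ i` on parabolic homomorphisms. -/
theorem iAdd_heckePar (φ : parHomAdd N A × parHomAdd N A) :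
    iAdd N q A (heckePar N ℓ hℓN A φ.1, heckePar N ℓ hℓN A φ.2) =
      heckePar (N * q) ℓ hℓNq A (iAdd N q A φ) := by
  apply Subtype.ext
  show resAdd N q (heckeAdd N ℓ hℓN φ.1.1) + resEtaAdd N q (heckeAdd N ℓ hℓN φ.2.1) =
    heckeAdd (N * q) ℓ hℓNq (resAdd N q φ.1.1 + resEtaAdd N q φ.2.1)
  rw [resAdd_heckeAdd N q ℓ hℓN hℓNq, resEtaAdd_heckeAdd N q ℓ hℓN hℓNq, map_add]

/-- **(R2)**, bundled: `i† ∘ T_ℓ = (T_ℓ, T_ℓ) ∘ i†` on parabolic homomorphisms. -/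
theorem iDagAdd_heckePar (ψ : parHomAdd (N * q) A) :
    iDagAdd N q A (heckePar (N * q) ℓ hℓNq A ψ) =
      (heckePar N ℓ hℓN A (iDagAdd N q A ψ).1, heckePar N ℓ hℓN A (iDagAdd N q A ψ).2) := by
  refine Prod.ext (Subtype.ext ?_) (Subtype.ext ?_)
  · show coresAdd N q (heckeAdd (N * q) ℓ hℓNq ψ.1) = heckeAdd N ℓ hℓN (coresAdd N q ψ.1)
    exact coresAdd_heckeAdd N q ℓ hℓN hℓNq ψ.1
  · show coresEtaAdd N q (heckeAdd (N * q) ℓ hℓNq ψ.1) =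
      heckeAdd N ℓ hℓN (coresEtaAdd N q ψ.1)
    exact coresEtaAdd_heckeAdd N q ℓ hℓN hℓNq ψ.1

end Additive

end Fermat.Agent.P3LR.A.DegeneracyHecke
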