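/-
P3-LR (S41, level raising), block (A), file 2c: BRIDGE between the degeneracy maps of
`DegeneracyDefs.lean` and their twins from the S35 campaign (`P4/Cores.lean`, `P4/CoresEta.lean`,
`P4/AtkinLehner.lean`).

* `isTransversal_coresRep` : `coresRep N q hqN` is an adapted transversal in the sense of `P4.Cores`;
* `coresAdd_eq_P4 : coresAdd N q = P4.Cores.coresAdd hqN`;
* `coresEtaAdd_eq_P4 : coresEtaAdd N q = P4.CoresEta.coresEtaAdd hqN`
  (hence `coresEtaAdd N q ψ = coresAdd N q (ψ ∘ alConj hqN)`);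
* `resEtaAdd_eq_comp_alConjW : resEtaAdd N q φ = (resAdd N q φ) ∘ alConjW hqN`.
-/
import Mathlib
import Fermat.Agent.P3LR.A.DegeneracyDefs
import Fermat.Agent.P4.Cores
import Fermat.Agent.P4.CoresEta

set_option autoImplicit false

open scoped MatrixGroups

namespace Fermat.Agent.P3LR.A.Degeneracy

open Matrix.SpecialLinearGroup CongruenceSubgroup ModularForm
open P2MW.S_ModularForm_heckeT_slash_eq_self_of_mem_Gamma0.ModularForm.HeckeSlashInvariance
open Fermat.Agent.N4F.Tors.HeckeHom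
open Fermat.Agent.P3LR.A.Transfer2
open Fermat.Agent.P3LR.A.IntMat
open Fermat.Agent
open scoped OnePoint

variable (N q : ℕ) [Fact q.Prime] (hqN : ¬ q ∣ N)

/-- `coresRep N q hqN` is an adapted transversal in the sense of `P4.Cores`:
`redMatrix q (coresRep x) • ∞ = x`. -/
theorem isTransversal_coresRep : P4.Cores.IsTransversal (coresRep N q hqN) := by
  intro x
  have h := (coresSys N q hqN).rep_mul (coresRep N q hqN x) ∞
  rw [coresSys_rep, coresRep_infty, map_one, one_mul, coresSys_perm, coresSys_rep] at h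
  exact (coresRep_inj N q hqN _ _ _ h).symm

/-- the coset system of `DegeneracyDefs` and the one of `P4.Cores` (for the same transversal) have
the same transfer -/
theorem coresSys_transfer_eq_P4 {M : Type*} [CommGroup M] (ψ : ↥(Gamma0 (N * q)) →* M) :
    (coresSys N q hqN).transfer ψ = P4.Cores.coresHom hqN ψ := by
  rw [P4.Cores.coresHom_eq_transfer hqN (coresRep N q hqN) (isTransversal_coresRep N q hqN)]
  refine CosetSys₂.transfer_eq_of_rep_eq _ _
    (P4.Cores.transSys_isInj hqN _ (isTransversal_coresRep N q hqN)) (jGL_injective (N * q))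
    (Equiv.refl _) (fun _ => 1) (fun x => ?_) ψ
  rw [map_one, one_mul]
  rfl

/-- **`coresAdd N q` is the corestriction of `P4.Cores`.** -/
theorem coresAdd_eq_P4 {A : Type*} [AddCommGroup A] :
    (coresAdd N q : (Additive ↥(Gamma0 (N * q)) →+ A) →+ (Additive ↥(Gamma0 N) →+ A)) =
      P4.Cores.coresAdd hqN := by
  rw [coresAdd_eq N q hqN]
  refine AddMonoidHom.ext fun ψ => ?_
  exact congrArg MonoidHom.toAdditiveLeft
    (coresSys_transfer_eq_P4 N q hqN (AddMonoidHom.toMultiplicativeRight ψ))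

/-- `W* = η' σ⁻¹` in `GL₂(ℝ)` -/
theorem glOf_alMat_eq :
    glOf (P4.AtkinLehner.alMat N q) = etaGL' q * jGL N (P4.AtkinLehner.sigG hqN)⁻¹ := by
  rw [P4.AtkinLehner.alMat_eq_mul, etaGL'_eq_glOf, jGL_eq_glOf, P4.AtkinLehner.coe_sigG_inv,
    ← glOf_mul (det_etaInt'_ne_zero q)]
  · rfl
  · rw [← P4.AtkinLehner.coe_sigG_inv hqN]
    exact det_coe_SL _

/-- `W = σ η` in `GL₂(ℝ)` -/
theorem glOf_alMatW_eq :
    glOf (P4.AtkinLehner.alMatW N q) = jGL N (P4.AtkinLehner.sigG hqN) * etaGL q := by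
  rw [P4.AtkinLehner.alMatW_eq_mul, etaGL_eq_glOf, jGL_eq_glOf, P4.AtkinLehner.coe_sigG,
    ← glOf_mul _ (det_etaInt_ne_zero q)]
  · rfl
  · rw [← P4.AtkinLehner.coe_sigG hqN]
    exact det_coe_SL _

/-- the two coset systems of the `η`-twisted corestriction have the same transfer -/
theorem coresEtaSys_transfer_eq_P4 {M : Type*} [CommGroup M] (ψ : ↥(Gamma0 (N * q)) →* M) :
    (coresEtaSys N q hqN).transfer ψ = P4.CoresEta.coresEtaHom hqN ψ := by
  rw [P4.CoresEta.coresEtaHom_eq_transfer]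
  symm
  refine P4.TransferComm.transfer_eq_of_rep_mem_card _ _ (coresEtaSys_isInj N q hqN)
    (P4.CoresEta.coresEtaSys_isInj hqN) (jGL_injective (N * q)) rfl (fun x => ?_) ψ
  obtain ⟨x', d, h⟩ := coresEtaSys_cover N q hqN
    ((P4.AtkinLehner.sigG hqN)⁻¹ * P4.Cores.coresRep hqN x)
  refine ⟨x', d, ?_⟩
  rw [← h]
  show glOf (P4.AtkinLehner.alMat N q) * jGL N (P4.Cores.coresRep hqN x) = _
  rw [glOf_alMat_eq N q hqN, map_mul, mul_assoc]

/-- **`coresEtaAdd N q` is the second corestriction of `P4.CoresEta`.** -/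
theorem coresEtaAdd_eq_P4 {A : Type*} [AddCommGroup A] :
    (coresEtaAdd N q : (Additive ↥(Gamma0 (N * q)) →+ A) →+ (Additive ↥(Gamma0 N) →+ A)) =
      P4.CoresEta.coresEtaAdd hqN := by
  rw [coresEtaAdd_eq_transferAdd N q hqN]
  refine AddMonoidHom.ext fun ψ => ?_
  exact congrArg MonoidHom.toAdditiveLeft
    (coresEtaSys_transfer_eq_P4 N q hqN (AddMonoidHom.toMultiplicativeRight ψ))

/-- `coresEta = cores ∘ (Atkin–Lehner conjugation)`, with the conjugation `alConj` of
`P4.AtkinLehner`. -/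
theorem coresEtaAdd_eq_coresAdd_comp_alConj {A : Type*} [AddCommGroup A]
    (ψ : Additive ↥(Gamma0 (N * q)) →+ A) :
    coresEtaAdd N q ψ =
      coresAdd N q (ψ.comp (MonoidHom.toAdditive (P4.AtkinLehner.alConj hqN))) := by
  rw [coresEtaAdd_eq_P4 N q hqN, coresAdd_eq_P4 N q hqN]
  rfl

/-- `σ * conjEta δ = alConjW δ * σ` in `Γ₀(N)` -/
theorem sigG_mul_conjEta (δ : ↥(Gamma0 (N * q))) :
    P4.AtkinLehner.sigG hqN * conjEta N q δ =
      incl N q (P4.AtkinLehner.alConjW hqN δ) * P4.AtkinLehner.sigG hqN := by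
  apply jGL_injective N
  have h := P4.AtkinLehner.glOf_alMatW_mul hqN δ
  rw [glOf_alMatW_eq N q hqN, mul_assoc, etaGL_mul_jGL, ← mul_assoc, ← mul_assoc] at h
  rw [map_mul, map_mul, jGL_incl]
  exact mul_right_cancel h

/-- **`resEta = (Atkin–Lehner conjugation) ∘ res`**, with the conjugation `alConjW` of
`P4.AtkinLehner`. -/
theorem resEtaAdd_eq_comp_alConjW {A : Type*} [AddCommGroup A]
    (φ : Additive ↥(Gamma0 N) →+ A) :
    resEtaAdd N q φ =
      (resAdd N q φ).comp (MonoidHom.toAdditive (P4.AtkinLehner.alConjW hqN)) := by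
  refine AddMonoidHom.ext fun δ => ?_
  obtain ⟨δ, rfl⟩ := Additive.ofMul.surjective δ
  show φ (Additive.ofMul (conjEta N q δ)) =
    φ (Additive.ofMul (incl N q (P4.AtkinLehner.alConjW hqN δ)))
  have h := congrArg (fun g => φ (Additive.ofMul g)) (sigG_mul_conjEta N q hqN δ)
  simp only [ofMul_mul, map_add] at h
  rw [add_comm] at h
  exact add_right_cancel h

end Fermat.Agent.P3LR.A.Degeneracy
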