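/-
P3-LR block (IH3): homomorphisms `Γ₀(N) → A` which are trivial on a principal congruence
subgroup are Eisenstein: `T_ℓ φ = (ℓ + 1) φ` for all primes `ℓ ≡ 1 (mod m)`, `ℓ ∤ N`.
-/
import Mathlib
import Fermat.Agent.P3LR.A.IntMat

set_option autoImplicit false

open scoped MatrixGroups

namespace Fermat.Agent.P3LR.A.EisensteinCongruence

open Matrix.SpecialLinearGroup CongruenceSubgroup ModularForm
open P2MW.S_ModularForm_heckeT_slash_eq_self_of_mem_Gamma0.ModularForm.HeckeSlashInvariance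
open Fermat.Agent.N4F.Tors.HeckeHom Fermat.Agent.P3LR.A.IntMat
open scoped OnePoint

/-- the unipotent matrix `[[1, t], [0, 1]]` -/
def unipSL (t : ℤ) : SL(2, ℤ) := ⟨!![1, t; 0, 1], by simp [Matrix.det_fin_two]⟩

@[simp] theorem coe_unipSL (t : ℤ) : ((unipSL t : SL(2, ℤ)) : MI) = !![1, t; 0, 1] := rfl

theorem unipSL_mem (N : ℕ) (t : ℤ) : unipSL t ∈ Gamma0 N := by
  rw [Gamma0_mem]
  show (((unipSL t : SL(2, ℤ)) : MI) 1 0 : ZMod N) = 0
  simp

variable (N : ℕ) (ℓ : ℕ) [Fact ℓ.Prime]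

/-- the unipotent approximations (modulo any `m ∣ ℓ - 1`) of the Hecke representatives -/
def uRep (x : OnePoint (ZMod ℓ)) : ↥(Gamma0 N) :=
  x.elim 1 (fun j => ⟨unipSL (j.val : ℤ), unipSL_mem N _⟩)

/-- reduction of integer matrices modulo `m` -/
def redM (m : ℕ) (A : MI) : Matrix (Fin 2) (Fin 2) (ZMod m) := A.map (Int.castRingHom (ZMod m))

theorem redM_mul (m : ℕ) (A B : MI) : redM m (A * B) = redM m A * redM m B := by
  rw [redM, redM, redM, Matrix.map_mul]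

theorem redM_hInt {m : ℕ} (hm : ℓ ≡ 1 [MOD m]) (x : OnePoint (ZMod ℓ)) :
    redM m (hInt ℓ x) = redM m ((uRep N ℓ x : SL(2, ℤ)) : MI) := by
  have hℓ : (ℓ : ZMod m) = 1 := by
    have := (ZMod.natCast_eq_natCast_iff ℓ 1 m).mpr hm
    simpa using this
  induction x using OnePoint.rec with
  | infty =>
    ext i k
    fin_cases i <;> fin_cases k <;> simp [redM, uRep, hℓ]
  | coe j =>
    ext i k
    fin_cases i <;> fin_cases k <;> simp [redM, uRep, hℓ]

theorem mem_Gamma_of_redM_eq {m : ℕ} {a b : SL(2, ℤ)} (h : redM m (a : MI) = redM m (b : MI)) :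
    a * b⁻¹ ∈ Gamma m := by
  rw [Gamma_mem']
  have h1 : Matrix.SpecialLinearGroup.map (Int.castRingHom (ZMod m)) a =
      Matrix.SpecialLinearGroup.map (Int.castRingHom (ZMod m)) b := by
    apply Subtype.ext
    exact h
  rw [map_mul, map_inv, h1, mul_inv_cancel]

/-- **(IH3) Congruence homomorphisms are Eisenstein.** -/
theorem heckeAdd_eq_of_congruence (hℓN : ¬ ℓ ∣ N) (m : ℕ) (hm : ℓ ≡ 1 [MOD m])
    {A : Type*} [AddCommGroup A] (φ : Additive ↥(Gamma0 N) →+ A)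
    (hφ : ∀ g : ↥(Gamma0 N), (g : SL(2, ℤ)) ∈ Gamma m → φ (Additive.ofMul g) = 0) :
    heckeAdd N ℓ hℓN φ = (ℓ + 1) • φ := by
  refine AddMonoidHom.ext fun g => ?_
  obtain ⟨g, rfl⟩ := Additive.ofMul.surjective g
  rw [heckeAdd_apply, AddMonoidHom.smul_apply]
  -- the key congruence
  have key : ∀ x : OnePoint (ZMod ℓ),
      φ (Additive.ofMul (heckeCoc N ℓ hℓN g x)) =
        φ (Additive.ofMul (uRep N ℓ x)) + φ (Additive.ofMul g) -
          φ (Additive.ofMul (uRep N ℓ (redMatrix ℓ (g : SL(2, ℤ)) • x))) := by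
    intro x
    set c := heckeCoc N ℓ hℓN g x with hc
    set y := redMatrix ℓ (g : SL(2, ℤ)) • x with hy
    have h1 := heckeRep_mul_eq N ℓ hℓN g x
    rw [heckeRep_eq_glOf, heckeRep_eq_glOf,
      glOf_mul_mapGL_eq_iff (det_hInt_ne_zero ℓ x) (det_hInt_ne_zero ℓ _)] at h1
    have h2 : redM m (((uRep N ℓ x * g : ↥(Gamma0 N)) : SL(2, ℤ)) : MI) =
        redM m (((c * uRep N ℓ y : ↥(Gamma0 N)) : SL(2, ℤ)) : MI) := by
      have h3 := congrArg (redM m) h1
      rw [redM_mul, redM_mul, redM_hInt N ℓ hm, redM_hInt N ℓ hm, ← redM_mul, ← redM_mul] at h3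
      exact h3
    have h4 := hφ ((uRep N ℓ x * g) * (c * uRep N ℓ y)⁻¹) (mem_Gamma_of_redM_eq h2)
    rw [ofMul_mul, ofMul_inv, ofMul_mul, ofMul_mul, map_add, map_neg, map_add, map_add] at h4
    rw [eq_sub_iff_add_eq]
    rw [add_neg_eq_zero] at h4
    exact h4.symm
  simp only [key, Finset.sum_sub_distrib, Finset.sum_add_distrib, Finset.sum_const,
    Finset.card_univ]
  have hperm : ∑ x : OnePoint (ZMod ℓ),
      φ (Additive.ofMul (uRep N ℓ (redMatrix ℓ (g : SL(2, ℤ)) • x))) =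
      ∑ x : OnePoint (ZMod ℓ), φ (Additive.ofMul (uRep N ℓ x)) :=
    Equiv.sum_comp ((heckeSys N ℓ hℓN).permEquiv g) (fun x => φ (Additive.ofMul (uRep N ℓ x)))
  have hcard : Fintype.card (OnePoint (ZMod ℓ)) = ℓ + 1 := by
    rw [show Fintype.card (OnePoint (ZMod ℓ)) = Fintype.card (Option (ZMod ℓ)) from rfl,
      Fintype.card_option, ZMod.card]
  rw [hperm, hcard]
  abel

end Fermat.Agent.P3LR.A.EisensteinCongruence
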